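/-
T1B / TORIC50 brick NORM-ALG (helper84): determinant and trace for finite projective modules.
Mathlib only.

For a finite projective `R`-module `P` choose a retract presentation
`f : F → P`, `g : P → F`, `f ∘ g = id` with `F` finite free.  Then
`projDet φ := det (1 + g (φ - 1) f)` (i.e. `φ ⊕ id` on `P ⊕ ker (g f)`), and
`projTrace φ := trace (g φ f)`.  Both are independent of the presentation because
`det (1 + A B) = det (1 + B A)` and `trace (A B) = trace (B A)`.
-/
import Mathlib

set_option autoImplicit false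
set_option linter.unusedSectionVars false

namespace Fermat.Agent.T1B.Norm84

open scoped TensorProduct

section Via

variable {R : Type*} [CommRing R]
variable {F : Type*} [AddCommGroup F] [Module R F] [Module.Free R F] [Module.Finite R F]
variable {F' : Type*} [AddCommGroup F'] [Module R F'] [Module.Free R F'] [Module.Finite R F']
variable {P : Type*} [AddCommGroup P] [Module R P]

/-- `det (1 + A B) = det (1 + B A)` for linear maps between finite free modules. -/
theorem det_one_add_comp_comm (A : F' →ₗ[R] F) (B : F →ₗ[R] F') :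
    LinearMap.det (1 + A ∘ₗ B) = LinearMap.det (1 + B ∘ₗ A) := by
  classical
  let b := Module.Free.chooseBasis R F
  let b' := Module.Free.chooseBasis R F'
  rw [← LinearMap.det_toMatrix b, ← LinearMap.det_toMatrix b']
  rw [map_add, map_add, LinearMap.toMatrix_comp b b' b, LinearMap.toMatrix_comp b' b b',
    LinearMap.toMatrix_one, LinearMap.toMatrix_one]
  exact Matrix.det_one_add_mul_comm _ _

/-- The determinant of `φ` computed through a retract presentation `(f, g)` of `P`. -/
noncomputable def detVia (f : F →ₗ[R] P) (g : P →ₗ[R] F) (φ : P →ₗ[R] P) : R :=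
  LinearMap.det (1 + g ∘ₗ (φ - 1) ∘ₗ f)

theorem detVia_one (f : F →ₗ[R] P) (g : P →ₗ[R] F) : detVia f g (1 : P →ₗ[R] P) = 1 := by
  simp [detVia]

theorem detVia_mul (f : F →ₗ[R] P) (g : P →ₗ[R] F) (hfg : f ∘ₗ g = LinearMap.id)
    (φ ψ : P →ₗ[R] P) : detVia f g (φ * ψ) = detVia f g φ * detVia f g ψ := by
  have hfg' : ∀ y, f (g y) = y := fun y => by simpa using LinearMap.congr_fun hfg y
  unfold detVia
  rw [← map_mul]
  congr 1
  ext x
  simp only [LinearMap.add_apply, Module.End.one_apply, LinearMap.comp_apply, LinearMap.sub_apply,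
    Module.End.mul_apply, map_add, map_sub, hfg']
  abel

theorem detVia_eq_detVia (f : F →ₗ[R] P) (g : P →ₗ[R] F) (hfg : f ∘ₗ g = LinearMap.id)
    (f' : F' →ₗ[R] P) (g' : P →ₗ[R] F') (hfg' : f' ∘ₗ g' = LinearMap.id) (φ : P →ₗ[R] P) :
    detVia f g φ = detVia f' g' φ := by
  have h : ∀ y, f (g y) = y := fun y => by simpa using LinearMap.congr_fun hfg y
  have h' : ∀ y, f' (g' y) = y := fun y => by simpa using LinearMap.congr_fun hfg' y
  unfold detVia
  have h1 : g ∘ₗ (φ - 1) ∘ₗ f = (g ∘ₗ (φ - 1) ∘ₗ f') ∘ₗ (g' ∘ₗ f) := by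
    ext x; simp [h']
  have h2 : g' ∘ₗ (φ - 1) ∘ₗ f' = (g' ∘ₗ f) ∘ₗ (g ∘ₗ (φ - 1) ∘ₗ f') := by
    ext x; simp [h]
  rw [h1, h2, det_one_add_comp_comm]

/-- The trace of `φ` computed through a retract presentation `(f, g)` of `P`. -/
noncomputable def traceVia (f : F →ₗ[R] P) (g : P →ₗ[R] F) (φ : P →ₗ[R] P) : R :=
  LinearMap.trace R F (g ∘ₗ φ ∘ₗ f)

theorem traceVia_add (f : F →ₗ[R] P) (g : P →ₗ[R] F) (φ ψ : P →ₗ[R] P) :
    traceVia f g (φ + ψ) = traceVia f g φ + traceVia f g ψ := by
  unfold traceVia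
  rw [← map_add]
  congr 1
  ext x; simp

theorem traceVia_smul (f : F →ₗ[R] P) (g : P →ₗ[R] F) (r : R) (φ : P →ₗ[R] P) :
    traceVia f g (r • φ) = r • traceVia f g φ := by
  unfold traceVia
  rw [← map_smul]
  congr 1
  ext x; simp

theorem traceVia_eq_traceVia (f : F →ₗ[R] P) (g : P →ₗ[R] F) (hfg : f ∘ₗ g = LinearMap.id)
    (f' : F' →ₗ[R] P) (g' : P →ₗ[R] F') (hfg' : f' ∘ₗ g' = LinearMap.id) (φ : P →ₗ[R] P) :
    traceVia f g φ = traceVia f' g' φ := by
  have h : ∀ y, f (g y) = y := fun y => by simpa using LinearMap.congr_fun hfg y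
  have h' : ∀ y, f' (g' y) = y := fun y => by simpa using LinearMap.congr_fun hfg' y
  unfold traceVia
  have h1 : g ∘ₗ φ ∘ₗ f = (g ∘ₗ φ ∘ₗ f') ∘ₗ (g' ∘ₗ f) := by
    ext x; simp [h']
  have h2 : g' ∘ₗ φ ∘ₗ f' = (g' ∘ₗ f) ∘ₗ (g ∘ₗ φ ∘ₗ f') := by
    ext x; simp [h]
  rw [h1, h2, LinearMap.trace_comp_comm']

end Via

section Proj

variable (R : Type*) [CommRing R]
variable (P : Type*) [AddCommGroup P] [Module R P] [Module.Finite R P] [Module.Projective R P]

/-- The determinant of an endomorphism of a finite projective module. -/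
noncomputable def projDet : (P →ₗ[R] P) →* R where
  toFun φ := detVia (Module.Finite.exists_comp_eq_id_of_projective R P).choose_spec.choose
      (Module.Finite.exists_comp_eq_id_of_projective R P).choose_spec.choose_spec.choose φ
  map_one' := detVia_one _ _
  map_mul' := detVia_mul _ _
    (Module.Finite.exists_comp_eq_id_of_projective R P).choose_spec.choose_spec.choose_spec.2.2

/-- The trace of an endomorphism of a finite projective module. -/
noncomputable def projTrace : (P →ₗ[R] P) →ₗ[R] R where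
  toFun φ := traceVia (Module.Finite.exists_comp_eq_id_of_projective R P).choose_spec.choose
      (Module.Finite.exists_comp_eq_id_of_projective R P).choose_spec.choose_spec.choose φ
  map_add' := traceVia_add _ _
  map_smul' := traceVia_smul _ _

variable {R P}
variable {F : Type*} [AddCommGroup F] [Module R F] [Module.Free R F] [Module.Finite R F]

theorem projDet_eq_detVia (f : F →ₗ[R] P) (g : P →ₗ[R] F) (hfg : f ∘ₗ g = LinearMap.id)
    (φ : P →ₗ[R] P) : projDet R P φ = detVia f g φ :=
  detVia_eq_detVia _ _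
    (Module.Finite.exists_comp_eq_id_of_projective R P).choose_spec.choose_spec.choose_spec.2.2
    f g hfg φ

theorem projTrace_eq_traceVia (f : F →ₗ[R] P) (g : P →ₗ[R] F) (hfg : f ∘ₗ g = LinearMap.id)
    (φ : P →ₗ[R] P) : projTrace R P φ = traceVia f g φ :=
  traceVia_eq_traceVia _ _
    (Module.Finite.exists_comp_eq_id_of_projective R P).choose_spec.choose_spec.choose_spec.2.2
    f g hfg φ

/-- On a finite free module `projDet` is `LinearMap.det`. -/
theorem projDet_eq_det [Module.Free R P] (φ : P →ₗ[R] P) : projDet R P φ = LinearMap.det φ := by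
  rw [projDet_eq_detVia (LinearMap.id : P →ₗ[R] P) LinearMap.id (by simp) φ]
  unfold detVia
  congr 1
  ext x; simp

/-- On a finite free module `projTrace` is `LinearMap.trace`. -/
theorem projTrace_eq_trace [Module.Free R P] (φ : P →ₗ[R] P) :
    projTrace R P φ = LinearMap.trace R P φ := by
  rw [projTrace_eq_traceVia (LinearMap.id : P →ₗ[R] P) LinearMap.id (by simp) φ]
  unfold traceVia
  congr 1

/-- Invariance under linear equivalences. -/
theorem projDet_conj {P' : Type*} [AddCommGroup P'] [Module R P'] [Module.Finite R P']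
    [Module.Projective R P'] (e : P ≃ₗ[R] P') (φ : P →ₗ[R] P) :
    projDet R P' (e.conj φ) = projDet R P φ := by
  obtain ⟨n, f, g, -, -, hfg⟩ := Module.Finite.exists_comp_eq_id_of_projective R P
  have h : ∀ y, f (g y) = y := fun y => by simpa using LinearMap.congr_fun hfg y
  rw [projDet_eq_detVia f g hfg, projDet_eq_detVia (e.toLinearMap ∘ₗ f) (g ∘ₗ e.symm.toLinearMap)
    (by ext x; simp [h])]
  unfold detVia
  congr 2
  ext x; simp [LinearEquiv.conj_apply]

theorem projTrace_conj {P' : Type*} [AddCommGroup P'] [Module R P'] [Module.Finite R P']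
    [Module.Projective R P'] (e : P ≃ₗ[R] P') (φ : P →ₗ[R] P) :
    projTrace R P' (e.conj φ) = projTrace R P φ := by
  obtain ⟨n, f, g, -, -, hfg⟩ := Module.Finite.exists_comp_eq_id_of_projective R P
  have h : ∀ y, f (g y) = y := fun y => by simpa using LinearMap.congr_fun hfg y
  rw [projTrace_eq_traceVia f g hfg, projTrace_eq_traceVia (e.toLinearMap ∘ₗ f)
    (g ∘ₗ e.symm.toLinearMap) (by ext x; simp [h])]
  unfold traceVia
  congr 1
  ext x; simp [LinearEquiv.conj_apply]

/-- Intertwining form of `projDet_conj`. -/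
theorem projDet_eq_of_comm {P' : Type*} [AddCommGroup P'] [Module R P'] [Module.Finite R P']
    [Module.Projective R P'] (e : P ≃ₗ[R] P') (φ : P →ₗ[R] P) (φ' : P' →ₗ[R] P')
    (h : ∀ x, φ' (e x) = e (φ x)) : projDet R P' φ' = projDet R P φ := by
  rw [← projDet_conj e φ]
  congr 1
  ext y
  obtain ⟨x, rfl⟩ := e.surjective y
  simp [LinearEquiv.conj_apply, h]

theorem projTrace_eq_of_comm {P' : Type*} [AddCommGroup P'] [Module R P'] [Module.Finite R P']
    [Module.Projective R P'] (e : P ≃ₗ[R] P') (φ : P →ₗ[R] P) (φ' : P' →ₗ[R] P')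
    (h : ∀ x, φ' (e x) = e (φ x)) : projTrace R P' φ' = projTrace R P φ := by
  rw [← projTrace_conj e φ]
  congr 1
  ext y
  obtain ⟨x, rfl⟩ := e.surjective y
  simp [LinearEquiv.conj_apply, h]

theorem projTrace_mul_comm (φ ψ : P →ₗ[R] P) :
    projTrace R P (φ * ψ) = projTrace R P (ψ * φ) := by
  obtain ⟨n, f, g, -, -, hfg⟩ := Module.Finite.exists_comp_eq_id_of_projective R P
  have h : ∀ y, f (g y) = y := fun y => by simpa using LinearMap.congr_fun hfg y
  rw [projTrace_eq_traceVia f g hfg, projTrace_eq_traceVia f g hfg]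
  unfold traceVia
  have h1 : g ∘ₗ (φ * ψ) ∘ₗ f = (g ∘ₗ φ ∘ₗ f) * (g ∘ₗ ψ ∘ₗ f) := by
    ext x; simp [h]
  have h2 : g ∘ₗ (ψ * φ) ∘ₗ f = (g ∘ₗ ψ ∘ₗ f) * (g ∘ₗ φ ∘ₗ f) := by
    ext x; simp [h]
  rw [h1, h2, LinearMap.trace_mul_comm]

/-- Base change. -/
theorem projDet_baseChange (S : Type*) [CommRing S] [Algebra R S] (φ : P →ₗ[R] P) :
    projDet S (S ⊗[R] P) (φ.baseChange S) = algebraMap R S (projDet R P φ) := by
  obtain ⟨n, f, g, -, -, hfg⟩ := Module.Finite.exists_comp_eq_id_of_projective R P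
  rw [projDet_eq_detVia f g hfg, projDet_eq_detVia (f.baseChange S) (g.baseChange S)
    (by rw [← LinearMap.baseChange_comp, hfg, LinearMap.baseChange_id])]
  unfold detVia
  rw [← LinearMap.det_baseChange]
  congr 1
  ext x
  simp [TensorProduct.tmul_sub]

theorem projTrace_baseChange (S : Type*) [CommRing S] [Algebra R S] (φ : P →ₗ[R] P) :
    projTrace S (S ⊗[R] P) (φ.baseChange S) = algebraMap R S (projTrace R P φ) := by
  obtain ⟨n, f, g, -, -, hfg⟩ := Module.Finite.exists_comp_eq_id_of_projective R P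
  rw [projTrace_eq_traceVia f g hfg, projTrace_eq_traceVia (f.baseChange S) (g.baseChange S)
    (by rw [← LinearMap.baseChange_comp, hfg, LinearMap.baseChange_id])]
  unfold traceVia
  rw [← LinearMap.trace_baseChange]
  congr 1
  ext x
  simp

/-- Product formula. -/
theorem projDet_prodMap {P' : Type*} [AddCommGroup P'] [Module R P'] [Module.Finite R P']
    [Module.Projective R P'] (φ : P →ₗ[R] P) (φ' : P' →ₗ[R] P') :
    projDet R (P × P') (φ.prodMap φ') = projDet R P φ * projDet R P' φ' := by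
  obtain ⟨n, f, g, -, -, hfg⟩ := Module.Finite.exists_comp_eq_id_of_projective R P
  obtain ⟨n', f', g', -, -, hfg'⟩ := Module.Finite.exists_comp_eq_id_of_projective R P'
  rw [projDet_eq_detVia f g hfg, projDet_eq_detVia f' g' hfg',
    projDet_eq_detVia (f.prodMap f') (g.prodMap g')
      (by rw [LinearMap.prodMap_comp, hfg, hfg', LinearMap.prodMap_id])]
  unfold detVia
  rw [← LinearMap.det_prodMap]
  congr 1

theorem projTrace_prodMap {P' : Type*} [AddCommGroup P'] [Module R P'] [Module.Finite R P']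
    [Module.Projective R P'] (φ : P →ₗ[R] P) (φ' : P' →ₗ[R] P') :
    projTrace R (P × P') (φ.prodMap φ') = projTrace R P φ + projTrace R P' φ' := by
  obtain ⟨n, f, g, -, -, hfg⟩ := Module.Finite.exists_comp_eq_id_of_projective R P
  obtain ⟨n', f', g', -, -, hfg'⟩ := Module.Finite.exists_comp_eq_id_of_projective R P'
  rw [projTrace_eq_traceVia f g hfg, projTrace_eq_traceVia f' g' hfg',
    projTrace_eq_traceVia (f.prodMap f') (g.prodMap g')
      (by rw [LinearMap.prodMap_comp, hfg, hfg', LinearMap.prodMap_id])]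
  unfold traceVia
  rw [← LinearMap.trace_prodMap']
  congr 1

end Proj

section SqZeroMatrix

variable {R : Type*} [CommRing R] {n : Type*} [Fintype n] [DecidableEq n]

theorem mul_eq_zero_of_mem_sq_zero (I : Ideal R) (hI : I ^ 2 = ⊥) {a b : R} (ha : a ∈ I)
    (hb : b ∈ I) : a * b = 0 := by
  have : a * b ∈ I ^ 2 := by rw [pow_two]; exact Ideal.mul_mem_mul ha hb
  rwa [hI, Ideal.mem_bot] at this

theorem matrix_mul_eq_zero_of_sq_zero (I : Ideal R) (hI : I ^ 2 = ⊥) (M M' : Matrix n n R)
    (hM : ∀ i j, M i j ∈ I) (hM' : ∀ i j, M' i j ∈ I) : M * M' = 0 := by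
  ext i j
  rw [Matrix.mul_apply]
  exact Finset.sum_eq_zero fun k _ => mul_eq_zero_of_mem_sq_zero I hI (hM i k) (hM' k j)

theorem det_one_add_sum_of_sq_zero (I : Ideal R) (hI : I ^ 2 = ⊥) {ι : Type*} (s : Finset ι)
    (M : ι → Matrix n n R) (hM : ∀ k i j, M k i j ∈ I) :
    (1 + ∑ k ∈ s, M k).det = ∏ k ∈ s, (1 + M k).det := by
  classical
  induction s using Finset.induction_on with
  | empty => simp
  | insert a s ha ih =>
    rw [Finset.sum_insert ha, Finset.prod_insert ha, ← ih, ← Matrix.det_mul]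
    congr 1
    have h0 : M a * ∑ k ∈ s, M k = 0 :=
      matrix_mul_eq_zero_of_sq_zero I hI _ _ (hM a) fun i j => by
        rw [Matrix.sum_apply]
        exact Ideal.sum_mem _ fun k _ => hM k i j
    rw [add_mul, one_mul, mul_add, mul_one, h0]
    abel

theorem one_add_trace_sum_of_sq_zero (I : Ideal R) (hI : I ^ 2 = ⊥) {ι : Type*} (s : Finset ι)
    (M : ι → Matrix n n R) (hM : ∀ k i j, M k i j ∈ I) :
    1 + (∑ k ∈ s, M k).trace = ∏ k ∈ s, (1 + (M k).trace) := by
  classical
  induction s using Finset.induction_on with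
  | empty => simp
  | insert a s ha ih =>
    rw [Finset.sum_insert ha, Finset.prod_insert ha, ← ih, Matrix.trace_add]
    have h1 : (M a).trace ∈ I := Ideal.sum_mem _ fun i _ => hM a i i
    have h2 : (∑ k ∈ s, M k).trace ∈ I := Ideal.sum_mem _ fun i _ => by
      rw [Matrix.diag_apply, Matrix.sum_apply]
      exact Ideal.sum_mem _ fun k _ => hM k i i
    have h0 := mul_eq_zero_of_mem_sq_zero I hI h1 h2
    linear_combination -h0

/-- If `I ^ 2 = 0` and all entries of `N` lie in `I` then `det (1 + N) = 1 + trace N`. -/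
theorem det_one_add_of_sq_zero (I : Ideal R) (hI : I ^ 2 = ⊥) (N : Matrix n n R)
    (hN : ∀ i j, N i j ∈ I) : (1 + N).det = 1 + N.trace := by
  -- column decomposition
  let M : n → Matrix n n R := fun j =>
    Matrix.replicateCol Unit (fun i => N i j) * Matrix.replicateRow Unit (Pi.single j (1 : R))
  have hMapp : ∀ j i k, M j i k = if k = j then N i j else 0 := by
    intro j i k
    simp only [M, Matrix.mul_apply, Matrix.replicateCol_apply, Matrix.replicateRow_apply,
      Finset.univ_unique, Finset.sum_singleton, Pi.single_apply]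
    split_ifs <;> simp
  have hM : ∀ k i j, M k i j ∈ I := by
    intro k i j
    rw [hMapp]
    split_ifs
    · exact hN _ _
    · exact I.zero_mem
  have hsum : N = ∑ j, M j := by
    ext i k
    rw [Matrix.sum_apply]
    simp only [hMapp]
    simp
  have hterm : ∀ j, (1 + M j).det = 1 + (M j).trace := by
    intro j
    rw [Matrix.det_one_add_replicateCol_mul_replicateRow]
    congr 1
    rw [Matrix.trace]
    simp only [Matrix.diag_apply, hMapp]
    simp
  rw [hsum, det_one_add_sum_of_sq_zero I hI _ M hM, one_add_trace_sum_of_sq_zero I hI _ M hM]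
  exact Finset.prod_congr rfl fun j _ => hterm j

end SqZeroMatrix

section SqZeroProj

variable {R : Type*} [CommRing R]
variable {P : Type*} [AddCommGroup P] [Module R P]

theorem apply_mem_of_mem_smul_top (I : Ideal R) (ℓ : P →ₗ[R] R) {y : P}
    (hy : y ∈ I • (⊤ : Submodule R P)) : ℓ y ∈ I := by
  refine Submodule.smul_induction_on hy (fun a ha m _ => ?_) (fun a b ha hb => ?_)
  · rw [map_smul, smul_eq_mul]; exact I.mul_mem_right _ ha
  · rw [map_add]; exact I.add_mem ha hb

variable [Module.Finite R P] [Module.Projective R P]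

/-- SQUARE-ZERO formula: if `I ^ 2 = 0` and `φ` maps `P` into `I P` then
`projDet (1 + φ) = 1 + projTrace φ`. -/
theorem projDet_one_add_of_sq_zero (I : Ideal R) (hI : I ^ 2 = ⊥) (φ : P →ₗ[R] P)
    (hφ : ∀ x, φ x ∈ I • (⊤ : Submodule R P)) :
    projDet R P (1 + φ) = 1 + projTrace R P φ := by
  classical
  obtain ⟨n, f, g, -, -, hfg⟩ := Module.Finite.exists_comp_eq_id_of_projective R P
  rw [projDet_eq_detVia f g hfg, projTrace_eq_traceVia f g hfg]
  unfold detVia traceVia
  rw [add_sub_cancel_left]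
  have hψ : ∀ i j, LinearMap.toMatrix' (g ∘ₗ φ ∘ₗ f) i j ∈ I := by
    intro i j
    rw [LinearMap.toMatrix'_apply]
    exact apply_mem_of_mem_smul_top I (LinearMap.proj i ∘ₗ g) (hφ _)
  rw [← LinearMap.det_toMatrix', map_add, LinearMap.toMatrix'_one,
    det_one_add_of_sq_zero I hI _ hψ,
    LinearMap.trace_eq_matrix_trace R (Pi.basisFun R (Fin n)), LinearMap.toMatrix_eq_toMatrix']

/-- Scalars: if `P` has constant rank `d` then `projDet (r • 1) = r ^ d`. -/
theorem projDet_smul_one_of_rank (d : ℕ) (hd : ∀ p : PrimeSpectrum R, Module.rankAtStalk P p = d)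
    (r : R) : projDet R P (r • (1 : P →ₗ[R] P)) = r ^ d := by
  rw [← sub_eq_zero]
  refine eq_zero_of_localization _ fun J hJ => ?_
  rw [map_sub, sub_eq_zero, ← projDet_baseChange]
  have : Module.Free (Localization.AtPrime J) (Localization.AtPrime J ⊗[R] P) :=
    Module.free_of_flat_of_isLocalRing
  rw [projDet_eq_det]
  have h1 : (r • (1 : P →ₗ[R] P)).baseChange (Localization.AtPrime J) =
      (algebraMap R (Localization.AtPrime J) r) •
        (1 : Localization.AtPrime J ⊗[R] P →ₗ[Localization.AtPrime J] _) := by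
    ext x
    simp [TensorProduct.smul_tmul']
  rw [h1, LinearMap.det_smul, map_one, mul_one, map_pow,
    ← Module.rankAtStalk_eq_finrank_tensorProduct (R := R) (M := P) ⟨J, hJ.isPrime⟩, hd]

end SqZeroProj

end Fermat.Agent.T1B.Norm84
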