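/-
T1B / TORIC50 brick NORM-ALG (helper84): norm and trace of a finite projective algebra.
Mathlib only (on top of `ProjDet`).
-/
import Fermat.Agent.T1B.Norm84.ProjDet

set_option autoImplicit false
set_option linter.unusedSectionVars false

namespace Fermat.Agent.T1B.Norm84

open scoped TensorProduct

section Norm

variable (R : Type*) [CommRing R] (C : Type*) [Ring C] [Algebra R C] [Module.Finite R C]
  [Module.Projective R C]

/-- The norm of a finite projective algebra. -/
noncomputable def projNorm : C →* R :=
  (projDet R C).comp (Algebra.lmul R C).toRingHom.toMonoidHom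

/-- The trace of a finite projective algebra. -/
noncomputable def projTr : C →ₗ[R] R :=
  (projTrace R C).comp (Algebra.lmul R C).toLinearMap

variable {R C}

theorem projNorm_apply (c : C) : projNorm R C c = projDet R C (Algebra.lmul R C c) := rfl

theorem projTr_apply (c : C) : projTr R C c = projTrace R C (Algebra.lmul R C c) := rfl

theorem projNorm_eq_norm [Module.Free R C] (c : C) : projNorm R C c = Algebra.norm R c := by
  rw [projNorm_apply, projDet_eq_det, Algebra.norm_apply]

theorem isUnit_projNorm {c : C} (hc : IsUnit c) : IsUnit (projNorm R C c) := hc.map _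

variable (R C) in
/-- The norm on units. -/
noncomputable def projNormUnits : Cˣ →* Rˣ := Units.map (projNorm R C)

@[simp] theorem coe_projNormUnits (u : Cˣ) :
    ((projNormUnits R C u : Rˣ) : R) = projNorm R C (u : C) := rfl

/-- Invariance under algebra isomorphisms. -/
theorem projNorm_algEquiv {C' : Type*} [Ring C'] [Algebra R C'] [Module.Finite R C']
    [Module.Projective R C'] (e : C ≃ₐ[R] C') (c : C) :
    projNorm R C' (e c) = projNorm R C c := by
  rw [projNorm_apply, projNorm_apply]
  exact projDet_eq_of_comm e.toLinearEquiv _ _ fun x => by simp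

theorem projTr_algEquiv {C' : Type*} [Ring C'] [Algebra R C'] [Module.Finite R C']
    [Module.Projective R C'] (e : C ≃ₐ[R] C') (c : C) :
    projTr R C' (e c) = projTr R C c := by
  rw [projTr_apply, projTr_apply]
  exact projTrace_eq_of_comm e.toLinearEquiv _ _ fun x => by simp

/-- PRODUCT formula. -/
theorem projNorm_prod {C' : Type*} [Ring C'] [Algebra R C'] [Module.Finite R C']
    [Module.Projective R C'] (c : C × C') :
    projNorm R (C × C') c = projNorm R C c.1 * projNorm R C' c.2 := by
  rw [projNorm_apply, projNorm_apply, projNorm_apply, ← projDet_prodMap]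
  congr 1

theorem projTr_prod {C' : Type*} [Ring C'] [Algebra R C'] [Module.Finite R C']
    [Module.Projective R C'] (c : C × C') :
    projTr R (C × C') c = projTr R C c.1 + projTr R C' c.2 := by
  rw [projTr_apply, projTr_apply, projTr_apply, ← projTrace_prodMap]
  congr 1

/-- Product formula through an algebra isomorphism `C ≃ C₁ × C₂`. -/
theorem projNorm_of_algEquiv_prod {C₁ C₂ : Type*} [Ring C₁] [Algebra R C₁] [Module.Finite R C₁]
    [Module.Projective R C₁] [Ring C₂] [Algebra R C₂] [Module.Finite R C₂]
    [Module.Projective R C₂] (e : C ≃ₐ[R] C₁ × C₂) (c : C) :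
    projNorm R C c = projNorm R C₁ (e c).1 * projNorm R C₂ (e c).2 := by
  rw [← projNorm_algEquiv e, projNorm_prod]

/-- Base change. -/
theorem projNorm_baseChange (S : Type*) [CommRing S] [Algebra R S] (c : C) :
    projNorm S (S ⊗[R] C) (1 ⊗ₜ[R] c) = algebraMap R S (projNorm R C c) := by
  rw [projNorm_apply, projNorm_apply, ← projDet_baseChange]
  congr 1
  ext x
  simp

theorem projTr_baseChange (S : Type*) [CommRing S] [Algebra R S] (c : C) :
    projTr S (S ⊗[R] C) (1 ⊗ₜ[R] c) = algebraMap R S (projTr R C c) := by
  rw [projTr_apply, projTr_apply, ← projTrace_baseChange]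
  congr 1
  ext x
  simp

/-- SQUARE-ZERO formula for the norm. -/
theorem projNorm_one_add_of_sq_zero (I : Ideal R) (hI : I ^ 2 = ⊥) (x : C)
    (hx : x ∈ I • (⊤ : Submodule R C)) :
    projNorm R C (1 + x) = 1 + projTr R C x := by
  rw [projNorm_apply, projTr_apply, map_add, map_one]
  refine projDet_one_add_of_sq_zero I hI _ fun y => ?_
  refine Submodule.smul_induction_on hx (fun a ha m _ => ?_) (fun a b ha hb => ?_)
  · rw [map_smul, LinearMap.smul_apply]
    exact Submodule.smul_mem_smul ha Submodule.mem_top
  · rw [map_add, LinearMap.add_apply]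
    exact Submodule.add_mem _ ha hb

/-- Scalars in constant rank `d`. -/
theorem projNorm_algebraMap_of_rank (d : ℕ)
    (hd : ∀ p : PrimeSpectrum R, Module.rankAtStalk C p = d) (r : R) :
    projNorm R C (algebraMap R C r) = r ^ d := by
  rw [projNorm_apply, ← projDet_smul_one_of_rank d hd r]
  congr 1
  ext x
  simp [Algebra.smul_def]

end Norm

section NormComm

variable {R : Type*} [CommRing R] {C : Type*} [CommRing C] [Algebra R C] [Module.Finite R C]
  [Module.Projective R C]

theorem projTr_eq_trace [Module.Free R C] (c : C) : projTr R C c = Algebra.trace R C c := by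
  rw [projTr_apply, projTrace_eq_trace, Algebra.trace_apply]

/-- Square-zero formula with the hypothesis stated in terms of the extended ideal `I C`. -/
theorem projNorm_one_add_of_sq_zero' (I : Ideal R) (hI : I ^ 2 = ⊥) (x : C)
    (hx : x ∈ I.map (algebraMap R C)) :
    projNorm R C (1 + x) = 1 + projTr R C x := by
  refine projNorm_one_add_of_sq_zero I hI x ?_
  rw [Ideal.smul_top_eq_map]
  exact hx

end NormComm

end Fermat.Agent.T1B.Norm84
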