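/-
T1B / TORIC50 brick NORM-ALG (helper84), part 3: `IsBaseChange` / pushout / localisation forms
of base change for `projDet`, `projTrace`, `projNorm`, `projTr`; congruences modulo an ideal;
constant rank over a domain.  Mathlib only (on top of `ProjDet`, `ProjNorm`).
-/
import Fermat.Agent.T1B.Norm84.ProjNorm

set_option autoImplicit false
set_option linter.unusedSectionVars false

namespace Fermat.Agent.T1B.Norm84

open scoped TensorProduct

section IsBaseChangeModule

variable {R : Type*} [CommRing R] {S : Type*} [CommRing S] [Algebra R S]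
variable {P : Type*} [AddCommGroup P] [Module R P]
variable {P' : Type*} [AddCommGroup P'] [Module R P'] [Module S P'] [IsScalarTower R S P']

theorem finite_of_isBaseChange [Module.Finite R P] {ι : P →ₗ[R] P'} (h : IsBaseChange S ι) :
    Module.Finite S P' :=
  Module.Finite.equiv h.equiv

theorem projective_of_isBaseChange [Module.Projective R P] {ι : P →ₗ[R] P'}
    (h : IsBaseChange S ι) : Module.Projective S P' :=
  Module.Projective.of_equiv h.equiv

variable [Module.Finite R P] [Module.Projective R P] [Module.Finite S P'] [Module.Projective S P']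

theorem isBaseChange_comm_aux {ι : P →ₗ[R] P'} (h : IsBaseChange S ι) (φ : P →ₗ[R] P)
    (φ' : P' →ₗ[S] P') (hc : ∀ x, φ' (ι x) = ι (φ x)) (z : S ⊗[R] P) :
    φ' (h.equiv z) = h.equiv (φ.baseChange S z) := by
  induction z using TensorProduct.induction_on with
  | zero => simp
  | tmul s x => simp [IsBaseChange.equiv_tmul, hc]
  | add a b ha hb => simp [ha, hb]

/-- `IsBaseChange` form of base change for `projDet`. -/
theorem projDet_of_isBaseChange {ι : P →ₗ[R] P'} (h : IsBaseChange S ι) (φ : P →ₗ[R] P)
    (φ' : P' →ₗ[S] P') (hc : ∀ x, φ' (ι x) = ι (φ x)) :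
    projDet S P' φ' = algebraMap R S (projDet R P φ) := by
  rw [← projDet_baseChange]
  exact projDet_eq_of_comm h.equiv _ _ (isBaseChange_comm_aux h φ φ' hc)

/-- `IsBaseChange` form of base change for `projTrace`. -/
theorem projTrace_of_isBaseChange {ι : P →ₗ[R] P'} (h : IsBaseChange S ι) (φ : P →ₗ[R] P)
    (φ' : P' →ₗ[S] P') (hc : ∀ x, φ' (ι x) = ι (φ x)) :
    projTrace S P' φ' = algebraMap R S (projTrace R P φ) := by
  rw [← projTrace_baseChange]
  exact projTrace_eq_of_comm h.equiv _ _ (isBaseChange_comm_aux h φ φ' hc)

end IsBaseChangeModule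

section IsBaseChangeAlgebra

variable {R : Type*} [CommRing R] {S : Type*} [CommRing S] [Algebra R S]
variable {C : Type*} [Ring C] [Algebra R C] [Module.Finite R C] [Module.Projective R C]
variable {C' : Type*} [Ring C'] [Algebra R C'] [Algebra S C'] [IsScalarTower R S C']
  [Module.Finite S C'] [Module.Projective S C']

/-- `IsBaseChange` form of base change for `projNorm`: `j : C → C'` exhibits `C'` as `S ⊗[R] C`. -/
theorem projNorm_of_isBaseChange (j : C →ₐ[R] C') (h : IsBaseChange S j.toLinearMap) (c : C) :
    projNorm S C' (j c) = algebraMap R S (projNorm R C c) := by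
  rw [projNorm_apply, projNorm_apply]
  exact projDet_of_isBaseChange h _ _ fun x => by simp

theorem projTr_of_isBaseChange (j : C →ₐ[R] C') (h : IsBaseChange S j.toLinearMap) (c : C) :
    projTr S C' (j c) = algebraMap R S (projTr R C c) := by
  rw [projTr_apply, projTr_apply]
  exact projTrace_of_isBaseChange h _ _ fun x => by simp

end IsBaseChangeAlgebra

section Pushout

variable {R : Type*} [CommRing R] {S : Type*} [CommRing S] [Algebra R S]
variable {C : Type*} [CommRing C] [Algebra R C] [Module.Finite R C] [Module.Projective R C]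
variable {C' : Type*} [CommRing C'] [Algebra R C'] [Algebra S C'] [Algebra C C']
  [IsScalarTower R S C'] [IsScalarTower R C C'] [Module.Finite S C'] [Module.Projective S C']

/-- Pushout form: if `C' = S ⊗[R] C` (`Algebra.IsPushout R S C C'`) then the norm of `C'/S`
restricted to `C` is the norm of `C/R`. -/
theorem projNorm_of_isPushout [Algebra.IsPushout R S C C'] (c : C) :
    projNorm S C' (algebraMap C C' c) = algebraMap R S (projNorm R C c) :=
  projNorm_of_isBaseChange (IsScalarTower.toAlgHom R C C') Algebra.IsPushout.out c

theorem projTr_of_isPushout [Algebra.IsPushout R S C C'] (c : C) :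
    projTr S C' (algebraMap C C' c) = algebraMap R S (projTr R C c) :=
  projTr_of_isBaseChange (IsScalarTower.toAlgHom R C C') Algebra.IsPushout.out c

/-- Localisation form: `S = M⁻¹ R`, `C' = M⁻¹ C`. -/
theorem projNorm_of_isLocalization (M : Submonoid R) [IsLocalization M S]
    [IsLocalization (Algebra.algebraMapSubmonoid C M) C'] (c : C) :
    projNorm S C' (algebraMap C C' c) = algebraMap R S (projNorm R C c) :=
  projNorm_of_isBaseChange (IsScalarTower.toAlgHom R C C')
    ((isLocalizedModule_iff_isBaseChange M S _).mp inferInstance) c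

theorem projTr_of_isLocalization (M : Submonoid R) [IsLocalization M S]
    [IsLocalization (Algebra.algebraMapSubmonoid C M) C'] (c : C) :
    projTr S C' (algebraMap C C' c) = algebraMap R S (projTr R C c) :=
  projTr_of_isBaseChange (IsScalarTower.toAlgHom R C C')
    ((isLocalizedModule_iff_isBaseChange M S _).mp inferInstance) c

end Pushout

end Fermat.Agent.T1B.Norm84
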