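/-
T1B / TORIC50 brick NORM-ALG (helper84), part 4: congruences modulo an ideal
(`N c ≡ N c'` mod `I` if `c ≡ c'` mod `I C`) and constant rank over a domain.  Mathlib only.
-/
import Fermat.Agent.T1B.Norm84.BaseChange

set_option autoImplicit false
set_option linter.unusedSectionVars false

namespace Fermat.Agent.T1B.Norm84

open scoped TensorProduct

section Congruence

variable {R : Type*} [CommRing R]
variable {P : Type*} [AddCommGroup P] [Module R P]

theorem tmul_eq_zero_of_mem_smul_top (I : Ideal R) {y : P}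
    (hy : y ∈ I • (⊤ : Submodule R P)) (s : R ⧸ I) : s ⊗ₜ[R] y = 0 := by
  refine Submodule.smul_induction_on hy (fun a ha m _ => ?_) (fun a b ha hb => ?_)
  · rw [TensorProduct.tmul_smul, TensorProduct.smul_tmul', Algebra.smul_def,
      Ideal.Quotient.algebraMap_eq, Ideal.Quotient.eq_zero_iff_mem.mpr ha, zero_mul,
      TensorProduct.zero_tmul]
  · rw [TensorProduct.tmul_add, ha, hb, add_zero]

variable [Module.Finite R P] [Module.Projective R P]

/-- Congruence: if `φ ≡ ψ` modulo `I P` then `projDet φ ≡ projDet ψ` modulo `I`. -/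
theorem projDet_sub_mem (I : Ideal R) (φ ψ : P →ₗ[R] P)
    (h : ∀ x, φ x - ψ x ∈ I • (⊤ : Submodule R P)) :
    projDet R P φ - projDet R P ψ ∈ I := by
  rw [← Ideal.Quotient.eq, ← Ideal.Quotient.algebraMap_eq, ← projDet_baseChange,
    ← projDet_baseChange]
  congr 1
  ext x
  change (1 : R ⧸ I) ⊗ₜ[R] φ x = (1 : R ⧸ I) ⊗ₜ[R] ψ x
  rw [← sub_eq_zero, ← TensorProduct.tmul_sub]
  exact tmul_eq_zero_of_mem_smul_top I (h x) 1

theorem projTrace_sub_mem (I : Ideal R) (φ ψ : P →ₗ[R] P)
    (h : ∀ x, φ x - ψ x ∈ I • (⊤ : Submodule R P)) :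
    projTrace R P φ - projTrace R P ψ ∈ I := by
  rw [← Ideal.Quotient.eq, ← Ideal.Quotient.algebraMap_eq, ← projTrace_baseChange,
    ← projTrace_baseChange]
  congr 1
  ext x
  change (1 : R ⧸ I) ⊗ₜ[R] φ x = (1 : R ⧸ I) ⊗ₜ[R] ψ x
  rw [← sub_eq_zero, ← TensorProduct.tmul_sub]
  exact tmul_eq_zero_of_mem_smul_top I (h x) 1

end Congruence

section CongruenceAlg

variable {R : Type*} [CommRing R] {C : Type*} [Ring C] [Algebra R C] [Module.Finite R C]
  [Module.Projective R C]

theorem mul_mem_smul_top (I : Ideal R) {x : C} (hx : x ∈ I • (⊤ : Submodule R C)) (y : C) :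
    x * y ∈ I • (⊤ : Submodule R C) := by
  refine Submodule.smul_induction_on hx (fun a ha m _ => ?_) (fun a b ha hb => ?_)
  · rw [smul_mul_assoc]
    exact Submodule.smul_mem_smul ha Submodule.mem_top
  · rw [add_mul]
    exact Submodule.add_mem _ ha hb

/-- Congruence for the norm: `c ≡ c'` modulo `I C` implies `N c ≡ N c'` modulo `I`. -/
theorem projNorm_sub_mem (I : Ideal R) (c c' : C) (h : c - c' ∈ I • (⊤ : Submodule R C)) :
    projNorm R C c - projNorm R C c' ∈ I := by
  rw [projNorm_apply, projNorm_apply]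
  refine projDet_sub_mem I _ _ fun x => ?_
  change c * x - c' * x ∈ _
  rw [← sub_mul]
  exact mul_mem_smul_top I h x

/-- `N (1 + x) ≡ 1` modulo `I` for `x ∈ I C`. -/
theorem projNorm_one_add_sub_one_mem (I : Ideal R) (x : C)
    (hx : x ∈ I • (⊤ : Submodule R C)) : projNorm R C (1 + x) - 1 ∈ I := by
  have := projNorm_sub_mem I (1 + x) 1 (by simpa using hx)
  rwa [map_one] at this

theorem projTr_mem (I : Ideal R) (x : C) (hx : x ∈ I • (⊤ : Submodule R C)) :
    projTr R C x ∈ I := by
  have := projTrace_sub_mem I (Algebra.lmul R C x) 0 fun y => by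
    simpa using mul_mem_smul_top I hx y
  simpa [projTr_apply] using this

end CongruenceAlg

section Domain

variable {R : Type*} [CommRing R] [IsDomain R]
variable {P : Type*} [AddCommGroup P] [Module R P] [Module.Finite R P] [Module.Projective R P]

/-- Over a domain a finite projective module has constant rank `finrank R P`. -/
theorem rankAtStalk_eq_finrank_of_isDomain (p : PrimeSpectrum R) :
    Module.rankAtStalk P p = Module.finrank R P := by
  rw [Module.rankAtStalk_eq, Ideal.finrank_fiber_eq_finrank]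

theorem rankAtStalk_baseChange_of_isDomain (S : Type*) [CommRing S] [Algebra R S]
    (p : PrimeSpectrum S) : Module.rankAtStalk (S ⊗[R] P) p = Module.finrank R P := by
  rw [Module.rankAtStalk_baseChange, rankAtStalk_eq_finrank_of_isDomain]

theorem projDet_smul_one_of_isDomain (r : R) :
    projDet R P (r • (1 : P →ₗ[R] P)) = r ^ Module.finrank R P :=
  projDet_smul_one_of_rank (Module.finrank R P) (fun p => rankAtStalk_eq_finrank_of_isDomain p) r

theorem projDet_baseChange_smul_one_of_isDomain (S : Type*) [CommRing S] [Algebra R S] (s : S) :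
    projDet S (S ⊗[R] P) (s • (1 : S ⊗[R] P →ₗ[S] S ⊗[R] P)) = s ^ Module.finrank R P :=
  projDet_smul_one_of_rank (R := S) (P := S ⊗[R] P) (Module.finrank R P)
    (fun p => rankAtStalk_baseChange_of_isDomain S p) s

variable {C : Type*} [Ring C] [Algebra R C] [Module.Finite R C] [Module.Projective R C]

theorem projNorm_algebraMap_of_isDomain (r : R) :
    projNorm R C (algebraMap R C r) = r ^ Module.finrank R C :=
  projNorm_algebraMap_of_rank (Module.finrank R C)
    (fun p => rankAtStalk_eq_finrank_of_isDomain p) r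

theorem projNorm_baseChange_algebraMap_of_isDomain (S : Type*) [CommRing S] [Algebra R S]
    (s : S) : projNorm S (S ⊗[R] C) (algebraMap S (S ⊗[R] C) s) = s ^ Module.finrank R C :=
  projNorm_algebraMap_of_rank (R := S) (C := S ⊗[R] C) (Module.finrank R C)
    (fun p => rankAtStalk_baseChange_of_isDomain S p) s

end Domain

end Fermat.Agent.T1B.Norm84
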