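/-
T1B / TORIC50 brick NORM-ALG (helper84), part 5: tower forms (ideal in a smaller ring),
`IsPushout`-named finiteness/projectivity, and the LEFT-handed tensor layer:
for `W`-algebras `A → C` and a coefficient `W`-algebra `R`, the inclusion `C → R ⊗[W] C` is the
base change of `A → R ⊗[W] A` (Mathlib's `Algebra.IsPushout.tensorProduct_tensorProduct` is the
right-handed statement).  Mathlib only.
-/
import Fermat.Agent.T1B.Norm84.Congr

set_option autoImplicit false
set_option linter.unusedSectionVars false

namespace Fermat.Agent.T1B.Norm84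

open scoped TensorProduct

section TowerSq

variable {R₀ : Type*} [CommRing R₀] {R : Type*} [CommRing R] [Algebra R₀ R]
variable {C : Type*} [Ring C] [Algebra R C] [Algebra R₀ C] [IsScalarTower R₀ R C]
  [Module.Finite R C] [Module.Projective R C]

theorem mem_map_smul_top_of_tower (I : Ideal R₀) {x : C}
    (hx : x ∈ I • (⊤ : Submodule R₀ C)) :
    x ∈ (I.map (algebraMap R₀ R)) • (⊤ : Submodule R C) := by
  refine Submodule.smul_induction_on hx (fun a ha m _ => ?_) (fun a b ha hb => ?_)
  · rw [← algebraMap_smul R a m]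
    exact Submodule.smul_mem_smul (Ideal.mem_map_of_mem _ ha) Submodule.mem_top
  · exact Submodule.add_mem _ ha hb

/-- Tower form of the square-zero formula: the ideal lives in a smaller ring `R₀ → R`. -/
theorem projNorm_one_add_of_sq_zero_tower (I : Ideal R₀) (hI : I ^ 2 = ⊥) (x : C)
    (hx : x ∈ I • (⊤ : Submodule R₀ C)) :
    projNorm R C (1 + x) = 1 + projTr R C x :=
  projNorm_one_add_of_sq_zero (I.map (algebraMap R₀ R))
    (by rw [← Ideal.map_pow, hI, Ideal.map_bot]) x (mem_map_smul_top_of_tower I hx)

/-- Tower form of the congruence: `N (1 + x) ≡ 1` modulo `I R`. -/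
theorem projNorm_one_add_sub_one_mem_tower (I : Ideal R₀) (x : C)
    (hx : x ∈ I • (⊤ : Submodule R₀ C)) :
    projNorm R C (1 + x) - 1 ∈ I.map (algebraMap R₀ R) :=
  projNorm_one_add_sub_one_mem _ x (mem_map_smul_top_of_tower I hx)

theorem projNorm_sub_mem_tower (I : Ideal R₀) (c c' : C)
    (h : c - c' ∈ I • (⊤ : Submodule R₀ C)) :
    projNorm R C c - projNorm R C c' ∈ I.map (algebraMap R₀ R) :=
  projNorm_sub_mem _ c c' (mem_map_smul_top_of_tower I h)

end TowerSq

section PushoutInst

variable {R : Type*} [CommRing R] {S : Type*} [CommRing S] [Algebra R S]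
variable {C : Type*} [CommRing C] [Algebra R C]
variable {C' : Type*} [CommRing C'] [Algebra R C'] [Algebra S C'] [Algebra C C']
  [IsScalarTower R S C'] [IsScalarTower R C C']

theorem finite_of_isPushout [Module.Finite R C] [Algebra.IsPushout R S C C'] :
    Module.Finite S C' :=
  finite_of_isBaseChange (Algebra.IsPushout.out (R := R) (S := S) (R' := C) (S' := C'))

theorem projective_of_isPushout [Module.Projective R C] [Algebra.IsPushout R S C C'] :
    Module.Projective S C' :=
  projective_of_isBaseChange (Algebra.IsPushout.out (R := R) (S := S) (R' := C) (S' := C'))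

end PushoutInst

section TB

variable (W R A C : Type*) [CommRing W] [CommRing R] [CommRing A] [CommRing C]
  [Algebra W R] [Algebra W A] [Algebra W C] [Algebra A C] [IsScalarTower W A C]

/-- `R ⊗[W] C` as an algebra over `R ⊗[W] A` through `id ⊗ (A → C)`. -/
@[reducible] noncomputable def tAlg : Algebra (R ⊗[W] A) (R ⊗[W] C) :=
  (Algebra.TensorProduct.map (AlgHom.id R R) (IsScalarTower.toAlgHom W A C)).toRingHom.toAlgebra

/-- `R ⊗[W] C` as an algebra over `A` through `a ↦ 1 ⊗ a`. -/
@[reducible] noncomputable def tAlgA : Algebra A (R ⊗[W] C) :=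
  ((Algebra.TensorProduct.includeRight (R := W) (A := R) (B := C)).toRingHom.comp
    (algebraMap A C)).toAlgebra

attribute [local instance 50] tAlg tAlgA
attribute [local instance] Algebra.TensorProduct.rightAlgebra

theorem tAlg_algebraMap_tmul (r : R) (a : A) :
    algebraMap (R ⊗[W] A) (R ⊗[W] C) (r ⊗ₜ a) = r ⊗ₜ algebraMap A C a := by
  simp [RingHom.algebraMap_toAlgebra]

theorem tAlgA_algebraMap (a : A) :
    algebraMap A (R ⊗[W] C) a = 1 ⊗ₜ algebraMap A C a := by
  simp [RingHom.algebraMap_toAlgebra]

theorem tTower : IsScalarTower A (R ⊗[W] A) (R ⊗[W] C) :=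
  IsScalarTower.of_algebraMap_eq fun a => by
    rw [tAlgA_algebraMap, Algebra.TensorProduct.right_algebraMap_apply, tAlg_algebraMap_tmul]

attribute [local instance] tTower

/-- The inclusion `C → R ⊗[W] C` as an `A`-algebra map. -/
noncomputable def incl : C →ₐ[A] R ⊗[W] C :=
  { (Algebra.TensorProduct.includeRight (R := W) (A := R) (B := C)).toRingHom with
    commutes' := fun a => by
      rw [tAlgA_algebraMap]; rfl }

@[simp] theorem incl_apply (c : C) : incl W R A C c = 1 ⊗ₜ c := rfl

/-- additive inverse of the comparison map -/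
noncomputable def tbBack : R ⊗[W] C →+ (R ⊗[W] A) ⊗[A] C :=
  TensorProduct.liftAddHom
    { toFun := fun r =>
        { toFun := fun c => (r ⊗ₜ[W] (1 : A)) ⊗ₜ[A] c
          map_zero' := by simp
          map_add' := fun c c' => by simp [TensorProduct.tmul_add] }
      map_zero' := by ext c; simp
      map_add' := fun r r' => by ext c; simp [TensorProduct.add_tmul] }
    (fun w r c => by
      change ((w • r) ⊗ₜ[W] (1 : A)) ⊗ₜ[A] c = (r ⊗ₜ[W] (1 : A)) ⊗ₜ[A] (w • c)
      have h : (w • r) ⊗ₜ[W] (1 : A) = (algebraMap W A w) • (r ⊗ₜ[W] (1 : A)) := by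
        rw [Algebra.smul_def (algebraMap W A w) (r ⊗ₜ[W] (1 : A)),
          Algebra.TensorProduct.right_algebraMap_apply,
          Algebra.TensorProduct.tmul_mul_tmul, one_mul, mul_one, TensorProduct.smul_tmul,
          Algebra.algebraMap_eq_smul_one]
      rw [h, TensorProduct.smul_tmul, algebraMap_smul])

theorem tbBack_tmul (r : R) (c : C) :
    tbBack W R A C (r ⊗ₜ c) = (r ⊗ₜ[W] (1 : A)) ⊗ₜ[A] c := rfl

theorem tb_left_inv (z : (R ⊗[W] A) ⊗[A] C) :
    tbBack W R A C ((incl W R A C).toLinearMap.liftBaseChange (R ⊗[W] A) z) = z := by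
  induction z using TensorProduct.induction_on with
  | zero => simp
  | add x y hx hy => rw [map_add, map_add, hx, hy]
  | tmul s c =>
    induction s using TensorProduct.induction_on with
    | zero => simp
    | add x y hx hy => rw [TensorProduct.add_tmul, map_add, map_add, hx, hy]
    | tmul r a =>
      rw [LinearMap.liftBaseChange_tmul, AlgHom.toLinearMap_apply, incl_apply, Algebra.smul_def,
        tAlg_algebraMap_tmul, Algebra.TensorProduct.tmul_mul_tmul, mul_one, tbBack_tmul,
        ← Algebra.smul_def, ← TensorProduct.smul_tmul]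
      congr 1
      rw [Algebra.smul_def, Algebra.TensorProduct.right_algebraMap_apply,
        Algebra.TensorProduct.tmul_mul_tmul, one_mul, mul_one]

theorem tb_surj :
    Function.Surjective ((incl W R A C).toLinearMap.liftBaseChange (R ⊗[W] A)) := by
  intro y
  induction y using TensorProduct.induction_on with
  | zero => exact ⟨0, map_zero _⟩
  | add x y hx hy =>
    obtain ⟨x', rfl⟩ := hx
    obtain ⟨y', rfl⟩ := hy
    exact ⟨x' + y', map_add _ _ _⟩
  | tmul r c =>
    refine ⟨(r ⊗ₜ[W] (1 : A)) ⊗ₜ[A] c, ?_⟩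
    rw [LinearMap.liftBaseChange_tmul, AlgHom.toLinearMap_apply, incl_apply, Algebra.smul_def,
      tAlg_algebraMap_tmul, Algebra.TensorProduct.tmul_mul_tmul, mul_one, map_one, one_mul]

/-- **Left-handed pushout**: `C → R ⊗[W] C` is the base change of `A → R ⊗[W] A`. -/
theorem isBaseChange_incl : IsBaseChange (R ⊗[W] A) (incl W R A C).toLinearMap := by
  have hbij : Function.Bijective ((incl W R A C).toLinearMap.liftBaseChange (R ⊗[W] A)) :=
    ⟨Function.LeftInverse.injective (tb_left_inv W R A C), tb_surj W R A C⟩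
  refine IsBaseChange.of_equiv (LinearEquiv.ofBijective _ hbij) fun x => ?_
  simp

end TB

end Fermat.Agent.T1B.Norm84
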