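/-
T1B / TORIC50 brick NORM-ALG (helper84), part 6: the norm and trace on `R ⊗[W] C` over
`R ⊗[W] A` (`tnorm`, `ttr`), with (T1) pure tensors, (sq) square-zero formula with the ideal in
the coefficient ring, (mod) congruence.  Mathlib only.
-/
import Fermat.Agent.T1B.Norm84.Tensor

set_option autoImplicit false
set_option linter.unusedSectionVars false

namespace Fermat.Agent.T1B.Norm84

open scoped TensorProduct

section TNorm

variable (W R A C : Type*) [CommRing W] [CommRing R] [CommRing A] [CommRing C]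
  [Algebra W R] [Algebra W A] [Algebra W C] [Algebra A C] [IsScalarTower W A C]
  [Module.Finite A C] [Module.Projective A C]

attribute [local instance 50] tAlg tAlgA
attribute [local instance] Algebra.TensorProduct.rightAlgebra tTower

theorem tFinite : Module.Finite (R ⊗[W] A) (R ⊗[W] C) :=
  finite_of_isBaseChange (isBaseChange_incl W R A C)

theorem tProjective : Module.Projective (R ⊗[W] A) (R ⊗[W] C) :=
  projective_of_isBaseChange (isBaseChange_incl W R A C)

attribute [local instance] tFinite tProjective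

theorem tTowerR : IsScalarTower R (R ⊗[W] A) (R ⊗[W] C) :=
  IsScalarTower.of_algebraMap_eq fun r => by
    rw [Algebra.TensorProduct.algebraMap_apply, Algebra.TensorProduct.algebraMap_apply,
      tAlg_algebraMap_tmul, map_one]

attribute [local instance] tTowerR

/-- The norm `R ⊗[W] C → R ⊗[W] A` of the finite projective algebra `id ⊗ (A → C)`. -/
noncomputable def tnorm : R ⊗[W] C →* R ⊗[W] A := projNorm (R ⊗[W] A) (R ⊗[W] C)

/-- The trace `R ⊗[W] C → R ⊗[W] A`, linear over `R ⊗[W] A`. -/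
noncomputable def ttrS : R ⊗[W] C →ₗ[R ⊗[W] A] R ⊗[W] A := projTr (R ⊗[W] A) (R ⊗[W] C)

/-- The trace `C → A` as a `W`-linear map. -/
noncomputable def ttr : C →ₗ[W] A := (projTr A C).restrictScalars W

@[simp] theorem ttr_apply (c : C) : ttr W A C c = projTr A C c := rfl

theorem tnorm_eq_projNorm (x : R ⊗[W] C) :
    tnorm W R A C x = projNorm (R ⊗[W] A) (R ⊗[W] C) x := rfl

/-- (T1) the norm of `1 ⊗ c`. -/
theorem tnorm_one_tmul (c : C) : tnorm W R A C (1 ⊗ₜ c) = 1 ⊗ₜ projNorm A C c :=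
  projNorm_of_isBaseChange (incl W R A C) (isBaseChange_incl W R A C) c

theorem ttrS_one_tmul (c : C) : ttrS W R A C (1 ⊗ₜ c) = 1 ⊗ₜ projTr A C c :=
  projTr_of_isBaseChange (incl W R A C) (isBaseChange_incl W R A C) c

theorem ttrS_tmul (r : R) (c : C) : ttrS W R A C (r ⊗ₜ c) = r ⊗ₜ projTr A C c := by
  have h : (r ⊗ₜ[W] c : R ⊗[W] C) = (r ⊗ₜ[W] (1 : A) : R ⊗[W] A) • (1 ⊗ₜ[W] c : R ⊗[W] C) := by
    rw [Algebra.smul_def, tAlg_algebraMap_tmul, Algebra.TensorProduct.tmul_mul_tmul, mul_one,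
      map_one, one_mul]
  rw [h, map_smul, ttrS_one_tmul, smul_eq_mul, Algebra.TensorProduct.tmul_mul_tmul, mul_one,
    one_mul]

/-- The trace on `R ⊗[W] C` is the base change of the `W`-linear trace `C → A`. -/
theorem ttrS_eq_baseChange (x : R ⊗[W] C) :
    ttrS W R A C x = (ttr W A C).baseChange R x := by
  induction x using TensorProduct.induction_on with
  | zero => simp
  | add x y hx hy => rw [map_add, map_add, hx, hy]
  | tmul r c => rw [ttrS_tmul, LinearMap.baseChange_tmul, ttr_apply]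

/-- (sq) SQUARE-ZERO formula on `R ⊗[W] C`, the ideal `I` living in the coefficient ring `R`. -/
theorem tnorm_one_add_of_sq_zero (I : Ideal R) (hI : I ^ 2 = ⊥) (x : R ⊗[W] C)
    (hx : x ∈ I • (⊤ : Submodule R (R ⊗[W] C))) :
    tnorm W R A C (1 + x) = 1 + (ttr W A C).baseChange R x := by
  rw [← ttrS_eq_baseChange]
  exact projNorm_one_add_of_sq_zero_tower I hI x hx

/-- (mod) the norm preserves `≡ 1` modulo `I`. -/
theorem tnorm_one_add_sub_one_mem (I : Ideal R) (x : R ⊗[W] C)
    (hx : x ∈ I • (⊤ : Submodule R (R ⊗[W] C))) :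
    tnorm W R A C (1 + x) - 1 ∈ I • (⊤ : Submodule R (R ⊗[W] A)) := by
  rw [Ideal.smul_top_eq_map]
  exact projNorm_one_add_sub_one_mem_tower I x hx

theorem tnorm_sub_mem (I : Ideal R) (x y : R ⊗[W] C)
    (h : x - y ∈ I • (⊤ : Submodule R (R ⊗[W] C))) :
    tnorm W R A C x - tnorm W R A C y ∈ I • (⊤ : Submodule R (R ⊗[W] A)) := by
  rw [Ideal.smul_top_eq_map]
  exact projNorm_sub_mem_tower I x y h

end TNorm

end Fermat.Agent.T1B.Norm84
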