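/-
T1B / TORIC50 brick NORM-ALG / NORM-IOTA-ABS (helper84), part 8: retracts and idempotents
(`N (1 + a ε) = (1 + a) ^ d` if `ε C` has constant rank `d`), and the fibre lemma
(`δ ∉ q₀`, `q₀` the only prime above `p` ⟹ `N δ ∉ p`).  Mathlib only.
-/
import Fermat.Agent.T1B.Norm84.Congr

set_option autoImplicit false
set_option linter.unusedSectionVars false

namespace Fermat.Agent.T1B.Norm84

open scoped TensorProduct

section Retract

variable {R : Type*} [CommRing R]
variable {P : Type*} [AddCommGroup P] [Module R P] [Module.Finite R P] [Module.Projective R P]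

/-- `projDet` of a retract `Q` of `P` is computed on `P` by extending with the identity. -/
theorem projDet_retract {Q : Type*} [AddCommGroup Q] [Module R Q] [Module.Finite R Q]
    [Module.Projective R Q] (i : Q →ₗ[R] P) (r : P →ₗ[R] Q) (hri : r ∘ₗ i = LinearMap.id)
    (ψ : Q →ₗ[R] Q) : projDet R Q ψ = projDet R P (1 + i ∘ₗ (ψ - 1) ∘ₗ r) := by
  obtain ⟨n, f, g, -, -, hfg⟩ := Module.Finite.exists_comp_eq_id_of_projective R P
  have h : ∀ y, f (g y) = y := fun y => by simpa using LinearMap.congr_fun hfg y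
  have h' : ∀ y, r (i y) = y := fun y => by simpa using LinearMap.congr_fun hri y
  rw [projDet_eq_detVia f g hfg, projDet_eq_detVia (r ∘ₗ f) (g ∘ₗ i) (by ext x; simp [h, h'])]
  unfold detVia
  congr 2
  rw [add_sub_cancel_left]
  rfl

theorem projective_range_of_idem (e : P →ₗ[R] P) (he : e ∘ₗ e = e) :
    Module.Projective R (LinearMap.range e) :=
  Module.Projective.of_split (LinearMap.range e).subtype e.rangeRestrict (by
    ext ⟨q, x, rfl⟩
    simpa using LinearMap.congr_fun he x)

/-- The determinant of `1 + a e` for an idempotent endomorphism `e` whose image has constant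
rank `d`. -/
theorem projDet_one_add_smul_idem (e : P →ₗ[R] P) (he : e ∘ₗ e = e) (a : R) (d : ℕ)
    (hd : ∀ p : PrimeSpectrum R, Module.rankAtStalk (R := R) (LinearMap.range e) p = d) :
    projDet R P (1 + a • e) = (1 + a) ^ d := by
  have := projective_range_of_idem e he
  have hri : e.rangeRestrict ∘ₗ (LinearMap.range e).subtype = LinearMap.id := by
    ext ⟨q, x, rfl⟩
    simpa using LinearMap.congr_fun he x
  rw [← projDet_smul_one_of_rank d hd (1 + a),
    projDet_retract (LinearMap.range e).subtype e.rangeRestrict hri]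
  congr 2
  ext x
  simp [add_smul]

end Retract

section IdemAlg

variable {R : Type*} [CommRing R] {C : Type*} [CommRing C] [Algebra R C] [Module.Finite R C]
  [Module.Projective R C]

/-- Idempotent form of the PRODUCT formula: `N (1 + a ε) = (1 + a) ^ d` if `ε C` has constant
rank `d`. -/
theorem projNorm_one_add_mul_idem (ε : C) (hε : ε * ε = ε) (a : R) (d : ℕ)
    (hd : ∀ p : PrimeSpectrum R,
      Module.rankAtStalk (R := R) (LinearMap.range (Algebra.lmul R C ε)) p = d) :
    projNorm R C (1 + algebraMap R C a * ε) = (1 + a) ^ d := by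
  rw [projNorm_apply, ← projDet_one_add_smul_idem (Algebra.lmul R C ε)
    (by ext x; simp [← mul_assoc, hε]) a d hd]
  congr 1
  ext x
  simp [Algebra.smul_def, mul_assoc]

end IdemAlg

section Fibre

variable {R : Type*} [CommRing R] {C : Type*} [CommRing C] [Algebra R C] [Module.Finite R C]
  [Module.Projective R C]

/-- If `δ` lies in no prime of `C` above the prime `p` of `R`, then `N δ ∉ p`. -/
theorem projNorm_notMem_of_forall_notMem (p : Ideal R) [p.IsPrime] {δ : C}
    (hδ : ∀ q : Ideal C, q.IsPrime → q.comap (algebraMap R C) = p → δ ∉ q) :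
    projNorm R C δ ∉ p := by
  intro hmem
  let Rp := Localization.AtPrime p
  -- the norm of `1 ⊗ δ` is not a unit
  have h1 : ¬ IsUnit (projNorm Rp (Rp ⊗[R] C) (1 ⊗ₜ[R] δ)) := by
    rw [projNorm_baseChange]
    intro hu
    have := (IsLocalization.AtPrime.isUnit_to_map_iff Rp p (projNorm R C δ)).mp hu
    exact this hmem
  have h2 : ¬ IsUnit ((1 : Rp) ⊗ₜ[R] δ) := fun hu => h1 (isUnit_projNorm hu)
  obtain ⟨𝔐, h𝔐, hmem𝔐⟩ := exists_max_ideal_of_mem_nonunits h2
  -- contract to `C`
  let ι : C →+* Rp ⊗[R] C := (Algebra.TensorProduct.includeRight : C →ₐ[R] Rp ⊗[R] C).toRingHom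
  have hq : (𝔐.comap ι).IsPrime := Ideal.comap_isPrime ι 𝔐
  have hδq : δ ∈ 𝔐.comap ι := hmem𝔐
  have hmaxR : (𝔐.comap (algebraMap Rp (Rp ⊗[R] C))).IsMaximal :=
    Ideal.isMaximal_comap_of_isIntegral_of_isMaximal 𝔐
  have hloc : 𝔐.comap (algebraMap Rp (Rp ⊗[R] C)) = IsLocalRing.maximalIdeal Rp :=
    IsLocalRing.eq_maximalIdeal hmaxR
  have hover : (𝔐.comap ι).comap (algebraMap R C) = p := by
    rw [Ideal.comap_comap]
    have hcomp : ι.comp (algebraMap R C) =
        (algebraMap Rp (Rp ⊗[R] C)).comp (algebraMap R Rp) := by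
      ext r
      simp [ι, Algebra.algebraMap_eq_smul_one]
    rw [hcomp, ← Ideal.comap_comap, hloc]
    exact IsLocalization.AtPrime.under_maximalIdeal Rp p
  exact hδ _ hq hover hδq

/-- If `q₀` is the only prime of `C` above the prime `p` of `R` and `δ ∉ q₀`, then
`N δ ∉ p`. -/
theorem projNorm_notMem_of_notMem (p : Ideal R) [p.IsPrime] (q₀ : Ideal C)
    (huniq : ∀ q : Ideal C, q.IsPrime → q.comap (algebraMap R C) = p → q = q₀)
    {δ : C} (hδ : δ ∉ q₀) : projNorm R C δ ∉ p :=
  projNorm_notMem_of_forall_notMem p fun q hq hqp => by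
    rw [huniq q hq hqp]; exact hδ

/-- A denominator ideal `D` of `C` contained in no prime above `p` contains the image of an
element of `R` outside `p` (going up). -/
theorem exists_base_denominator (p : Ideal R) [p.IsPrime] (D : Ideal C)
    (hD : ∀ q : Ideal C, q.IsPrime → q.comap (algebraMap R C) = p → ¬ D ≤ q) :
    ∃ τ : R, τ ∉ p ∧ algebraMap R C τ ∈ D := by
  by_contra h
  have hle : D.comap (algebraMap R C) ≤ p := fun τ hτ => by
    by_contra hτp
    exact h ⟨τ, hτp, hτ⟩
  obtain ⟨Q, hQ, hQp, hQc⟩ := Ideal.exists_ideal_over_prime_of_isIntegral p D hle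
  exact hD Q hQp hQc hQ

end Fibre

end Fermat.Agent.T1B.Norm84
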