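/-
T1B / TORIC50 brick NORM-IOTA-ABS (helper84), chart level: **the norm of an admissible unit is a
regular unit**.  `T' → T` finite projective charts over `Λ` (nilpotent ideal `m`), `S' = T'[1/s']`,
`S = T[1/s']`, `ε` the branch idempotent of `S` with `ε S` of constant rank `d` over `S'`,
nodes `𝔫 e ⊂ T` the only primes above `𝔫' e ⊂ T'`, and every maximal ideal of `T'` containing `s'`
is some `𝔫' e`.  Then for an admissible `G` (`Toric50.Glue.Adm`) the norm `N_{S/S'} G` comes from a
unit of `1 + m T'`.  Mathlib + Norm84 + Toric50/Glue.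
-/
import Fermat.Agent.T1B.Norm84.Idem
import Fermat.Agent.T1B.Norm84.Tensor
import Fermat.Agent.T1B.Toric50.Glue

set_option autoImplicit false
set_option linter.unusedSectionVars false

namespace Fermat.Agent.T1B.Norm84.Iota

open Fermat.Agent.T1.CechFormal70 Fermat.Agent.T1B.Toric50.Glue Fermat.Agent.T1B.Norm84

section Chart

variable {Λ : Type*} [CommRing Λ] {m : Ideal Λ}
variable {T' T S' S : Type*} [CommRing T'] [CommRing T] [CommRing S'] [CommRing S]
  [Algebra Λ T'] [Algebra Λ T] [Algebra Λ S'] [Algebra Λ S]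
  [Algebra T' T] [Algebra T' S'] [Algebra T' S] [Algebra T S] [Algebra S' S]
  [IsScalarTower Λ T' T] [IsScalarTower Λ T' S'] [IsScalarTower Λ T S]
  [IsScalarTower T' T S] [IsScalarTower T' S' S]
  [Module.Finite T' T] [Module.Projective T' T] [Module.Finite S' S] [Module.Projective S' S]

variable (T' T) in
include T' T in
/-- The tower `Λ → S' → S` follows from the others. -/
theorem isScalarTower_base : IsScalarTower Λ S' S :=
  IsScalarTower.of_algebraMap_eq fun a => by
    rw [IsScalarTower.algebraMap_apply Λ T S, IsScalarTower.algebraMap_apply Λ T' T,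
      ← IsScalarTower.algebraMap_apply T' T S, IsScalarTower.algebraMap_apply T' S' S,
      ← IsScalarTower.algebraMap_apply Λ T' S']

theorem mem_smul_top_of_mem_eI {A : Type*} [CommRing A] [Algebra Λ A] {x : A}
    (hx : x ∈ eI m A) : x ∈ m • (⊤ : Submodule Λ A) := by
  rw [Ideal.smul_top_eq_map]
  exact hx

variable (s' : T') [IsLocalization.Away s' S'] [IsLocalization.Away (algebraMap T' T s') S]

include s' in
/-- The norm of `S/S'` restricted to `T` is the norm of `T/T'`. -/
theorem projNorm_algebraMap_chart (t : T) :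
    projNorm S' S (algebraMap T S t) = algebraMap T' S' (projNorm T' T t) := by
  have : IsLocalization (Algebra.algebraMapSubmonoid T (Submonoid.powers s')) S := by
    rw [Algebra.algebraMapSubmonoid, Submonoid.map_powers]
    infer_instance
  exact projNorm_of_isLocalization (Submonoid.powers s') t

include s' in
/-- (iii) a unit-like element congruent to `1` in `m O_𝔫` has norm congruent to `1` in
`m O_𝔫'`, when `𝔫` is the only prime above `𝔫'`. -/
theorem regAt_projNorm_sub_one (𝔫 : Ideal T) (𝔫' : Ideal T') [𝔫'.IsPrime]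
    (huniq : ∀ q : Ideal T, q.IsPrime → q.comap (algebraMap T' T) = 𝔫' → q = 𝔫)
    {v : S} (hv : RegAt 𝔫 (eI m T) (v - 1)) :
    RegAt 𝔫' (eI m T') (projNorm S' S v - 1) := by
  obtain ⟨δ, hδ, c, hc, h⟩ := hv
  have h1 : algebraMap T S δ * v = algebraMap T S (δ + c) := by
    rw [map_add, ← h]; ring
  have h2 := congrArg (projNorm S' S) h1
  rw [map_mul, projNorm_algebraMap_chart s', projNorm_algebraMap_chart s'] at h2
  refine ⟨projNorm T' T δ, projNorm_notMem_of_notMem 𝔫' 𝔫 huniq hδ,
    projNorm T' T (δ + c) - projNorm T' T δ, ?_, ?_⟩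
  · refine projNorm_sub_mem_tower m (δ + c) δ ?_
    rw [add_sub_cancel_left]
    exact mem_smul_top_of_mem_eI hc
  · rw [mul_sub, h2, mul_one, map_sub]

include s' T in
/-- (i) the norm of the local toric unit `1 + (z - 1) ε` is `z ^ d`. -/
theorem projNorm_gUnit (ε : S) (hε : ε * ε = ε) (d : ℕ)
    (hd : ∀ p : PrimeSpectrum S',
      Module.rankAtStalk (R := S') (LinearMap.range (Algebra.lmul S' S ε)) p = d)
    (z : unitsOne m) :
    projNorm S' S (((gUnit (Ts := S) ε hε z : unitsOne (eI m S)) : Sˣ) : S) =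
      algebraMap T' S' (algebraMap Λ T' (((z : Λˣ) : Λ) ^ d)) := by
  have := isScalarTower_base (Λ := Λ) T' T (S' := S') (S := S)
  rw [coe_gUnit, IsScalarTower.algebraMap_apply Λ S' S,
    projNorm_one_add_mul_idem ε hε _ d hd, ← IsScalarTower.algebraMap_apply Λ T' S',
    map_pow, map_sub, map_one]
  congr 1
  ring

include s' in
/-- **NORM-IOTA-ABS** (chart level): the norm of an admissible unit is a regular unit, i.e. it
comes from a unit of `T'` congruent to `1` modulo `m`. -/
theorem exists_unitsOne_projNorm_of_adm (hm : IsNilpotent m) {E : Type*}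
    (𝔫 : E → Ideal T) [∀ e, (𝔫 e).IsPrime] (𝔫' : E → Ideal T') [∀ e, (𝔫' e).IsPrime]
    (huniq : ∀ e (q : Ideal T), q.IsPrime → q.comap (algebraMap T' T) = 𝔫' e → q = 𝔫 e)
    (hmax' : ∀ M : Ideal T', M.IsMaximal → s' ∈ M → ∃ e, M = 𝔫' e)
    (ε : S) (hε : ε * ε = ε) (d : ℕ)
    (hd : ∀ p : PrimeSpectrum S',
      Module.rankAtStalk (R := S') (LinearMap.range (Algebra.lmul S' S ε)) p = d)
    (z : E → unitsOne m) (G : unitsOne (eI m S)) (hG : Adm hm 𝔫 ε hε z G) :
    ∃ u : unitsOne (eI m T'),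
      algebraMap T' S' ((u : T'ˣ) : T') = projNorm S' S ((G : Sˣ) : S) := by
  have hΛ := isScalarTower_base (Λ := Λ) T' T (S' := S') (S := S)
  -- the norm of `G` as an element of `1 + m S'`
  have hG1 : projNorm S' S ((G : Sˣ) : S) - 1 ∈ eI m S' := by
    have h0 : ((G : Sˣ) : S) = 1 + (((G : Sˣ) : S) - 1) := by ring
    rw [h0]
    exact projNorm_one_add_sub_one_mem_tower m _ (mem_smul_top_of_mem_eI G.2)
  let NG : unitsOne (eI m S') := ⟨Units.map (projNorm S' S) (G : Sˣ), hG1⟩
  have hNG : ∀ e, NG ∈ Ve m S' hm (𝔫' e) := by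
    intro e
    rw [mem_Ve]
    show RegAt (𝔫' e) (eI m T') (projNorm S' S ((G : Sˣ) : S) - 1)
    have hne : (𝔫' e) ≠ ⊤ := Ideal.IsPrime.ne_top inferInstance
    -- `G = v * g` with `v ∈ 1 + m O_e`
    set v : unitsOne (eI m S) := G * (gHom ε hε (z e))⁻¹ with hvdef
    have hv : RegAt (𝔫 e) (eI m T) (((v : Sˣ) : S) - 1) := hG e
    have hGv : ((G : Sˣ) : S) = ((v : Sˣ) : S) *
        (((gUnit (Ts := S) ε hε (z e) : unitsOne (eI m S)) : Sˣ) : S) := by
      have : G = v * gHom ε hε (z e) := by rw [hvdef, inv_mul_cancel_right]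
      rw [this]
      rfl
    set ζ : T' := algebraMap Λ T' ((((z e : unitsOne m) : Λˣ) : Λ) ^ d) with hζ
    have hNv := regAt_projNorm_sub_one (m := m) (S' := S') s' (𝔫 e) (𝔫' e) (huniq e) hv
    have hζ1 : ζ - 1 ∈ eI m T' := by
      rw [hζ, ← map_one (algebraMap Λ T'), ← map_sub]
      refine Ideal.mem_map_of_mem _ ?_
      have h1 : ((((z e : unitsOne m) : Λˣ) : Λ) - 1) ∈ m := (z e).2
      have h2 : ((((z e : unitsOne m) : Λˣ) : Λ) ^ d - 1) =
          ((((z e : unitsOne m) : Λˣ) : Λ) - 1) *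
            ∑ i ∈ Finset.range d, (((z e : unitsOne m) : Λˣ) : Λ) ^ i := by
        rw [mul_comm, geom_sum_mul]
      rw [h2]
      exact m.mul_mem_right _ h1
    rw [hGv, map_mul, projNorm_gUnit (T := T) s' ε hε d hd (z e)]
    have hsplit : projNorm S' S ((v : Sˣ) : S) * algebraMap T' S' ζ - 1 =
        (projNorm S' S ((v : Sˣ) : S) - 1) * algebraMap T' S' ζ + algebraMap T' S' (ζ - 1) := by
      rw [map_sub, map_one]; ring
    rw [hsplit]
    exact regAt_add (regAt_mul_right hNv (regAt_algebraMap hne trivial))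
      (regAt_algebraMap hne hζ1)
  obtain ⟨u, -, hu⟩ := exists_unitsOne_of_forall_mem_Ve hm 𝔫' s' hmax' NG hNG
  exact ⟨u, hu⟩

end Chart

end Fermat.Agent.T1B.Norm84.Iota
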