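/-
T1B / TORIC50 brick NORM-IOTA-ABS (helper84), general forms: per maximal ideal `M' ∋ s'` of `T'`
EITHER `G ≡ 1` in `m O_Q` at all primes `Q` above `M'`, OR a single prime `Q₀` above `M'` and
`G ≡ 1 + (z - 1) ε` there.  Fibre form with index sets `E → E'` (fake nodes allowed), and
`regAt_of_mem_eI_of_notMem` (primes not containing `s` are harmless).
Mathlib + Norm84 + Toric50/Glue.
-/
import Fermat.Agent.T1B.Norm84.Iota

set_option autoImplicit false
set_option linter.unusedSectionVars false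

namespace Fermat.Agent.T1B.Norm84.Iota

open Fermat.Agent.T1.CechFormal70 Fermat.Agent.T1B.Toric50.Glue Fermat.Agent.T1B.Norm84

section General

variable {Λ : Type*} [CommRing Λ] {m : Ideal Λ}
variable {T' T S' S : Type*} [CommRing T'] [CommRing T] [CommRing S'] [CommRing S]
  [Algebra Λ T'] [Algebra Λ T] [Algebra Λ S'] [Algebra Λ S]
  [Algebra T' T] [Algebra T' S'] [Algebra T' S] [Algebra T S] [Algebra S' S]
  [IsScalarTower Λ T' T] [IsScalarTower Λ T' S'] [IsScalarTower Λ T S]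
  [IsScalarTower T' T S] [IsScalarTower T' S' S]
  [Module.Finite T' T] [Module.Projective T' T] [Module.Finite S' S] [Module.Projective S' S]

/-- The ideal of denominators of `x ∈ Ts` with respect to `I`. -/
def denIdeal (I : Ideal T) (x : S) : Ideal T where
  carrier := {d | ∃ c ∈ I, algebraMap T S d * x = algebraMap T S c}
  add_mem' := by
    rintro d d' ⟨c, hc, h1⟩ ⟨c', hc', h2⟩
    exact ⟨c + c', I.add_mem hc hc', by rw [map_add, add_mul, h1, h2, map_add]⟩
  zero_mem' := ⟨0, I.zero_mem, by simp⟩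
  smul_mem' := by
    rintro a d ⟨c, hc, h1⟩
    exact ⟨a * c, I.mul_mem_left a hc, by
      rw [smul_eq_mul, map_mul, mul_assoc, h1, map_mul]⟩

theorem regAt_iff_denIdeal {𝔫 I : Ideal T} {x : S} :
    RegAt 𝔫 I x ↔ ¬ denIdeal I x ≤ 𝔫 := by
  constructor
  · rintro ⟨d, hd, c, hc, h⟩ hle
    exact hd (hle ⟨c, hc, h⟩)
  · intro h
    obtain ⟨d, ⟨c, hc, h1⟩, hd⟩ := Set.not_subset.mp h
    exact ⟨d, hd, c, hc, h1⟩

variable (s' : T') [IsLocalization.Away s' S'] [IsLocalization.Away (algebraMap T' T s') S]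

include s' in
/-- (iii, general) if `v - 1 ∈ m O_Q` for EVERY prime `Q` of `T` above the prime `M'` of `T'`, then
`N v - 1 ∈ m O_{M'}`. -/
theorem regAt_projNorm_sub_one_of_forall (M' : Ideal T') [M'.IsPrime] {v : S}
    (hv : ∀ Q : Ideal T, Q.IsPrime → Q.comap (algebraMap T' T) = M' →
      RegAt Q (eI m T) (v - 1)) :
    RegAt M' (eI m T') (projNorm S' S v - 1) := by
  obtain ⟨τ, hτ, c, hc, h⟩ := exists_base_denominator M' (denIdeal (S := S) (eI m T) (v - 1))
    fun Q hQ hQM => regAt_iff_denIdeal.mp (hv Q hQ hQM)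
  set δ : T := algebraMap T' T τ with hδdef
  have h1 : algebraMap T S δ * v = algebraMap T S (δ + c) := by
    rw [map_add, ← h]; ring
  have h2 := congrArg (projNorm S' S) h1
  rw [map_mul, projNorm_algebraMap_chart (T := T) (S' := S') s' δ,
    projNorm_algebraMap_chart (T := T) (S' := S') s' (δ + c)] at h2
  refine ⟨projNorm T' T δ, projNorm_notMem_of_forall_notMem M' fun Q hQ hQM hmem => ?_,
    projNorm T' T (δ + c) - projNorm T' T δ, ?_, ?_⟩
  · have : τ ∈ Q.comap (algebraMap T' T) := hmem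
    rw [hQM] at this
    exact hτ this
  · refine projNorm_sub_mem_tower m (δ + c) δ ?_
    rw [add_sub_cancel_left]
    exact mem_smul_top_of_mem_eI hc
  · rw [mul_sub, h2, mul_one, map_sub]

include s' in
/-- **NORM-IOTA-ABS**, general local form.  For every maximal ideal `M'` of `T'` containing `s'`,
EITHER `G ≡ 1` in `m O_Q` at every prime `Q` above `M'` (harmless points), OR there is a single
prime `Q₀` above `M'` and `G ≡ 1 + (z - 1) ε` in `m O_{Q₀}` (a node).  Then the norm of `G` comes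
from a unit of `1 + m T'`. -/
theorem exists_unitsOne_projNorm (hm : IsNilpotent m)
    (ε : S) (hε : ε * ε = ε) (d : ℕ)
    (hd : ∀ p : PrimeSpectrum S',
      Module.rankAtStalk (R := S') (LinearMap.range (Algebra.lmul S' S ε)) p = d)
    (G : unitsOne (eI m S))
    (hloc : ∀ M' : Ideal T', M'.IsMaximal → s' ∈ M' →
      (∀ Q : Ideal T, Q.IsPrime → Q.comap (algebraMap T' T) = M' →
          RegAt Q (eI m T) (((G : Sˣ) : S) - 1)) ∨
      (∃ (Q₀ : Ideal T) (z : unitsOne m),
          (∀ Q : Ideal T, Q.IsPrime → Q.comap (algebraMap T' T) = M' → Q = Q₀) ∧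
          RegAt Q₀ (eI m T) ((((G * (gHom ε hε z)⁻¹ : unitsOne (eI m S)) : Sˣ) : S) - 1))) :
    ∃ u : unitsOne (eI m T'),
      algebraMap T' S' ((u : T'ˣ) : T') = projNorm S' S ((G : Sˣ) : S) := by
  have hΛ := isScalarTower_base (Λ := Λ) T' T (S' := S') (S := S)
  have hG1 : projNorm S' S ((G : Sˣ) : S) - 1 ∈ eI m S' := by
    have h0 : ((G : Sˣ) : S) = 1 + (((G : Sˣ) : S) - 1) := by ring
    rw [h0]
    exact projNorm_one_add_sub_one_mem_tower m _ (mem_smul_top_of_mem_eI G.2)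
  let NG : unitsOne (eI m S') := ⟨Units.map (projNorm S' S) (G : Sˣ), hG1⟩
  -- index the maximal ideals containing `s'`
  let E' := {M' : Ideal T' // M'.IsMaximal ∧ s' ∈ M'}
  let 𝔫' : E' → Ideal T' := fun e => e.1
  have : ∀ e : E', (𝔫' e).IsPrime := fun e => e.2.1.isPrime
  have hmax' : ∀ M : Ideal T', M.IsMaximal → s' ∈ M → ∃ e : E', M = 𝔫' e :=
    fun M hM hs => ⟨⟨M, hM, hs⟩, rfl⟩
  have hNG : ∀ e, NG ∈ Ve m S' hm (𝔫' e) := by
    rintro ⟨M', hM', hsM'⟩
    rw [mem_Ve]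
    show RegAt M' (eI m T') (projNorm S' S ((G : Sˣ) : S) - 1)
    have : M'.IsPrime := hM'.isPrime
    have hne : M' ≠ ⊤ := Ideal.IsPrime.ne_top inferInstance
    rcases hloc M' hM' hsM' with hA | ⟨Q₀, z, huniq, hB⟩
    · exact regAt_projNorm_sub_one_of_forall (m := m) (S' := S') s' M' hA
    · set v : unitsOne (eI m S) := G * (gHom ε hε z)⁻¹ with hvdef
      have hGv : ((G : Sˣ) : S) = ((v : Sˣ) : S) *
          (((gUnit (Ts := S) ε hε z : unitsOne (eI m S)) : Sˣ) : S) := by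
        have : G = v * gHom ε hε z := by rw [hvdef, inv_mul_cancel_right]
        rw [this]
        rfl
      set ζ : T' := algebraMap Λ T' ((((z : unitsOne m) : Λˣ) : Λ) ^ d) with hζ
      have hNv : RegAt M' (eI m T') (projNorm S' S ((v : Sˣ) : S) - 1) :=
        regAt_projNorm_sub_one_of_forall (m := m) (S' := S') s' M' fun Q hQ hQM => by
          rw [huniq Q hQ hQM]; exact hB
      have hζ1 : ζ - 1 ∈ eI m T' := by
        rw [hζ, ← map_one (algebraMap Λ T'), ← map_sub]
        refine Ideal.mem_map_of_mem _ ?_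
        have h1 : ((((z : unitsOne m) : Λˣ) : Λ) - 1) ∈ m := z.2
        have h2 : ((((z : unitsOne m) : Λˣ) : Λ) ^ d - 1) =
            ((((z : unitsOne m) : Λˣ) : Λ) - 1) *
              ∑ i ∈ Finset.range d, (((z : unitsOne m) : Λˣ) : Λ) ^ i := by
          rw [mul_comm, geom_sum_mul]
        rw [h2]
        exact m.mul_mem_right _ h1
      rw [hGv, map_mul, projNorm_gUnit (T := T) s' ε hε d hd z]
      have hsplit : projNorm S' S ((v : Sˣ) : S) * algebraMap T' S' ζ - 1 =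
          (projNorm S' S ((v : Sˣ) : S) - 1) * algebraMap T' S' ζ + algebraMap T' S' (ζ - 1) := by
        rw [map_sub, map_one]; ring
      rw [hsplit]
      exact regAt_add (regAt_mul_right hNv (regAt_algebraMap hne trivial))
        (regAt_algebraMap hne hζ1)
  obtain ⟨u, -, hu⟩ := exists_unitsOne_of_forall_mem_Ve hm 𝔫' s' hmax' NG hNG
  exact ⟨u, hu⟩

include s' in
/-- **NORM-IOTA-ABS**, fibre form (helper50's msg 7879): index sets `E` (primes of `T`), `E'`
(primes of `T'`), `c : E → E'` "lies over"; for every `e'` either the fibre of `c` is a single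
node `e`, or `z = 1` on the whole fibre. -/
theorem exists_unitsOne_projNorm_of_adm_fibres (hm : IsNilpotent m) {E E' : Type*}
    (𝔫 : E → Ideal T) [∀ e, (𝔫 e).IsPrime] (𝔫' : E' → Ideal T') (c : E → E')
    (hmax' : ∀ M : Ideal T', M.IsMaximal → s' ∈ M → ∃ e', M = 𝔫' e')
    (hover : ∀ (e' : E') (Q : Ideal T), Q.IsPrime → Q.comap (algebraMap T' T) = 𝔫' e' →
      ∃ e, c e = e' ∧ Q = 𝔫 e)
    (ε : S) (hε : ε * ε = ε) (d : ℕ)
    (hd : ∀ p : PrimeSpectrum S',
      Module.rankAtStalk (R := S') (LinearMap.range (Algebra.lmul S' S ε)) p = d)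
    (z : E → unitsOne m)
    (hz : ∀ e' : E', (∃ e, ∀ e₂, c e₂ = e' → e₂ = e) ∨ (∀ e, c e = e' → z e = 1))
    (G : unitsOne (eI m S)) (hG : Adm hm 𝔫 ε hε z G) :
    ∃ u : unitsOne (eI m T'),
      algebraMap T' S' ((u : T'ˣ) : T') = projNorm S' S ((G : Sˣ) : S) := by
  refine exists_unitsOne_projNorm (T := T) s' hm ε hε d hd G fun M' hM' hsM' => ?_
  obtain ⟨e', rfl⟩ := hmax' M' hM' hsM'
  rcases hz e' with ⟨e, he⟩ | h1
  · right
    refine ⟨𝔫 e, z e, fun Q hQ hQM => ?_, hG e⟩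
    obtain ⟨e₂, hce₂, rfl⟩ := hover e' Q hQ hQM
    rw [he e₂ hce₂]
  · left
    intro Q hQ hQM
    obtain ⟨e, hce, rfl⟩ := hover e' Q hQ hQM
    have := hG e
    rw [h1 e hce, map_one, inv_one, mul_one] at this
    exact this

end General

section Away

variable {Λ : Type*} [CommRing Λ] {m : Ideal Λ}
variable {T : Type*} [CommRing T] [Algebra Λ T] {Ts : Type*} [CommRing Ts] [Algebra T Ts]
  [Algebra Λ Ts] [IsScalarTower Λ T Ts]

/-- Away from `V(s)` every element of `m · T[1/s]` is regular: if `s ∉ Q` then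
`x ∈ m Ts ⟹ x ∈ m O_Q`. -/
theorem regAt_of_mem_eI_of_notMem (s : T) [IsLocalization.Away s Ts] (Q : Ideal T) [Q.IsPrime]
    (hs : s ∉ Q) {x : Ts} (hx : x ∈ eI m Ts) : RegAt Q (eI m T) x := by
  rw [eI_eq_map (T := T)] at hx
  rw [IsLocalization.mem_map_algebraMap_iff (Submonoid.powers s) Ts] at hx
  obtain ⟨⟨⟨a, ha⟩, ⟨_, N, rfl⟩⟩, h1⟩ := hx
  refine ⟨s ^ N, fun h => hs (Ideal.IsPrime.mem_of_pow_mem inferInstance N h), a, ha, ?_⟩
  rw [mul_comm]
  exact h1

end Away

end Fermat.Agent.T1B.Norm84.Iota
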