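/-
T1B / TORIC50 brick NORM-IOTA-ABS (helper84), three-chart bookkeeping: `β ∘ ι = 1` for any system of
multiplicative maps `N_j : S_j → S_j'` compatible with the restrictions, once the chart-level
statement (norm of an admissible unit is a regular unit) holds on the charts `0` and `1`.
Mathlib + Toric50/Glue.
-/
import Fermat.Agent.T1B.Norm84.Iota2

set_option autoImplicit false
set_option linter.unusedSectionVars false

namespace Fermat.Agent.T1B.Norm84.Iota

open Fermat.Agent.T1.CechFormal70 Fermat.Agent.T1B.Toric50.Glue Fermat.Agent.T1B.Norm84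

section ThreeChart

variable {Λ : Type*} [CommRing Λ] {m : Ideal Λ}
variable {T0 T1 T01 : Type*} [CommRing T0] [CommRing T1] [CommRing T01]
  [Algebra Λ T0] [Algebra Λ T1] [Algebra Λ T01] {g : ℕ}
variable {T0' T1' T01' : Type*} [CommRing T0'] [CommRing T1'] [CommRing T01']
  [Algebra Λ T0'] [Algebra Λ T1'] [Algebra Λ T01'] {g' : ℕ}
variable {S0 S1 S01 : Type*} [CommRing S0] [CommRing S1] [CommRing S01]
  [Algebra T0 S0] [Algebra T1 S1] [Algebra T01 S01]
  [Algebra Λ S0] [Algebra Λ S1] [Algebra Λ S01]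
  [IsScalarTower Λ T0 S0] [IsScalarTower Λ T1 S1] [IsScalarTower Λ T01 S01]
variable {S0' S1' S01' : Type*} [CommRing S0'] [CommRing S1'] [CommRing S01']
  [Algebra T0' S0'] [Algebra T1' S1'] [Algebra T01' S01']

/-- **β ∘ ι = 1, abstract three-chart bookkeeping.**  `Gl` glue data on the (nodal) package `P`,
`P'` a second (smooth) package with punctured charts `S_j'`; multiplicative maps `N_j : S_j → S_j'`
(the norms) compatible with the restrictions `q_j`; if the norms of admissible units on the charts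
`0` and `1` are regular units (`hreg0`, `hreg1` = NORM-IOTA-ABS chart level), then for every
representative `u` of the toric class of `z` any `v ∈ 1 + m T01'` whose image on the punctured
overlap is `N01 u` has trivial class in `Ĵ'`. -/
theorem cls_eq_one_of_rep (hm : IsNilpotent m) {P : Pkg Λ T0 T1 T01 g}
    {P' : Pkg Λ T0' T1' T01' g'} {E : Type*} (Gl : GlueData S0 S1 S01 P E)
    (q0' : S0' →+* S01') (q1' : S1' →+* S01')
    (hq0' : ∀ x : T0', q0' (algebraMap T0' S0' x) = algebraMap T01' S01' (P'.r0 x))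
    (hq1' : ∀ x : T1', q1' (algebraMap T1' S1' x) = algebraMap T01' S01' (P'.r1 x))
    (inj01' : Function.Injective (algebraMap T01' S01'))
    (N0 : S0 →* S0') (N1 : S1 →* S1') (N01 : S01 →* S01')
    (hN0 : ∀ x, N01 (Gl.q0 x) = q0' (N0 x)) (hN1 : ∀ x, N01 (Gl.q1 x) = q1' (N1 x))
    {z : E → unitsOne m} {u : unitsOne (eI m T01)} (h : Gl.Rep hm z u)
    (v : unitsOne (eI m T01'))
    (hv : algebraMap T01' S01' ((v : T01'ˣ) : T01') =
      N01 (algebraMap T01 S01 ((u : T01ˣ) : T01)))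
    (hreg0 : ∀ G0 : unitsOne (eI m S0), Adm hm Gl.n0 Gl.ε0 Gl.idem0 z G0 →
      ∃ w : unitsOne (eI m T0'), algebraMap T0' S0' ((w : T0'ˣ) : T0') = N0 ((G0 : S0ˣ) : S0))
    (hreg1 : ∀ G1 : unitsOne (eI m S1), Adm hm Gl.n1 Gl.ε1 Gl.idem1 z G1 →
      ∃ w : unitsOne (eI m T1'), algebraMap T1' S1' ((w : T1'ˣ) : T1') = N1 ((G1 : S1ˣ) : S1)) :
    P'.cls m v = 1 := by
  obtain ⟨G0, G1, a0, a1, e⟩ := h
  obtain ⟨w0, hw0⟩ := hreg0 G0 a0
  obtain ⟨w1, hw1⟩ := hreg1 G1 a1
  have e' : algebraMap T01 S01 ((u : T01ˣ) : T01) * Gl.q1 ((G1 : S1ˣ) : S1) =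
      Gl.q0 ((G0 : S0ˣ) : S0) := e
  -- the key identity in `T01'`
  have key : ((v : T01'ˣ) : T01') * P'.r1 ((w1 : T1'ˣ) : T1') = P'.r0 ((w0 : T0'ˣ) : T0') := by
    apply inj01'
    rw [map_mul, hv, ← hq1', ← hq0', hw0, hw1, ← hN0, ← hN1, ← map_mul, e']
  rw [← map_one (P'.cls m), P'.cls_eq_cls_iff]
  refine ⟨w0⁻¹, w1, ?_⟩
  apply Units.ext
  have hr0 : ((Units.map (P'.r0 : T0' →* T01') ((w0⁻¹ : unitsOne (eI m T0')) : T0'ˣ) : T01'ˣ) : T01') *
      P'.r0 ((w0 : T0'ˣ) : T0') = 1 := by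
    have h1 : P'.r0 ((w0 : T0'ˣ) : T0') =
        ((Units.map (P'.r0 : T0' →* T01') (w0 : T0'ˣ) : T01'ˣ) : T01') := rfl
    rw [Subgroup.coe_inv, map_inv, h1, Units.inv_mul]
  simp only [Units.val_mul, Units.val_one, Subgroup.coe_one]
  have hr1 : ((Units.map (P'.r1 : T1' →* T01') ((w1 : unitsOne (eI m T1')) : T1'ˣ) : T01'ˣ) : T01') =
      P'.r1 ((w1 : T1'ˣ) : T1') := rfl
  rw [hr1]
  calc (1 : T01') = ((Units.map (P'.r0 : T0' →* T01') ((w0⁻¹ : unitsOne (eI m T0')) : T0'ˣ) :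
          T01'ˣ) : T01') * P'.r0 ((w0 : T0'ˣ) : T0') := hr0.symm
    _ = _ := by rw [← key]; ring

end ThreeChart

end Fermat.Agent.T1B.Norm84.Iota
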