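/-
T1B / TORIC50 brick NORM-IOTA-ABS (helper84), chart level in helper98's variant:
`S0 = T[1/s]` with `s ∈ T` arbitrary, `s' := N s`, norm taken on `T[1/α s']` (a further
localisation of `S0`: `s ∣ α (N s)` by Cayley–Hamilton).  Conclusion in intrinsic form
(no localisation of the primed rings appears): writing `G0 = a / s ^ i`,
`(N s) ^ j * N a = (N s) ^ (j + i) * w` with `w ∈ 1 + m T'`.
Mathlib + Norm84 + Toric50/Glue.
-/
import Fermat.Agent.T1B.Norm84.Iota3
import Fermat.Agent.T1B.Norm84.CH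

set_option autoImplicit false
set_option linter.unusedSectionVars false

namespace Fermat.Agent.T1B.Norm84.Iota

open Fermat.Agent.T1.CechFormal70 Fermat.Agent.T1B.Toric50.Glue Fermat.Agent.T1B.Norm84

section Away98

variable {Λ : Type*} [CommRing Λ] {m : Ideal Λ}
variable {T' T S0 S' S : Type*} [CommRing T'] [CommRing T] [CommRing S0] [CommRing S'] [CommRing S]
  [Algebra Λ T'] [Algebra Λ T] [Algebra Λ S'] [Algebra Λ S] [Algebra Λ S0]
  [Algebra T' T] [Algebra T' S'] [Algebra T' S] [Algebra T S] [Algebra S' S] [Algebra T S0]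
  [IsScalarTower Λ T' T] [IsScalarTower Λ T' S'] [IsScalarTower Λ T S] [IsScalarTower Λ T S0]
  [IsScalarTower T' T S] [IsScalarTower T' S' S]
  [Module.Finite T' T] [Module.Projective T' T] [Module.Finite S' S] [Module.Projective S' S]

variable (s : T) [IsLocalization.Away s S0]
  [IsLocalization.Away (projNorm T' T s) S']
  [IsLocalization.Away (algebraMap T' T (projNorm T' T s)) S]

variable (T') in
include T' s in
/-- `s` becomes a unit in `T[1/α (N s)]` (Cayley–Hamilton). -/
theorem isUnit_algebraMap_of_away_norm : IsUnit (algebraMap T S s) := by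
  obtain ⟨c, hc⟩ := dvd_algebraMap_projNorm (R := T') s
  have hu : IsUnit (algebraMap T S (algebraMap T' T (projNorm T' T s))) :=
    IsLocalization.Away.algebraMap_isUnit _
  rw [hc, map_mul] at hu
  exact isUnit_of_mul_isUnit_left hu

variable (T' S0 S) in
/-- The canonical map `T[1/s] → T[1/α (N s)]`. -/
noncomputable def kMap : S0 →+* S :=
  IsLocalization.Away.lift s (g := algebraMap T S) (isUnit_algebraMap_of_away_norm T' s)

theorem kMap_algebraMap (t : T) :
    kMap T' S0 S s (algebraMap T S0 t) = algebraMap T S t :=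
  IsLocalization.Away.lift_eq _ _ _

theorem kMap_algebraMap_base (a : Λ) :
    kMap T' S0 S s (algebraMap Λ S0 a) = algebraMap Λ S a := by
  rw [IsScalarTower.algebraMap_apply Λ T S0, kMap_algebraMap,
    ← IsScalarTower.algebraMap_apply]

variable (T' S) in
/-- `kMap` on the units congruent to `1`. -/
noncomputable def kU : unitsOne (eI m S0) →* unitsOne (eI m S) :=
  unitsOneMap (kMap T' S0 S s)
    (eI_le_comap_of_comm (f := RingHom.id Λ) (kMap T' S0 S s)
      (kMap_algebraMap_base (T' := T') s) le_rfl)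

theorem coe_kU (G : unitsOne (eI m S0)) :
    (((kU T' S s G : unitsOne (eI m S)) : Sˣ) : S) =
      kMap T' S0 S s ((G : S0ˣ) : S0) := rfl

theorem kU_gHom (ε0 : S0) (hε0 : ε0 * ε0 = ε0) (z : unitsOne m) :
    kU T' S s (gHom ε0 hε0 z) =
      gHom (kMap T' S0 S s ε0) (by rw [← map_mul, hε0]) z := by
  apply Subtype.ext
  apply Units.ext
  show kMap T' S0 S s (1 + algebraMap Λ S0 _ * ε0) = 1 + algebraMap Λ S _ * _
  rw [map_add, map_one, map_mul, kMap_algebraMap_base]

/-- **NORM-IOTA-ABS, chart level, variant with `S0 = T[1/s]`, `s' = N s`** (helper98's design),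
intrinsic conclusion: writing `G0 = a / s ^ i`, the norm `N a` equals `(N s) ^ i · w` up to
`N s`-torsion, with `w ∈ 1 + m T'`. -/
theorem exists_unitsOne_norm_away (hm : IsNilpotent m)
    (ε0 : S0) (hε0 : ε0 * ε0 = ε0) (d : ℕ)
    (hd : ∀ p : PrimeSpectrum S', Module.rankAtStalk (R := S')
      (LinearMap.range (Algebra.lmul S' S (kMap T' S0 S s ε0))) p = d)
    (G0 : unitsOne (eI m S0))
    (hloc : ∀ M' : Ideal T', M'.IsMaximal → projNorm T' T s ∈ M' →
      (∀ Q : Ideal T, Q.IsPrime → Q.comap (algebraMap T' T) = M' →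
          RegAt Q (eI m T) (((G0 : S0ˣ) : S0) - 1)) ∨
      (∃ (Q₀ : Ideal T) (z : unitsOne m),
          (∀ Q : Ideal T, Q.IsPrime → Q.comap (algebraMap T' T) = M' → Q = Q₀) ∧
          RegAt Q₀ (eI m T)
            ((((G0 * (gHom ε0 hε0 z)⁻¹ : unitsOne (eI m S0)) : S0ˣ) : S0) - 1))) :
    ∃ (w : unitsOne (eI m T')) (i j : ℕ) (a : T),
      algebraMap T S0 a = algebraMap T S0 (s ^ i) * ((G0 : S0ˣ) : S0) ∧
      projNorm T' T s ^ j * projNorm T' T a =
        projNorm T' T s ^ (j + i) * ((w : T'ˣ) : T') := by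
  set s' : T' := projNorm T' T s with hs'
  set k := kMap T' S0 S s with hk
  have hkT : ∀ t, k (algebraMap T S0 t) = algebraMap T S t := kMap_algebraMap (T' := T') s
  have hreg : ∀ (Q : Ideal T) (x : S0), RegAt Q (eI m T) x → RegAt Q (eI m T) (k x) :=
    fun Q x hx => regAt_map (RingHom.id T) k (fun t => by rw [hkT]; rfl)
      (fun d hd => hd) (by rw [Ideal.comap_id]) hx
  set ε : S := k ε0 with hεdef
  have hε : ε * ε = ε := by rw [hεdef, ← map_mul, hε0]
  set G : unitsOne (eI m S) := kU T' S s G0 with hG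
  obtain ⟨w, hw⟩ := exists_unitsOne_projNorm (T := T) (S' := S') s' hm ε hε d hd G
    (fun M' hM' hsM' => by
      rcases hloc M' hM' hsM' with hA | ⟨Q₀, z, huniq, hB⟩
      · left
        intro Q hQ hQM
        have := hreg Q _ (hA Q hQ hQM)
        rw [map_sub, map_one] at this
        exact this
      · right
        refine ⟨Q₀, z, huniq, ?_⟩
        have := hreg Q₀ _ hB
        rw [map_sub, map_one] at this
        have h2 : G * (gHom ε hε z)⁻¹ =
            kU T' S s (G0 * (gHom ε0 hε0 z)⁻¹) := by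
          rw [map_mul, map_inv, kU_gHom]
        rw [h2]
        exact this)
  -- write `G0 = a / s ^ i`
  obtain ⟨⟨a, ⟨_, i, rfl⟩⟩, ha⟩ := IsLocalization.surj (Submonoid.powers s) ((G0 : S0ˣ) : S0)
  have ha' : algebraMap T S0 a = algebraMap T S0 (s ^ i) * ((G0 : S0ˣ) : S0) := by
    rw [mul_comm]; exact ha.symm
  -- norms in `S'`
  have h1 : algebraMap T S a = algebraMap T S (s ^ i) * ((G : Sˣ) : S) := by
    rw [← hkT, ← hkT, ha', map_mul]
    rfl
  have h2 := congrArg (projNorm S' S) h1
  rw [map_mul, projNorm_algebraMap_chart (T := T) (S' := S') s' a,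
    projNorm_algebraMap_chart (T := T) (S' := S') s' (s ^ i), ← hw, ← map_mul, map_pow] at h2
  obtain ⟨⟨_, j, rfl⟩, hj⟩ :=
    (IsLocalization.eq_iff_exists (Submonoid.powers s') S').mp h2
  refine ⟨w, i, j, a, ha', ?_⟩
  rw [pow_add, mul_assoc]
  exact hj

end Away98

end Fermat.Agent.T1B.Norm84.Iota
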