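/-
T1B / TORIC50 brick NORM-IOTA-ABS (helper84): `β ∘ ι = 1`, three-chart bookkeeping in the variant
without localisations of the primed rings (`NormReg`, `cls_eq_one_of_rep_away`).
Mathlib + Norm84 + Toric50/Glue.
-/
import Fermat.Agent.T1B.Norm84.Iota4

set_option autoImplicit false
set_option linter.unusedSectionVars false

namespace Fermat.Agent.T1B.Norm84.Iota

open Fermat.Agent.T1.CechFormal70 Fermat.Agent.T1B.Toric50.Glue Fermat.Agent.T1B.Norm84

section ThreeChartAway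

variable {Λ : Type*} [CommRing Λ] {m : Ideal Λ}
variable {T0 T1 T01 : Type*} [CommRing T0] [CommRing T1] [CommRing T01]
  [Algebra Λ T0] [Algebra Λ T1] [Algebra Λ T01] {g : ℕ}
variable {T0' T1' T01' : Type*} [CommRing T0'] [CommRing T1'] [CommRing T01']
  [Algebra Λ T0'] [Algebra Λ T1'] [Algebra Λ T01'] {g' : ℕ}
variable {S0 S1 S01 : Type*} [CommRing S0] [CommRing S1] [CommRing S01]
  [Algebra T0 S0] [Algebra T1 S1] [Algebra T01 S01]
  [Algebra Λ S0] [Algebra Λ S1] [Algebra Λ S01]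
  [IsScalarTower Λ T0 S0] [IsScalarTower Λ T1 S1] [IsScalarTower Λ T01 S01]

/-- The intrinsic chart-level conclusion of NORM-IOTA-ABS for a multiplicative map
`N : T → T'`: writing `G = a / s ^ i`, `N a = (N s) ^ i * w` up to `N s`-torsion with
`w ∈ 1 + m T'`. -/
def NormReg {T T' S : Type*} [CommRing T] [CommRing T'] [CommRing S] [Algebra Λ T']
    [Algebra T S] (m : Ideal Λ) (N : T →* T') (s : T) (G : S) : Prop :=
  ∃ (w : unitsOne (eI m T')) (i j : ℕ) (a : T),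
    algebraMap T S a = algebraMap T S (s ^ i) * G ∧
    N s ^ j * N a = N s ^ (j + i) * ((w : T'ˣ) : T')

/-- **β ∘ ι = 1, three-chart bookkeeping without localising the primed rings.**  `N_j : T_j →* T_j'`
multiplicative, compatible with the restrictions; `N s01`, `r0' (N s0)`, `r1' (N s1)` are
non-zero-divisors of `T01'`; the chart-level statement `NormReg` holds for admissible units on the
charts `0` and `1`.  Then for every representative `u` of the toric class of `z`, the class of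
`N01 u` is trivial. -/
theorem cls_eq_one_of_rep_away (hm : IsNilpotent m) {P : Pkg Λ T0 T1 T01 g}
    {P' : Pkg Λ T0' T1' T01' g'} {E : Type*} (Gl : GlueData S0 S1 S01 P E)
    (N0 : T0 →* T0') (N1 : T1 →* T1') (N01 : T01 →* T01')
    (hres0 : ∀ x, N01 (P.r0 x) = P'.r0 (N0 x)) (hres1 : ∀ x, N01 (P.r1 x) = P'.r1 (N1 x))
    (hnz01 : N01 Gl.s01 ∈ nonZeroDivisors T01')
    (hnz0 : P'.r0 (N0 Gl.s0) ∈ nonZeroDivisors T01')
    (hnz1 : P'.r1 (N1 Gl.s1) ∈ nonZeroDivisors T01')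
    {z : E → unitsOne m} {u : unitsOne (eI m T01)} (h : Gl.Rep hm z u)
    (v : unitsOne (eI m T01')) (hv : ((v : T01'ˣ) : T01') = N01 ((u : T01ˣ) : T01))
    (hreg0 : ∀ G0 : unitsOne (eI m S0), Adm hm Gl.n0 Gl.ε0 Gl.idem0 z G0 →
      NormReg m N0 Gl.s0 ((G0 : S0ˣ) : S0))
    (hreg1 : ∀ G1 : unitsOne (eI m S1), Adm hm Gl.n1 Gl.ε1 Gl.idem1 z G1 →
      NormReg m N1 Gl.s1 ((G1 : S1ˣ) : S1)) :
    P'.cls m v = 1 := by
  obtain ⟨G0, G1, a0, a1, e⟩ := h
  obtain ⟨w0, i0, j0, b0, hb0, hn0⟩ := hreg0 G0 a0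
  obtain ⟨w1, i1, j1, b1, hb1, hn1⟩ := hreg1 G1 a1
  have e' : algebraMap T01 S01 ((u : T01ˣ) : T01) * Gl.q1 ((G1 : S1ˣ) : S1) =
      Gl.q0 ((G0 : S0ˣ) : S0) := e
  -- clear denominators on the overlap
  have hS01 : algebraMap T01 S01 (((u : T01ˣ) : T01) * P.r1 b1 * P.r0 (Gl.s0 ^ i0)) =
      algebraMap T01 S01 (P.r0 b0 * P.r1 (Gl.s1 ^ i1)) := by
    rw [map_mul, map_mul, map_mul, ← Gl.q0_comm, ← Gl.q0_comm, ← Gl.q1_comm, ← Gl.q1_comm, hb0,
      hb1, map_mul, map_mul, ← e']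
    ring
  have := Gl.loc01
  obtain ⟨⟨_, n, rfl⟩, hn⟩ :=
    (IsLocalization.eq_iff_exists (Submonoid.powers Gl.s01) S01).mp hS01
  -- apply the norm
  have hN := congrArg N01 hn
  simp only [map_mul, map_pow, hres0, hres1] at hN
  have h1 : N01 ((u : T01ˣ) : T01) * P'.r1 (N1 b1) * P'.r0 (N0 Gl.s0) ^ i0 =
      P'.r0 (N0 b0) * P'.r1 (N1 Gl.s1) ^ i1 :=
    (mul_cancel_left_mem_nonZeroDivisors (pow_mem hnz01 n)).mp hN
  -- the chart identities, restricted to the overlap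
  have h0' : P'.r0 (N0 b0) = P'.r0 (N0 Gl.s0) ^ i0 * P'.r0 ((w0 : T0'ˣ) : T0') := by
    have := congrArg P'.r0 hn0
    simp only [map_mul, map_pow] at this
    rw [pow_add, mul_assoc] at this
    exact (mul_cancel_left_mem_nonZeroDivisors (pow_mem hnz0 j0)).mp this
  have h1' : P'.r1 (N1 b1) = P'.r1 (N1 Gl.s1) ^ i1 * P'.r1 ((w1 : T1'ˣ) : T1') := by
    have := congrArg P'.r1 hn1
    simp only [map_mul, map_pow] at this
    rw [pow_add, mul_assoc] at this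
    exact (mul_cancel_left_mem_nonZeroDivisors (pow_mem hnz1 j1)).mp this
  have key : ((v : T01'ˣ) : T01') * P'.r1 ((w1 : T1'ˣ) : T1') = P'.r0 ((w0 : T0'ˣ) : T0') := by
    rw [hv]
    rw [h0', h1'] at h1
    have hc : P'.r0 (N0 Gl.s0) ^ i0 * P'.r1 (N1 Gl.s1) ^ i1 ∈ nonZeroDivisors T01' :=
      mul_mem (pow_mem hnz0 i0) (pow_mem hnz1 i1)
    apply (mul_cancel_left_mem_nonZeroDivisors hc).mp
    linear_combination h1
  rw [← map_one (P'.cls m), P'.cls_eq_cls_iff]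
  refine ⟨w0⁻¹, w1, ?_⟩
  apply Units.ext
  have hr0 : ((Units.map (P'.r0 : T0' →* T01') ((w0⁻¹ : unitsOne (eI m T0')) : T0'ˣ) : T01'ˣ) : T01') *
      P'.r0 ((w0 : T0'ˣ) : T0') = 1 := by
    have h1 : P'.r0 ((w0 : T0'ˣ) : T0') =
        ((Units.map (P'.r0 : T0' →* T01') (w0 : T0'ˣ) : T01'ˣ) : T01') := rfl
    rw [Subgroup.coe_inv, map_inv, h1, Units.inv_mul]
  simp only [Units.val_mul, Units.val_one, Subgroup.coe_one]
  have hr1 : ((Units.map (P'.r1 : T1' →* T01') ((w1 : unitsOne (eI m T1')) : T1'ˣ) : T01'ˣ) : T01') =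
      P'.r1 ((w1 : T1'ˣ) : T1') := rfl
  rw [hr1]
  calc (1 : T01') = ((Units.map (P'.r0 : T0' →* T01') ((w0⁻¹ : unitsOne (eI m T0')) : T0'ˣ) :
          T01'ˣ) : T01') * P'.r0 ((w0 : T0'ˣ) : T0') := hr0.symm
    _ = _ := by rw [← key]; ring

end ThreeChartAway

end Fermat.Agent.T1B.Norm84.Iota
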