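/-
T1B / TORIC50 brick NORM-ALG (helper84), part 7: the tensor-layer norm `tnorm` commutes with
change of the coefficient ring (bc) and with restriction in a pushout square (res, trres).
Mathlib only.
-/
import Fermat.Agent.T1B.Norm84.Tensor2

set_option autoImplicit false
set_option linter.unusedSectionVars false

namespace Fermat.Agent.T1B.Norm84

open scoped TensorProduct

section BC

variable (W A C : Type*) [CommRing W] [CommRing A] [CommRing C]
  [Algebra W A] [Algebra W C] [Algebra A C] [IsScalarTower W A C]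
  [Module.Finite A C] [Module.Projective A C]
variable {R R' : Type*} [CommRing R] [CommRing R'] [Algebra W R] [Algebra W R']

attribute [local instance 50] tAlg tAlgA
attribute [local instance] Algebra.TensorProduct.rightAlgebra tFinite tProjective tTower tTowerR

/-- (bc) the norm commutes with change of the coefficient ring. -/
theorem tnorm_map (f : R →ₐ[W] R') (x : R ⊗[W] C) :
    tnorm W R' A C (Algebra.TensorProduct.map f (AlgHom.id W C) x) =
      Algebra.TensorProduct.map f (AlgHom.id W A) (tnorm W R A C x) := by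
  let iSS' : Algebra (R ⊗[W] A) (R' ⊗[W] A) :=
    (Algebra.TensorProduct.map f (AlgHom.id W A)).toRingHom.toAlgebra
  let iSN' : Algebra (R ⊗[W] A) (R' ⊗[W] C) :=
    ((algebraMap (R' ⊗[W] A) (R' ⊗[W] C)).comp (algebraMap (R ⊗[W] A) (R' ⊗[W] A))).toAlgebra
  have t1 : IsScalarTower (R ⊗[W] A) (R' ⊗[W] A) (R' ⊗[W] C) :=
    IsScalarTower.of_algebraMap_eq fun _ => rfl
  have hSS' : ∀ (r : R) (a : A), algebraMap (R ⊗[W] A) (R' ⊗[W] A) (r ⊗ₜ a) = f r ⊗ₜ a := by
    intro r a
    simp [RingHom.algebraMap_toAlgebra]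
  have hSN' : ∀ (r : R) (a : A),
      algebraMap (R ⊗[W] A) (R' ⊗[W] C) (r ⊗ₜ a) = f r ⊗ₜ algebraMap A C a := by
    intro r a
    rw [IsScalarTower.algebraMap_apply (R ⊗[W] A) (R' ⊗[W] A) (R' ⊗[W] C), hSS',
      tAlg_algebraMap_tmul]
  have t2 : IsScalarTower A (R ⊗[W] A) (R' ⊗[W] A) :=
    IsScalarTower.of_algebraMap_eq fun a => by
      rw [Algebra.TensorProduct.right_algebraMap_apply,
        Algebra.TensorProduct.right_algebraMap_apply, hSS', map_one]
  have t3 : IsScalarTower A (R ⊗[W] A) (R' ⊗[W] C) :=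
    IsScalarTower.of_algebraMap_eq fun a => by
      rw [Algebra.TensorProduct.right_algebraMap_apply, hSN', map_one, tAlgA_algebraMap]
  have hcomm : ∀ s : R ⊗[W] A, Algebra.TensorProduct.map f (AlgHom.id W C)
      (algebraMap (R ⊗[W] A) (R ⊗[W] C) s) = algebraMap (R ⊗[W] A) (R' ⊗[W] C) s := by
    intro s
    induction s using TensorProduct.induction_on with
    | zero => simp
    | add x y hx hy => rw [map_add, map_add, map_add, hx, hy]
    | tmul r a =>
      rw [hSN', tAlg_algebraMap_tmul]
      simp
  let j : (R ⊗[W] C) →ₐ[R ⊗[W] A] (R' ⊗[W] C) :=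
    { (Algebra.TensorProduct.map f (AlgHom.id W C)).toRingHom with
      commutes' := hcomm }
  have hj : IsBaseChange (R' ⊗[W] A) j.toLinearMap := by
    refine IsBaseChange.of_comp (isBaseChange_incl W R A C) ?_
    convert isBaseChange_incl W R' A C using 1
    ext c
    simp [j]
  exact projNorm_of_isBaseChange j hj x

end BC

section Res

variable (W R A0 A01 C0 C01 : Type*) [CommRing W] [CommRing R] [CommRing A0] [CommRing A01]
  [CommRing C0] [CommRing C01] [Algebra W R]
  [Algebra W A0] [Algebra W A01] [Algebra W C0] [Algebra W C01]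
  [Algebra A0 A01] [Algebra A0 C0] [Algebra C0 C01] [Algebra A01 C01] [Algebra A0 C01]
  [IsScalarTower A0 A01 C01] [IsScalarTower A0 C0 C01]
  [IsScalarTower W A0 A01] [IsScalarTower W A0 C0] [IsScalarTower W C0 C01]
  [IsScalarTower W A01 C01] [IsScalarTower W A0 C01]
  [Module.Finite A0 C0] [Module.Projective A0 C0]
  [Module.Finite A01 C01] [Module.Projective A01 C01]
  [Algebra.IsPushout A0 A01 C0 C01]

attribute [local instance 50] tAlg tAlgA
attribute [local instance] Algebra.TensorProduct.rightAlgebra tFinite tProjective tTower tTowerR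

/-- (trres) the trace is compatible with restriction in a pushout square. -/
theorem ttr_res (c : C0) :
    ttr W A01 C01 (algebraMap C0 C01 c) = algebraMap A0 A01 (ttr W A0 C0 c) :=
  projTr_of_isPushout c

/-- (res) the norm is compatible with restriction in a pushout square
`C01 = A01 ⊗[A0] C0`. -/
theorem tnorm_res (x : R ⊗[W] C0) :
    tnorm W R A01 C01
        (Algebra.TensorProduct.map (AlgHom.id R R) (IsScalarTower.toAlgHom W C0 C01) x) =
      Algebra.TensorProduct.map (AlgHom.id R R) (IsScalarTower.toAlgHom W A0 A01)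
        (tnorm W R A0 C0 x) := by
  have hS : ∀ (r : R) (a : A0), algebraMap (R ⊗[W] A0) (R ⊗[W] A01) (r ⊗ₜ a) =
      r ⊗ₜ algebraMap A0 A01 a := tAlg_algebraMap_tmul W R A0 A01
  have t1 : IsScalarTower (R ⊗[W] A0) (R ⊗[W] A01) (R ⊗[W] C01) :=
    IsScalarTower.of_algebraMap_eq fun s => by
      induction s using TensorProduct.induction_on with
      | zero => simp
      | add x y hx hy => simp only [map_add, hx, hy]
      | tmul r a =>
        rw [hS, tAlg_algebraMap_tmul, tAlg_algebraMap_tmul,
          ← IsScalarTower.algebraMap_apply A0 A01 C01]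
  have t2 : IsScalarTower A0 (R ⊗[W] A01) (R ⊗[W] C01) :=
    IsScalarTower.of_algebraMap_eq fun a => by
      rw [tAlgA_algebraMap, tAlgA_algebraMap, tAlg_algebraMap_tmul,
        ← IsScalarTower.algebraMap_apply A0 A01 C01]
  have t3 : IsScalarTower A0 A01 (R ⊗[W] A01) :=
    IsScalarTower.of_algebraMap_eq fun a => by
      rw [tAlgA_algebraMap, Algebra.TensorProduct.right_algebraMap_apply]
  have t4 : IsScalarTower A0 A01 (R ⊗[W] C01) :=
    IsScalarTower.of_algebraMap_eq fun a => by
      rw [tAlgA_algebraMap, tAlgA_algebraMap, ← IsScalarTower.algebraMap_apply A0 A01 C01]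
  have hcomm : ∀ s : R ⊗[W] A0,
      Algebra.TensorProduct.map (AlgHom.id R R) (IsScalarTower.toAlgHom W C0 C01)
        (algebraMap (R ⊗[W] A0) (R ⊗[W] C0) s) = algebraMap (R ⊗[W] A0) (R ⊗[W] C01) s := by
    intro s
    induction s using TensorProduct.induction_on with
    | zero => simp
    | add x y hx hy => rw [map_add, map_add, map_add, hx, hy]
    | tmul r a =>
      rw [tAlg_algebraMap_tmul, tAlg_algebraMap_tmul]
      simp [← IsScalarTower.algebraMap_apply A0 C0 C01]
  let j : (R ⊗[W] C0) →ₐ[R ⊗[W] A0] (R ⊗[W] C01) :=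
    { (Algebra.TensorProduct.map (AlgHom.id R R) (IsScalarTower.toAlgHom W C0 C01)).toRingHom with
      commutes' := hcomm }
  have hj : IsBaseChange (R ⊗[W] A01) j.toLinearMap := by
    refine IsBaseChange.of_comp (isBaseChange_incl W R A0 C0) ?_
    have h1 := IsBaseChange.comp
      (Algebra.IsPushout.out (R := A0) (S := A01) (R' := C0) (S' := C01))
      (isBaseChange_incl W R A01 C01)
    convert h1 using 1
    ext c
    simp [j]
  exact projNorm_of_isBaseChange j hj x

end Res

end Fermat.Agent.T1B.Norm84
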