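/-
T1B / TORIC50 brick NORM-IOTA-ABS (helper84), top level:
* `jhatHom_iota_eq_one` : for a norm system `S : NormSys D D'` (helper11, `Toric11/NormSys`) and glue
  data `Gl` on `D.pkg Λ` (helper50, `Toric50/Glue`), `S.jhatHom Λ m (Gl.iota hm z) = 1`, i.e. the
  field `β_ι` of `Toric50.Tower.Hyp`, from the chart-level statement `NormReg` on the charts 0, 1;
* `normReg_tnorm` : `NormReg` for the tensor-layer norm `tnorm W Λ A C` (the `N_j Λ` of
  `NormSys.ofProj`) from the local hypotheses (rank of the branch idempotent, fibres over the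
  maximal ideals containing `N s`).
-/
import Fermat.Agent.T1B.Norm84.Iota5
import Fermat.Agent.T1B.Norm84.Tensor3
import Fermat.Agent.T1B.Toric11.NormNat

set_option autoImplicit false
set_option linter.unusedSectionVars false

namespace Fermat.Agent.T1B.Norm84.Iota

open Fermat.Agent.T1.CechFormal70 Fermat.Agent.T1B.Toric50.Glue Fermat.Agent.T1B.Norm84
open Fermat.Agent.T1B.Toric11
open scoped TensorProduct

universe u

section NormSysLevel

variable {W B0 B1 B01 B0' B1' B01' : Type u} [CommRing W]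
  [CommRing B0] [CommRing B1] [CommRing B01] [Algebra W B0] [Algebra W B1] [Algebra W B01]
  [CommRing B0'] [CommRing B1'] [CommRing B01'] [Algebra W B0'] [Algebra W B1'] [Algebra W B01']
  {g g' : ℕ}
variable {D : CechData W B0 B1 B01 g} {D' : CechData W B0' B1' B01' g'} (S : NormSys D D')
variable (Λ : Type u) [CommRing Λ] [Algebra W Λ] {m : Ideal Λ}
variable {S0 S1 S01 : Type*} [CommRing S0] [CommRing S1] [CommRing S01]
  [Algebra (Λ ⊗[W] B0) S0] [Algebra (Λ ⊗[W] B1) S1] [Algebra (Λ ⊗[W] B01) S01]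
  [Algebra Λ S0] [Algebra Λ S1] [Algebra Λ S01]
  [IsScalarTower Λ (Λ ⊗[W] B0) S0] [IsScalarTower Λ (Λ ⊗[W] B1) S1]
  [IsScalarTower Λ (Λ ⊗[W] B01) S01]

/-- **β ∘ ι = 1** for a norm system `S : NormSys D D'` and glue data `Gl` on the package
`D.pkg Λ` (`m` nilpotent): if the norms of admissible units on the charts `0`, `1` are regular
units (`NormReg`, supplied by `exists_unitsOne_norm_away`) and `N s01`, `r0' (N s0)`, `r1' (N s1)`
are non-zero-divisors on `Λ ⊗ B01'`, then the Čech norm kills the toric class. -/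
theorem jhatHom_iota_eq_one (hm : IsNilpotent m) {E : Type*} [Fintype E] [DecidableEq E]
    (Gl : GlueData S0 S1 S01 (D.pkg Λ) E)
    (hnz01 : S.N01 Λ Gl.s01 ∈ nonZeroDivisors (Λ ⊗[W] B01'))
    (hnz0 : (D'.pkg Λ).r0 (S.N0 Λ Gl.s0) ∈ nonZeroDivisors (Λ ⊗[W] B01'))
    (hnz1 : (D'.pkg Λ).r1 (S.N1 Λ Gl.s1) ∈ nonZeroDivisors (Λ ⊗[W] B01'))
    (z : E → unitsOne m)
    (hreg0 : ∀ G0 : unitsOne (eI m S0), Adm hm Gl.n0 Gl.ε0 Gl.idem0 z G0 →
      NormReg m (S.N0 Λ) Gl.s0 ((G0 : S0ˣ) : S0))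
    (hreg1 : ∀ G1 : unitsOne (eI m S1), Adm hm Gl.n1 Gl.ε1 Gl.idem1 z G1 →
      NormReg m (S.N1 Λ) Gl.s1 ((G1 : S1ˣ) : S1)) :
    S.jhatHom Λ m (Gl.iota hm z) = 1 := by
  obtain ⟨u, hrep, hι⟩ := Gl.exists_rep_iota hm z
  rw [hι, NormSys.jhatHom_cls]
  exact cls_eq_one_of_rep_away hm Gl (S.N0 Λ) (S.N1 Λ) (S.N01 Λ) (S.res0 Λ) (S.res1 Λ)
    hnz01 hnz0 hnz1 hrep (S.unitHom01 Λ m u) rfl hreg0 hreg1

end NormSysLevel

section TensorBridge

variable {W Λ A C : Type*} [CommRing W] [CommRing Λ] [CommRing A] [CommRing C]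
  [Algebra W Λ] [Algebra W A] [Algebra W C] [Algebra A C] [IsScalarTower W A C]
  [Module.Finite A C] [Module.Projective A C] {m : Ideal Λ}

attribute [local instance 50] tAlg tAlgA
attribute [local instance] Algebra.TensorProduct.rightAlgebra tFinite tProjective tTower tTowerR

variable {S0 S' S : Type*} [CommRing S0] [CommRing S'] [CommRing S]
  [Algebra Λ S'] [Algebra Λ S] [Algebra Λ S0]
  [Algebra (Λ ⊗[W] A) S'] [Algebra (Λ ⊗[W] A) S] [Algebra (Λ ⊗[W] C) S] [Algebra S' S]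
  [Algebra (Λ ⊗[W] C) S0]
  [IsScalarTower Λ (Λ ⊗[W] A) S'] [IsScalarTower Λ (Λ ⊗[W] C) S] [IsScalarTower Λ (Λ ⊗[W] C) S0]
  [IsScalarTower (Λ ⊗[W] A) (Λ ⊗[W] C) S] [IsScalarTower (Λ ⊗[W] A) S' S]
  [Module.Finite S' S] [Module.Projective S' S]

/-- The chart-level statement for the tensor-layer norm `tnorm W Λ A C`
(`= NormSys.ofProj .. .N_j Λ` of helper11's `Toric11/NormProj`): with `T' = Λ ⊗ A`, `T = Λ ⊗ C`,
`S0 = T[1/s]`, `S' = T'[1/N s]`, `S = T[1/α (N s)]`. -/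
theorem normReg_tnorm (hm : IsNilpotent m) (s : Λ ⊗[W] C) [IsLocalization.Away s S0]
    [IsLocalization.Away (projNorm (Λ ⊗[W] A) (Λ ⊗[W] C) s) S']
    [IsLocalization.Away (algebraMap (Λ ⊗[W] A) (Λ ⊗[W] C)
      (projNorm (Λ ⊗[W] A) (Λ ⊗[W] C) s)) S]
    (ε0 : S0) (hε0 : ε0 * ε0 = ε0) (d : ℕ)
    (hd : ∀ p : PrimeSpectrum S', Module.rankAtStalk (R := S')
      (LinearMap.range (Algebra.lmul S' S (kMap (Λ ⊗[W] A) S0 S s ε0))) p = d)
    (G0 : unitsOne (eI m S0))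
    (hloc : ∀ M' : Ideal (Λ ⊗[W] A), M'.IsMaximal →
      projNorm (Λ ⊗[W] A) (Λ ⊗[W] C) s ∈ M' →
      (∀ Q : Ideal (Λ ⊗[W] C), Q.IsPrime →
          Q.comap (algebraMap (Λ ⊗[W] A) (Λ ⊗[W] C)) = M' →
          RegAt Q (eI m (Λ ⊗[W] C)) (((G0 : S0ˣ) : S0) - 1)) ∨
      (∃ (Q₀ : Ideal (Λ ⊗[W] C)) (z : unitsOne m),
          (∀ Q : Ideal (Λ ⊗[W] C), Q.IsPrime →
            Q.comap (algebraMap (Λ ⊗[W] A) (Λ ⊗[W] C)) = M' → Q = Q₀) ∧
          RegAt Q₀ (eI m (Λ ⊗[W] C))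
            ((((G0 * (gHom ε0 hε0 z)⁻¹ : unitsOne (eI m S0)) : S0ˣ) : S0) - 1))) :
    NormReg m (tnorm W Λ A C) s ((G0 : S0ˣ) : S0) :=
  exists_unitsOne_norm_away (T' := Λ ⊗[W] A) (T := Λ ⊗[W] C) (S' := S') (S := S) s hm ε0 hε0 d hd
    G0 hloc

end TensorBridge

end Fermat.Agent.T1B.Norm84.Iota
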