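/-
T1B / TORIC50 brick BETA-IOTA-INST (helper84), part 1: the rank hypothesis of NORM-IOTA from
connectedness.  On a connected base the branch `ε C` of a finite projective algebra has constant
rank; localisations away from an element of a ring with irreducible spectrum have connected
spectrum; the nilradical is prime as soon as it is prime modulo a nil ideal
(`Λ ⊗ A → (Λ ⧸ m) ⊗ A`, `m` nilpotent).  Mathlib + Norm84/Idem + CechFormal70/Defs.
-/
import Fermat.Agent.T1B.Norm84.Idem
import Fermat.Agent.T1.CechFormal70.Defs

set_option autoImplicit false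
set_option linter.unusedSectionVars false

namespace Fermat.Agent.T1B.Norm84

open scoped TensorProduct

section ConnRank

variable {R : Type*} [CommRing R] {C : Type*} [CommRing C] [Algebra R C] [Module.Finite R C]
  [Module.Projective R C]

/-- On a connected base the branch `ε C` of a finite projective algebra has constant rank. -/
theorem exists_rank_range_lmul_of_preconnected [PreconnectedSpace (PrimeSpectrum R)]
    (ε : C) (hε : ε * ε = ε) :
    ∃ d : ℕ, ∀ p : PrimeSpectrum R,
      Module.rankAtStalk (R := R) (LinearMap.range (Algebra.lmul R C ε)) p = d := by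
  have he : Algebra.lmul R C ε ∘ₗ Algebra.lmul R C ε = Algebra.lmul R C ε := by
    ext x; simp [← mul_assoc, hε]
  have hproj := projective_range_of_idem (Algebra.lmul R C ε) he
  have hfin : Module.Finite R (LinearMap.range (Algebra.lmul R C ε)) :=
    Module.Finite.range _
  have hfp : Module.FinitePresentation R (LinearMap.range (Algebra.lmul R C ε)) :=
    Module.finitePresentation_of_projective R _
  have hlc := Module.isLocallyConstant_rankAtStalk (R := R)
    (M := LinearMap.range (Algebra.lmul R C ε))
  by_cases hne : Nonempty (PrimeSpectrum R)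
  · obtain ⟨p0⟩ := hne
    exact ⟨_, fun p => hlc.apply_eq_of_preconnectedSpace p p0⟩
  · exact ⟨0, fun p => (hne ⟨p⟩).elim⟩

end ConnRank

section Irr

variable {R : Type*} [CommRing R]

/-- A localisation away from an element of a ring with irreducible spectrum has connected
spectrum. -/
theorem preconnectedSpace_away_of_preirreducible [PreirreducibleSpace (PrimeSpectrum R)]
    (f : R) (S : Type*) [CommRing S] [Algebra R S] [IsLocalization.Away f S] :
    PreconnectedSpace (PrimeSpectrum S) := by
  have hemb := PrimeSpectrum.localization_away_isOpenEmbedding S f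
  have h1 : IsPreirreducible (Set.range (PrimeSpectrum.comap (algebraMap R S))) :=
    (PreirreducibleSpace.isPreirreducible_univ (X := PrimeSpectrum R)).open_subset
      hemb.isOpen_range (Set.subset_univ _)
  have h2 : IsPreconnected (PrimeSpectrum.comap (algebraMap R S) '' Set.univ) := by
    rw [Set.image_univ]
    exact h1.isPreconnected
  exact ⟨(hemb.isInducing.isPreconnected_image).1 h2⟩

/-- The nilradical is prime as soon as it is prime modulo a nil ideal. -/
theorem isPrime_nilradical_of_ker_nil {R' : Type*} [CommRing R'] (f : R →+* R')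
    (hker : ∀ x, f x = 0 → IsNilpotent x) (h : (nilradical R').IsPrime) :
    (nilradical R).IsPrime := by
  have : nilradical R = (nilradical R').comap f := by
    ext x
    rw [Ideal.mem_comap, mem_nilradical, mem_nilradical]
    constructor
    · exact fun hx => hx.map f
    · rintro ⟨n, hn⟩
      rw [← map_pow] at hn
      obtain ⟨k, hk⟩ := hker _ hn
      exact ⟨n * k, by rw [pow_mul, hk]⟩
  rw [this]
  exact Ideal.comap_isPrime f _

/-- `Spec (Λ ⊗ A)` is irreducible as soon as `Spec ((Λ ⧸ m) ⊗ A)` is, for `m` nilpotent (e.g. `Λ`
artinian local with residue field `k = Λ ⧸ m` and `k ⊗ A` a domain). -/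
theorem isPrime_nilradical_tensor_of_quotient {W Λ A : Type*} [CommRing W] [CommRing Λ]
    [CommRing A] [Algebra W Λ] [Algebra W A] (m : Ideal Λ) (hm : IsNilpotent m)
    (h : (nilradical ((Λ ⧸ m) ⊗[W] A)).IsPrime) : (nilradical (Λ ⊗[W] A)).IsPrime := by
  refine isPrime_nilradical_of_ker_nil
    (Algebra.TensorProduct.map (Ideal.Quotient.mkₐ W m) (AlgHom.id W A)).toRingHom
    (fun x hx => ?_) h
  have hx' : x ∈ RingHom.ker
      (Algebra.TensorProduct.map (Ideal.Quotient.mkₐ W m) (AlgHom.id W A)) := hx
  rw [Algebra.TensorProduct.rTensor_ker _ (Ideal.Quotient.mkₐ_surjective W m)] at hx'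
  have hk : RingHom.ker (Ideal.Quotient.mkₐ W m) = m := by
    ext y
    rw [RingHom.mem_ker, Ideal.Quotient.mkₐ_eq_mk, Ideal.Quotient.eq_zero_iff_mem]
  rw [hk] at hx'
  exact Fermat.Agent.T1.CechFormal70.isNilpotent_of_mem
    (Fermat.Agent.T1.CechFormal70.isNilpotent_map _ hm) hx'

end Irr

end Fermat.Agent.T1B.Norm84
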