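/-
T1B / TORIC50 brick **BETA-IOTA-INST** (helper84): `β ∘ ι = 1` instantiated on helper11's Čech norm
systems (`NormSys.ofProj`, `ChartMor.normSys`, `Toric11/NormProj`) and helper50's glue data
(`Toric50/Glue`, `Toric50/Transport`), all model inputs as explicit hypotheses.

* `normReg_of_adm` : chart level, in terms of the points `𝔫 : E → Ideal T` of `V(s)` and the family
  `z : E → 1 + m` ("`z e = 1` off the points which are alone in their fibre").
* `Sp`, `St`, `RankHyp`, `normReg_of_adm_rankHyp` : the same with the concrete localisations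
  `T'[1/N s]`, `T[1/α N s]` built internally; `exists_rankHyp_of_preirreducible` : the rank hypothesis
  holds (for some `d`) as soon as `Spec T'` is irreducible.
* `ofProj_jhatHom_iota_eq_one` : three charts, algebra form (`NormSys.ofProj`).
* hom form: `lamMap`, `hnorm`, `wnorm`, `HRankHyp`, `FibHyp`, `NodeFibHyp`, `fibHyp_extendHom`,
  `normReg_hom`, `jhatHom_iota_eq_one_of_hom`, `jhatHom_iota_extendHom_eq_one_of_hom`,
  `exists_hRankHyp_of_isPrime_nilradical`.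
* `NodeHyp M D D' .. Gl ν` (structure, `Prop`) and `NodeHyp.jhatHom_iota_eq_one` : the statement for
  `M.normSys`; `βn2_iota_extendHom_eq_one` : the field `β_ι` of the tower for the pair `(Mα, Mβ)`.
-/
import Fermat.Agent.T1B.Norm84.Iota6
import Fermat.Agent.T1B.Norm84.Rank
import Fermat.Agent.T1B.Toric11.NormProj
import Fermat.Agent.T1B.Toric50.Transport

set_option autoImplicit false
set_option linter.unusedSectionVars false
set_option linter.style.haveILetI false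

noncomputable section

namespace Fermat.Agent.T1B.Norm84.Iota

open Fermat.Agent.T1.CechFormal70 Fermat.Agent.T1B.Toric50.Glue Fermat.Agent.T1B.Norm84
open Fermat.Agent.T1B.Toric11
open scoped TensorProduct

section ChartAdm

variable {Λ : Type*} [CommRing Λ] {m : Ideal Λ}
variable {T' T S0 S' S : Type*} [CommRing T'] [CommRing T] [CommRing S0] [CommRing S'] [CommRing S]
  [Algebra Λ T'] [Algebra Λ T] [Algebra Λ S'] [Algebra Λ S] [Algebra Λ S0]
  [Algebra T' T] [Algebra T' S'] [Algebra T' S] [Algebra T S] [Algebra S' S] [Algebra T S0]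
  [IsScalarTower Λ T' T] [IsScalarTower Λ T' S'] [IsScalarTower Λ T S] [IsScalarTower Λ T S0]
  [IsScalarTower T' T S] [IsScalarTower T' S' S]
  [Module.Finite T' T] [Module.Projective T' T] [Module.Finite S' S] [Module.Projective S' S]

/-- **Chart-level NORM-IOTA in terms of the gluing data**: `𝔫 : E → Ideal T` are the points of
`V(s)`, `G0` is admissible for `z : E → 1 + m`, and every point `e` with `z e ≠ 1` is alone in its
fibre over `Spec T'`.  Then the norm of `G0` is a regular unit `≡ 1 mod m` (`NormReg`). -/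
theorem normReg_of_adm (hm : IsNilpotent m) (s : T) [IsLocalization.Away s S0]
    [IsLocalization.Away (projNorm T' T s) S']
    [IsLocalization.Away (algebraMap T' T (projNorm T' T s)) S]
    {E : Type*} (𝔫 : E → Ideal T) [∀ e, (𝔫 e).IsPrime]
    (hmax : ∀ M : Ideal T, M.IsMaximal → s ∈ M → ∃ e, M = 𝔫 e)
    (ε0 : S0) (hε0 : ε0 * ε0 = ε0) (d : ℕ)
    (hd : ∀ p : PrimeSpectrum S', Module.rankAtStalk (R := S')
      (LinearMap.range (Algebra.lmul S' S (kMap T' S0 S s ε0))) p = d)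
    (z : E → unitsOne m)
    (hfib : ∀ M' : Ideal T', M'.IsMaximal → projNorm T' T s ∈ M' →
      (∀ e, (𝔫 e).comap (algebraMap T' T) = M' → z e = 1) ∨
      (∃ e₀, ∀ Q : Ideal T, Q.IsPrime → Q.comap (algebraMap T' T) = M' → Q = 𝔫 e₀))
    (G0 : unitsOne (eI m S0)) (hG : Adm hm 𝔫 ε0 hε0 z G0) :
    NormReg m (projNorm T' T) s ((G0 : S0ˣ) : S0) := by
  refine exists_unitsOne_norm_away (T' := T') (S' := S') (S := S) s hm ε0 hε0 d hd G0
    fun M' hM' hsM' => ?_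
  rcases hfib M' hM' hsM' with h1 | ⟨e₀, huniq⟩
  · left
    intro Q hQ hQM
    by_cases hsQ : s ∈ Q
    · have hQmax : Q.IsMaximal := by
        have : Algebra.IsIntegral T' T := Algebra.IsIntegral.of_finite T' T
        have : (Q.comap (algebraMap T' T)).IsMaximal := hQM ▸ hM'
        exact Ideal.isMaximal_of_isIntegral_of_isMaximal_comap (R := T') Q this
      obtain ⟨e, rfl⟩ := hmax Q hQmax hsQ
      have := hG e
      rw [h1 e hQM, map_one, inv_one, mul_one] at this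
      exact this
    · exact regAt_of_mem_eI_of_notMem s Q hsQ G0.2
  · right
    exact ⟨𝔫 e₀, z e₀, huniq, hG e₀⟩

end ChartAdm

section Concrete

variable (T' T : Type*) [CommRing T'] [CommRing T] [Algebra T' T]
  [Module.Finite T' T] [Module.Projective T' T] (s : T)

/-- `T'[1/N s]`. -/
abbrev Sp : Type _ := Localization.Away (projNorm T' T s)
/-- `T[1/α (N s)]`. -/
abbrev St : Type _ := Localization.Away (algebraMap T' T (projNorm T' T s))

/-- `T[1/α (N s)]` as an algebra over `T'[1/N s]`. -/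
@[reducible] def algSpSt : Algebra (Sp T' T s) (St T' T s) :=
  (IsLocalization.Away.map (Sp T' T s) (St T' T s) (algebraMap T' T) (projNorm T' T s)).toAlgebra

attribute [local instance] algSpSt

theorem algSpSt_algebraMap (x : T') :
    algebraMap (Sp T' T s) (St T' T s) (algebraMap T' (Sp T' T s) x) =
      algebraMap T (St T' T s) (algebraMap T' T x) := by
  unfold algSpSt IsLocalization.Away.map
  exact IsLocalization.map_eq _ x

theorem towerSpSt : IsScalarTower T' (Sp T' T s) (St T' T s) :=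
  IsScalarTower.of_algebraMap_eq fun x => by
    rw [IsScalarTower.algebraMap_apply T' T (St T' T s)]
    exact (algSpSt_algebraMap T' T s x).symm

attribute [local instance] towerSpSt

theorem isLocalization_St : IsLocalization
    (Algebra.algebraMapSubmonoid T (Submonoid.powers (projNorm T' T s))) (St T' T s) := by
  have : Algebra.algebraMapSubmonoid T (Submonoid.powers (projNorm T' T s))
      = Submonoid.powers (algebraMap T' T (projNorm T' T s)) := by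
    unfold Algebra.algebraMapSubmonoid
    rw [Submonoid.map_powers]
  rw [this]
  infer_instance

theorem isPushout_SpSt : Algebra.IsPushout T' (Sp T' T s) T (St T' T s) := by
  have := isLocalization_St T' T s
  exact (Algebra.isPushout_of_isLocalization (Submonoid.powers (projNorm T' T s))
    (Sp T' T s) T (St T' T s)).symm

theorem finite_SpSt : Module.Finite (Sp T' T s) (St T' T s) := by
  have := isPushout_SpSt T' T s
  exact finite_of_isPushout (R := T') (S := Sp T' T s) (C := T) (C' := St T' T s)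

theorem projective_SpSt : Module.Projective (Sp T' T s) (St T' T s) := by
  have := isPushout_SpSt T' T s
  exact projective_of_isPushout (R := T') (S := Sp T' T s) (C := T) (C' := St T' T s)

attribute [local instance] finite_SpSt projective_SpSt

variable {S0 : Type*} [CommRing S0] [Algebra T S0]

/-- **The rank hypothesis**: after removing `V(N s)` downstairs (and its preimage upstairs), the
branch `ε0 = 1` is locally free of constant rank `d` over the base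
(`d = 1` for the degeneracy map which is an isomorphism on the first branch, `d = p` for the one
which is the Frobenius there).  Here `Sp = T'[1/N s]`, `St = T[1/α (N s)]` (concrete
localisations) and `ε0 ∈ S0 = T[1/s]` is mapped to `St` by `kMap`. -/
def RankHyp [IsLocalization.Away s S0] (ε0 : S0) (d : ℕ) : Prop :=
  ∀ p : PrimeSpectrum (Sp T' T s), Module.rankAtStalk (R := Sp T' T s)
    (LinearMap.range (Algebra.lmul (Sp T' T s) (St T' T s)
      (kMap T' S0 (St T' T s) s ε0))) p = d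

/-- The rank hypothesis holds for some `d` as soon as `Spec T'` is irreducible. -/
theorem exists_rankHyp_of_preirreducible [PreirreducibleSpace (PrimeSpectrum T')]
    [IsLocalization.Away s S0] (ε0 : S0) (hε0 : ε0 * ε0 = ε0) :
    ∃ d : ℕ, RankHyp T' T s ε0 d := by
  haveI := preconnectedSpace_away_of_preirreducible (projNorm T' T s) (Sp T' T s)
  exact exists_rank_range_lmul_of_preconnected (R := Sp T' T s) (C := St T' T s)
    (kMap T' S0 (St T' T s) s ε0) (by rw [← map_mul, hε0])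

variable {T' T}
variable {Λ : Type*} [CommRing Λ] {m : Ideal Λ} [Algebra Λ T'] [Algebra Λ T] [Algebra Λ S0]
  [IsScalarTower Λ T' T] [IsScalarTower Λ T S0]

/-- `normReg_of_adm` with the concrete localisations `Sp`, `St`: no auxiliary rings in the
statement. -/
theorem normReg_of_adm_rankHyp (hm : IsNilpotent m) [IsLocalization.Away s S0]
    {E : Type*} (𝔫 : E → Ideal T) [∀ e, (𝔫 e).IsPrime]
    (hmax : ∀ M : Ideal T, M.IsMaximal → s ∈ M → ∃ e, M = 𝔫 e)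
    (ε0 : S0) (hε0 : ε0 * ε0 = ε0) (d : ℕ) (hd : RankHyp T' T s ε0 d)
    (z : E → unitsOne m)
    (hfib : ∀ M' : Ideal T', M'.IsMaximal → projNorm T' T s ∈ M' →
      (∀ e, (𝔫 e).comap (algebraMap T' T) = M' → z e = 1) ∨
      (∃ e₀, ∀ Q : Ideal T, Q.IsPrime → Q.comap (algebraMap T' T) = M' → Q = 𝔫 e₀))
    (G0 : unitsOne (eI m S0)) (hG : Adm hm 𝔫 ε0 hε0 z G0) :
    NormReg m (projNorm T' T) s ((G0 : S0ˣ) : S0) :=
  normReg_of_adm (S' := Sp T' T s) (S := St T' T s) hm s 𝔫 hmax ε0 hε0 d hd z hfib G0 hG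

end Concrete


section OfProj

universe u

variable {W B0 B1 B01 B0' B1' B01' : Type u} [CommRing W]
  [CommRing B0] [CommRing B1] [CommRing B01] [Algebra W B0] [Algebra W B1] [Algebra W B01]
  [CommRing B0'] [CommRing B1'] [CommRing B01'] [Algebra W B0'] [Algebra W B1'] [Algebra W B01']
  [Algebra B0 B01] [Algebra B1 B01] [IsScalarTower W B0 B01] [IsScalarTower W B1 B01]
  [Algebra B0' B01'] [Algebra B1' B01'] [IsScalarTower W B0' B01'] [IsScalarTower W B1' B01']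
  [Algebra B0' B0] [Algebra B1' B1] [Algebra B01' B01]
  [IsScalarTower W B0' B0] [IsScalarTower W B1' B1] [IsScalarTower W B01' B01]
  [Algebra B0' B01] [Algebra B1' B01]
  [IsScalarTower B0' B01' B01] [IsScalarTower B0' B0 B01]
  [IsScalarTower B1' B01' B01] [IsScalarTower B1' B1 B01]
  [IsScalarTower W B0' B01] [IsScalarTower W B1' B01]
  [Module.Finite B0' B0] [Module.Projective B0' B0]
  [Module.Finite B1' B1] [Module.Projective B1' B1]
  [Module.Finite B01' B01] [Module.Projective B01' B01]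
  [Algebra.IsPushout B0' B01' B0 B01] [Algebra.IsPushout B1' B01' B1 B01]
  {g g' : ℕ} (D : CechData W B0 B1 B01 g) (D' : CechData W B0' B1' B01' g')
  (hρ0 : ∀ x, D.ρ0 x = algebraMap B0 B01 x) (hρ1 : ∀ x, D.ρ1 x = algebraMap B1 B01 x)
  (hρ0' : ∀ x, D'.ρ0 x = algebraMap B0' B01' x) (hρ1' : ∀ x, D'.ρ1 x = algebraMap B1' B01' x)
variable (Λ : Type u) [CommRing Λ] [Algebra W Λ] {m : Ideal Λ}
variable {S0 S1 S01 : Type*} [CommRing S0] [CommRing S1] [CommRing S01]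
  [Algebra (Λ ⊗[W] B0) S0] [Algebra (Λ ⊗[W] B1) S1] [Algebra (Λ ⊗[W] B01) S01]
  [Algebra Λ S0] [Algebra Λ S1] [Algebra Λ S01]
  [IsScalarTower Λ (Λ ⊗[W] B0) S0] [IsScalarTower Λ (Λ ⊗[W] B1) S1]
  [IsScalarTower Λ (Λ ⊗[W] B01) S01]

attribute [local instance 50] tAlg tAlgA
attribute [local instance] Algebra.TensorProduct.rightAlgebra tFinite tProjective tTower tTowerR

/-- **BETA-IOTA-INST, algebra form**: `β ∘ ι = 1` for the Čech norm system
`NormSys.ofProj D D' ..` of a finite projective morphism of two-chart data and glue data `Gl` on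
`D.pkg Λ`, for `z` equal to `1` off the points which are alone in their fibre. -/
theorem ofProj_jhatHom_iota_eq_one (hm : IsNilpotent m) {E : Type*} [Fintype E] [DecidableEq E]
    (Gl : GlueData S0 S1 S01 (D.pkg Λ) E)
    (hnz01 : tnorm W Λ B01' B01 Gl.s01 ∈ nonZeroDivisors (Λ ⊗[W] B01'))
    (hnz0 : (D'.pkg Λ).r0 (tnorm W Λ B0' B0 Gl.s0) ∈ nonZeroDivisors (Λ ⊗[W] B01'))
    (hnz1 : (D'.pkg Λ).r1 (tnorm W Λ B1' B1 Gl.s1) ∈ nonZeroDivisors (Λ ⊗[W] B01'))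
    (z : E → unitsOne m) (d0 d1 : ℕ)
    (hd0 : haveI := Gl.loc0; RankHyp (Λ ⊗[W] B0') (Λ ⊗[W] B0) Gl.s0 Gl.ε0 d0)
    (hd1 : haveI := Gl.loc1; RankHyp (Λ ⊗[W] B1') (Λ ⊗[W] B1) Gl.s1 Gl.ε1 d1)
    (hfib0 : ∀ M' : Ideal (Λ ⊗[W] B0'), M'.IsMaximal → tnorm W Λ B0' B0 Gl.s0 ∈ M' →
      (∀ e, (Gl.n0 e).comap (algebraMap (Λ ⊗[W] B0') (Λ ⊗[W] B0)) = M' → z e = 1) ∨
      (∃ e₀, ∀ Q : Ideal (Λ ⊗[W] B0), Q.IsPrime →
        Q.comap (algebraMap (Λ ⊗[W] B0') (Λ ⊗[W] B0)) = M' → Q = Gl.n0 e₀))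
    (hfib1 : ∀ M' : Ideal (Λ ⊗[W] B1'), M'.IsMaximal → tnorm W Λ B1' B1 Gl.s1 ∈ M' →
      (∀ e, (Gl.n1 e).comap (algebraMap (Λ ⊗[W] B1') (Λ ⊗[W] B1)) = M' → z e = 1) ∨
      (∃ e₀, ∀ Q : Ideal (Λ ⊗[W] B1), Q.IsPrime →
        Q.comap (algebraMap (Λ ⊗[W] B1') (Λ ⊗[W] B1)) = M' → Q = Gl.n1 e₀)) :
    (NormSys.ofProj D D' hρ0 hρ1 hρ0' hρ1').jhatHom Λ m (Gl.iota hm z) = 1 := by
  haveI := Gl.loc0
  haveI := Gl.loc1
  refine jhatHom_iota_eq_one (NormSys.ofProj D D' hρ0 hρ1 hρ0' hρ1') Λ hm Gl hnz01 hnz0 hnz1 z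
    (fun G0 hG0 => ?_) (fun G1 hG1 => ?_)
  · exact normReg_of_adm_rankHyp (T' := Λ ⊗[W] B0') (T := Λ ⊗[W] B0) Gl.s0 hm Gl.n0 Gl.max0
      Gl.ε0 Gl.idem0 d0 hd0 z hfib0 G0 hG0
  · exact normReg_of_adm_rankHyp (T' := Λ ⊗[W] B1') (T := Λ ⊗[W] B1) Gl.s1 hm Gl.n1 Gl.max1
      Gl.ε1 Gl.idem1 d1 hd1 z hfib1 G1 hG1

end OfProj


section HomForm

variable {W A C : Type*} [CommRing W] [CommRing A] [CommRing C] [Algebra W A] [Algebra W C]
  (α : A →ₐ[W] C) (hfin : (α : A →+* C).Finite)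
  (hproj : letI := (α : A →+* C).toAlgebra; Module.Projective A C)
  (Λ : Type*) [CommRing Λ] [Algebra W Λ]

theorem hom_tower : letI := (α : A →+* C).toAlgebra; IsScalarTower W A C := by
  letI := (α : A →+* C).toAlgebra
  exact IsScalarTower.of_algebraMap_eq' α.comp_algebraMap.symm

/-- `id ⊗ α : Λ ⊗ A → Λ ⊗ C`. -/
def lamMap : Λ ⊗[W] A →ₐ[Λ] Λ ⊗[W] C := Algebra.TensorProduct.map (AlgHom.id Λ Λ) α

@[simp] theorem lamMap_tmul (a : Λ) (x : A) : lamMap α Λ (a ⊗ₜ[W] x) = a ⊗ₜ[W] α x := rfl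

/-- The norm `Λ ⊗ C →* Λ ⊗ A` of the finite projective map `id ⊗ α` (hom form of `tnorm`). -/
def hnorm : Λ ⊗[W] C →* Λ ⊗[W] A :=
  letI := (α : A →+* C).toAlgebra
  haveI := hom_tower α
  haveI : Module.Finite A C := hfin
  haveI : Module.Projective A C := hproj
  tnorm W Λ A C

theorem hnorm_one_tmul (c : C) :
    hnorm α hfin hproj Λ (1 ⊗ₜ[W] c) =
      1 ⊗ₜ[W] (letI := (α : A →+* C).toAlgebra
        haveI : Module.Finite A C := hfin
        haveI : Module.Projective A C := hproj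
        projNorm A C c) := by
  letI := (α : A →+* C).toAlgebra
  haveI := hom_tower α
  haveI : Module.Finite A C := hfin
  haveI : Module.Projective A C := hproj
  exact tnorm_one_tmul W Λ A C c


/-- The norm `C →* A` of the finite projective map `α` (hom form of `projNorm A C`). -/
def wnorm : C →* A :=
  letI := (α : A →+* C).toAlgebra
  haveI : Module.Finite A C := hfin
  haveI : Module.Projective A C := hproj
  projNorm A C

/-- the norm of a `W`-rational element. -/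
theorem hnorm_one_tmul' (c : C) :
    hnorm α hfin hproj Λ (1 ⊗ₜ[W] c) = 1 ⊗ₜ[W] wnorm α hfin hproj c :=
  hnorm_one_tmul α hfin hproj Λ c

variable {Λ} {m : Ideal Λ} {S0 : Type*} [CommRing S0] [Algebra (Λ ⊗[W] C) S0]

/-- **The rank hypothesis, hom form** (`RankHyp` for `T' = Λ ⊗ A`, `T = Λ ⊗ C`,
algebra structure `id ⊗ α`). -/
def HRankHyp (s : Λ ⊗[W] C) (hloc : IsLocalization.Away s S0) (ε0 : S0) (d : ℕ) : Prop :=
  letI := (α : A →+* C).toAlgebra
  haveI := hom_tower α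
  haveI : Module.Finite A C := hfin
  haveI : Module.Projective A C := hproj
  letI := tAlg W Λ A C
  haveI := tFinite W Λ A C
  haveI := tProjective W Λ A C
  haveI := hloc
  RankHyp (Λ ⊗[W] A) (Λ ⊗[W] C) s ε0 d

/-- **The fibre hypothesis, hom form**: over every maximal ideal `M'` of `Λ ⊗ A` containing the
norm of `s`, either `z = 1` at all the points `𝔫 e` over `M'`, or there is exactly one prime over
`M'` and it is one of the points `𝔫 e₀`. -/
def FibHyp {E : Type*} (s : Λ ⊗[W] C) (𝔫 : E → Ideal (Λ ⊗[W] C)) (z : E → unitsOne m) : Prop :=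
  ∀ M' : Ideal (Λ ⊗[W] A), M'.IsMaximal → hnorm α hfin hproj Λ s ∈ M' →
    (∀ e, (𝔫 e).comap (lamMap α Λ) = M' → z e = 1) ∨
    (∃ e₀, ∀ Q : Ideal (Λ ⊗[W] C), Q.IsPrime → Q.comap (lamMap α Λ) = M' → Q = 𝔫 e₀)

/-- **"One prime over each node"**: the points `𝔫 (ν k)` are alone in their fibres of
`Spec (Λ ⊗ C) → Spec (Λ ⊗ A)`. -/
def NodeFibHyp {E En : Type*} (𝔫 : E → Ideal (Λ ⊗[W] C)) (ν : En → E) : Prop :=
  ∀ (k : En) (Q : Ideal (Λ ⊗[W] C)), Q.IsPrime →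
    Q.comap (lamMap α Λ) = (𝔫 (ν k)).comap (lamMap α Λ) → Q = 𝔫 (ν k)

theorem fibHyp_extendHom {E En : Type*} (s : Λ ⊗[W] C) (𝔫 : E → Ideal (Λ ⊗[W] C)) (ν : En → E)
    (hν : Function.Injective ν) (h : NodeFibHyp α 𝔫 ν) (zn : En → unitsOne m) :
    FibHyp α hfin hproj s 𝔫 (extendHom ν hν zn) := by
  intro M' _ _
  by_cases hk : ∃ k, (𝔫 (ν k)).comap (lamMap α Λ) = M'
  · obtain ⟨k, rfl⟩ := hk
    exact Or.inr ⟨ν k, fun Q hQ hQM => h k Q hQ hQM⟩
  · refine Or.inl fun e he => extendHom_apply_of_not_mem ν hν zn e ?_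
    rintro ⟨k, rfl⟩
    exact hk ⟨k, he⟩

/-- The rank hypothesis (hom form) holds for some `d` as soon as `Spec (Λ ⊗ A)` is irreducible,
i.e. the nilradical of `Λ ⊗ A` is prime (see `isPrime_nilradical_tensor_of_quotient`). -/
theorem exists_hRankHyp_of_isPrime_nilradical (h : (nilradical (Λ ⊗[W] A)).IsPrime)
    (s : Λ ⊗[W] C) (hloc : IsLocalization.Away s S0) (ε0 : S0) (hε0 : ε0 * ε0 = ε0) :
    ∃ d : ℕ, HRankHyp α hfin hproj s hloc ε0 d := by
  letI := (α : A →+* C).toAlgebra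
  haveI := hom_tower α
  haveI : Module.Finite A C := hfin
  haveI : Module.Projective A C := hproj
  letI := tAlg W Λ A C
  haveI := tFinite W Λ A C
  haveI := tProjective W Λ A C
  haveI := hloc
  haveI : IrreducibleSpace (PrimeSpectrum (Λ ⊗[W] A)) :=
    PrimeSpectrum.irreducibleSpace_iff_isPrime_nilradical.2 h
  exact exists_rankHyp_of_preirreducible (T' := Λ ⊗[W] A) (T := Λ ⊗[W] C) s ε0 hε0

variable [Algebra Λ S0] [IsScalarTower Λ (Λ ⊗[W] C) S0]

/-- **Chart-level NORM-IOTA, hom form.** -/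
theorem normReg_hom (hm : IsNilpotent m) (s : Λ ⊗[W] C) (hloc : IsLocalization.Away s S0)
    {E : Type*} (𝔫 : E → Ideal (Λ ⊗[W] C)) [∀ e, (𝔫 e).IsPrime]
    (hmax : ∀ M : Ideal (Λ ⊗[W] C), M.IsMaximal → s ∈ M → ∃ e, M = 𝔫 e)
    (ε0 : S0) (hε0 : ε0 * ε0 = ε0) (d : ℕ) (hd : HRankHyp α hfin hproj s hloc ε0 d)
    (z : E → unitsOne m) (hfib : FibHyp α hfin hproj s 𝔫 z)
    (G0 : unitsOne (eI m S0)) (hG : Adm hm 𝔫 ε0 hε0 z G0) :
    NormReg m (hnorm α hfin hproj Λ) s ((G0 : S0ˣ) : S0) := by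
  letI := (α : A →+* C).toAlgebra
  haveI := hom_tower α
  haveI : Module.Finite A C := hfin
  haveI : Module.Projective A C := hproj
  letI := tAlg W Λ A C
  haveI := tFinite W Λ A C
  haveI := tProjective W Λ A C
  haveI := tTowerR W Λ A C
  haveI := hloc
  have hα : IsScalarTower.toAlgHom W A C = α := AlgHom.ext fun _ => rfl
  have hlam : ∀ Q : Ideal (Λ ⊗[W] C),
      Q.comap (algebraMap (Λ ⊗[W] A) (Λ ⊗[W] C)) = Q.comap (lamMap α Λ) := by
    intro Q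
    ext x
    rw [Ideal.mem_comap, Ideal.mem_comap]
    show Algebra.TensorProduct.map (AlgHom.id Λ Λ) (IsScalarTower.toAlgHom W A C) x ∈ Q ↔ _
    rw [hα]
    rfl
  refine normReg_of_adm_rankHyp (T' := Λ ⊗[W] A) (T := Λ ⊗[W] C) s hm 𝔫 hmax ε0 hε0 d hd z
    (fun M' hM' hsM' => ?_) G0 hG
  rcases hfib M' hM' hsM' with h1 | ⟨e₀, h2⟩
  · exact Or.inl fun e he => h1 e (by rw [← hlam]; exact he)
  · exact Or.inr ⟨e₀, fun Q hQ hQM => h2 Q hQ (by rw [← hlam]; exact hQM)⟩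

end HomForm


section ThreeChartHom

universe u

variable {W B0 B1 B01 B0' B1' B01' : Type u} [CommRing W]
  [CommRing B0] [CommRing B1] [CommRing B01] [Algebra W B0] [Algebra W B1] [Algebra W B01]
  [CommRing B0'] [CommRing B1'] [CommRing B01'] [Algebra W B0'] [Algebra W B1'] [Algebra W B01']
  {g g' : ℕ} {D : CechData W B0 B1 B01 g} {D' : CechData W B0' B1' B01' g'}
variable (S : NormSys D D') (Λ : Type u) [CommRing Λ] [Algebra W Λ] {m : Ideal Λ}
variable {S0 S1 S01 : Type*} [CommRing S0] [CommRing S1] [CommRing S01]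
  [Algebra (Λ ⊗[W] B0) S0] [Algebra (Λ ⊗[W] B1) S1] [Algebra (Λ ⊗[W] B01) S01]
  [Algebra Λ S0] [Algebra Λ S1] [Algebra Λ S01]
  [IsScalarTower Λ (Λ ⊗[W] B0) S0] [IsScalarTower Λ (Λ ⊗[W] B1) S1]
  [IsScalarTower Λ (Λ ⊗[W] B01) S01]
variable (α0 : B0' →ₐ[W] B0) (hfin0 : (α0 : B0' →+* B0).Finite)
  (hproj0 : letI := (α0 : B0' →+* B0).toAlgebra; Module.Projective B0' B0)
  (α1 : B1' →ₐ[W] B1) (hfin1 : (α1 : B1' →+* B1).Finite)
  (hproj1 : letI := (α1 : B1' →+* B1).toAlgebra; Module.Projective B1' B1)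

/-- **BETA-IOTA-INST, hom form**: `S` a norm system whose chart norms at level `Λ` are the norms
of the finite projective maps `id ⊗ α_j`; `Gl` glue data on `D.pkg Λ`; `z : E → 1 + m` equal to `1`
off the points which are alone in their fibres (`FibHyp`); the branch `ε_j = 1` has constant rank
`d_j` over the base (`HRankHyp`); `N s01`, `r_j' (N s_j)` non-zero-divisors.  Then the Čech norm
kills the toric class of `z`. -/
theorem jhatHom_iota_eq_one_of_hom (hm : IsNilpotent m) {E : Type*} [Fintype E] [DecidableEq E]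
    (Gl : GlueData S0 S1 S01 (D.pkg Λ) E)
    (hN0 : S.N0 Λ = hnorm α0 hfin0 hproj0 Λ) (hN1 : S.N1 Λ = hnorm α1 hfin1 hproj1 Λ)
    (hnz01 : S.N01 Λ Gl.s01 ∈ nonZeroDivisors (Λ ⊗[W] B01'))
    (hnz0 : (D'.pkg Λ).r0 (S.N0 Λ Gl.s0) ∈ nonZeroDivisors (Λ ⊗[W] B01'))
    (hnz1 : (D'.pkg Λ).r1 (S.N1 Λ Gl.s1) ∈ nonZeroDivisors (Λ ⊗[W] B01'))
    (z : E → unitsOne m) (d0 d1 : ℕ)
    (hd0 : HRankHyp α0 hfin0 hproj0 Gl.s0 Gl.loc0 Gl.ε0 d0)
    (hd1 : HRankHyp α1 hfin1 hproj1 Gl.s1 Gl.loc1 Gl.ε1 d1)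
    (hfib0 : FibHyp α0 hfin0 hproj0 Gl.s0 Gl.n0 z)
    (hfib1 : FibHyp α1 hfin1 hproj1 Gl.s1 Gl.n1 z) :
    S.jhatHom Λ m (Gl.iota hm z) = 1 := by
  refine jhatHom_iota_eq_one S Λ hm Gl hnz01 hnz0 hnz1 z (fun G0 hG0 => ?_) (fun G1 hG1 => ?_)
  · rw [hN0]
    exact normReg_hom α0 hfin0 hproj0 hm Gl.s0 Gl.loc0 Gl.n0 Gl.max0 Gl.ε0 Gl.idem0 d0 hd0 z
      hfib0 G0 hG0
  · rw [hN1]
    exact normReg_hom α1 hfin1 hproj1 hm Gl.s1 Gl.loc1 Gl.n1 Gl.max1 Gl.ε1 Gl.idem1 d1 hd1 z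
      hfib1 G1 hG1

/-- **BETA-IOTA-INST on the true nodes** (`ν : En → E`, `z = extendHom ν hν zn`): the fibre
hypothesis is "one prime over each node" (`NodeFibHyp`) in both charts. -/
theorem jhatHom_iota_extendHom_eq_one_of_hom (hm : IsNilpotent m) {E : Type*} [Fintype E]
    [DecidableEq E] (Gl : GlueData S0 S1 S01 (D.pkg Λ) E)
    (hN0 : S.N0 Λ = hnorm α0 hfin0 hproj0 Λ) (hN1 : S.N1 Λ = hnorm α1 hfin1 hproj1 Λ)
    (hnz01 : S.N01 Λ Gl.s01 ∈ nonZeroDivisors (Λ ⊗[W] B01'))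
    (hnz0 : (D'.pkg Λ).r0 (S.N0 Λ Gl.s0) ∈ nonZeroDivisors (Λ ⊗[W] B01'))
    (hnz1 : (D'.pkg Λ).r1 (S.N1 Λ Gl.s1) ∈ nonZeroDivisors (Λ ⊗[W] B01'))
    (d0 d1 : ℕ)
    (hd0 : HRankHyp α0 hfin0 hproj0 Gl.s0 Gl.loc0 Gl.ε0 d0)
    (hd1 : HRankHyp α1 hfin1 hproj1 Gl.s1 Gl.loc1 Gl.ε1 d1)
    {En : Type*} (ν : En → E) (hν : Function.Injective ν)
    (hone0 : NodeFibHyp α0 (Λ := Λ) Gl.n0 ν) (hone1 : NodeFibHyp α1 (Λ := Λ) Gl.n1 ν)
    (zn : En → unitsOne m) :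
    S.jhatHom Λ m (Gl.iota hm (extendHom ν hν zn)) = 1 :=
  jhatHom_iota_eq_one_of_hom S Λ α0 hfin0 hproj0 α1 hfin1 hproj1 hm Gl hN0 hN1 hnz01 hnz0 hnz1 _
    d0 d1 hd0 hd1 (fibHyp_extendHom α0 hfin0 hproj0 Gl.s0 Gl.n0 ν hν hone0 zn)
    (fibHyp_extendHom α1 hfin1 hproj1 Gl.s1 Gl.n1 ν hν hone1 zn)

end ThreeChartHom


section ChartMorForm

universe u

variable {W B0 B1 B01 B0' B1' B01' : Type u} [CommRing W]
  [CommRing B0] [CommRing B1] [CommRing B01] [Algebra W B0] [Algebra W B1] [Algebra W B01]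
  [CommRing B0'] [CommRing B1'] [CommRing B01'] [Algebra W B0'] [Algebra W B1'] [Algebra W B01']
  [Algebra B0 B01] [Algebra B1 B01] [IsScalarTower W B0 B01] [IsScalarTower W B1 B01]
  [Algebra B0' B01'] [Algebra B1' B01'] [IsScalarTower W B0' B01'] [IsScalarTower W B1' B01']
  (M : ChartMor W B0 B1 B01 B0' B1' B01')
  {g g' : ℕ} (D : CechData W B0 B1 B01 g) (D' : CechData W B0' B1' B01' g')
  (hρ0 : ∀ x, D.ρ0 x = algebraMap B0 B01 x) (hρ1 : ∀ x, D.ρ1 x = algebraMap B1 B01 x)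
  (hρ0' : ∀ x, D'.ρ0 x = algebraMap B0' B01' x) (hρ1' : ∀ x, D'.ρ1 x = algebraMap B1' B01' x)
variable (Λ : Type u) [CommRing Λ] [Algebra W Λ] {m : Ideal Λ}
variable {S0 S1 S01 : Type*} [CommRing S0] [CommRing S1] [CommRing S01]
  [Algebra (Λ ⊗[W] B0) S0] [Algebra (Λ ⊗[W] B1) S1] [Algebra (Λ ⊗[W] B01) S01]
  [Algebra Λ S0] [Algebra Λ S1] [Algebra Λ S01]
  [IsScalarTower Λ (Λ ⊗[W] B0) S0] [IsScalarTower Λ (Λ ⊗[W] B1) S1]
  [IsScalarTower Λ (Λ ⊗[W] B01) S01]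

theorem chartMor_N0 :
    (M.normSys D D' hρ0 hρ1 hρ0' hρ1').N0 Λ = hnorm M.α0 M.fin0 M.proj0 Λ := rfl

theorem chartMor_N1 :
    (M.normSys D D' hρ0 hρ1 hρ0' hρ1').N1 Λ = hnorm M.α1 M.fin1 M.proj1 Λ := rfl


theorem chartMor_N01 :
    (M.normSys D D' hρ0 hρ1 hρ0' hρ1').N01 Λ = hnorm M.α01 M.finite01 M.projective01 Λ := rfl

variable {Λ}

/-- **The hypotheses of BETA-IOTA-INST for one finite projective morphism of two-chart data `M`**
(the degeneracy map `α` or `β`), glue data `Gl` at level `Λ` and true nodes `ν : En → E`: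
non-zero-divisor conditions, constant rank of the first branch in both charts, one prime over each
true node in both charts. -/
structure NodeHyp {E En : Type*} (Gl : GlueData S0 S1 S01 (D.pkg Λ) E) (ν : En → E) : Prop where
  nz01 : (M.normSys D D' hρ0 hρ1 hρ0' hρ1').N01 Λ Gl.s01 ∈ nonZeroDivisors (Λ ⊗[W] B01')
  nz0 : (D'.pkg Λ).r0 ((M.normSys D D' hρ0 hρ1 hρ0' hρ1').N0 Λ Gl.s0) ∈
    nonZeroDivisors (Λ ⊗[W] B01')
  nz1 : (D'.pkg Λ).r1 ((M.normSys D D' hρ0 hρ1 hρ0' hρ1').N1 Λ Gl.s1) ∈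
    nonZeroDivisors (Λ ⊗[W] B01')
  rank0 : ∃ d0 : ℕ, HRankHyp M.α0 M.fin0 M.proj0 Gl.s0 Gl.loc0 Gl.ε0 d0
  rank1 : ∃ d1 : ℕ, HRankHyp M.α1 M.fin1 M.proj1 Gl.s1 Gl.loc1 Gl.ε1 d1
  one0 : NodeFibHyp M.α0 (Λ := Λ) Gl.n0 ν
  one1 : NodeFibHyp M.α1 (Λ := Λ) Gl.n1 ν

variable {M D D' hρ0 hρ1 hρ0' hρ1'}

/-- **BETA-IOTA-INST** for `M.normSys`: the Čech norm of a finite projective morphism of two-chart
data kills the toric classes supported on the true nodes. -/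
theorem NodeHyp.jhatHom_iota_eq_one {E En : Type*} [Fintype E] [DecidableEq E]
    {Gl : GlueData S0 S1 S01 (D.pkg Λ) E} {ν : En → E}
    (H : NodeHyp M D D' hρ0 hρ1 hρ0' hρ1' Gl ν) (hm : IsNilpotent m)
    (hν : Function.Injective ν) (zn : En → unitsOne m) :
    (M.normSys D D' hρ0 hρ1 hρ0' hρ1').jhatHom Λ m (Gl.iota hm (extendHom ν hν zn)) = 1 := by
  obtain ⟨d0, hd0⟩ := H.rank0
  obtain ⟨d1, hd1⟩ := H.rank1
  exact jhatHom_iota_extendHom_eq_one_of_hom (M.normSys D D' hρ0 hρ1 hρ0' hρ1') Λ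
    M.α0 M.fin0 M.proj0 M.α1 M.fin1 M.proj1 hm Gl rfl rfl H.nz01 H.nz0 H.nz1 d0 d1 hd0 hd1 ν hν
    H.one0 H.one1 zn

/-- **Constructor of `NodeHyp` from `W`-rational data**: the functions `s_j` of the glue data are
`1 ⊗ s_j` with `s_j` defined over `W` (as in `Toric98.ToricBase.glueData`), the norms are then
`1 ⊗ N s_j`; the rank hypotheses are replaced by the irreducibility of `Spec (Λ ⊗ B_j')`. -/
theorem NodeHyp.of_rational {E En : Type*} {Gl : GlueData S0 S1 S01 (D.pkg Λ) E} {ν : En → E}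
    (s0 : B0) (s1 : B1) (s01 : B01)
    (hs0 : Gl.s0 = (1 : Λ) ⊗ₜ[W] s0) (hs1 : Gl.s1 = (1 : Λ) ⊗ₜ[W] s1)
    (hs01 : Gl.s01 = (1 : Λ) ⊗ₜ[W] s01)
    (nz01 : (1 : Λ) ⊗ₜ[W] wnorm M.α01 M.finite01 M.projective01 s01 ∈
      nonZeroDivisors (Λ ⊗[W] B01'))
    (nz0 : (1 : Λ) ⊗ₜ[W] D'.ρ0 (wnorm M.α0 M.fin0 M.proj0 s0) ∈ nonZeroDivisors (Λ ⊗[W] B01'))
    (nz1 : (1 : Λ) ⊗ₜ[W] D'.ρ1 (wnorm M.α1 M.fin1 M.proj1 s1) ∈ nonZeroDivisors (Λ ⊗[W] B01'))
    (irr0 : (nilradical (Λ ⊗[W] B0')).IsPrime) (irr1 : (nilradical (Λ ⊗[W] B1')).IsPrime)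
    (one0 : NodeFibHyp M.α0 (Λ := Λ) Gl.n0 ν) (one1 : NodeFibHyp M.α1 (Λ := Λ) Gl.n1 ν) :
    NodeHyp M D D' hρ0 hρ1 hρ0' hρ1' Gl ν where
  nz01 := by
    have h := hnorm_one_tmul' M.α01 M.finite01 M.projective01 Λ s01
    rw [hs01, chartMor_N01, h]
    exact nz01
  nz0 := by
    have h := hnorm_one_tmul' M.α0 M.fin0 M.proj0 Λ s0
    rw [hs0, chartMor_N0, h]
    exact nz0
  nz1 := by
    have h := hnorm_one_tmul' M.α1 M.fin1 M.proj1 Λ s1
    rw [hs1, chartMor_N1, h]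
    exact nz1
  rank0 := exists_hRankHyp_of_isPrime_nilradical M.α0 M.fin0 M.proj0 irr0 Gl.s0 Gl.loc0 Gl.ε0
    Gl.idem0
  rank1 := exists_hRankHyp_of_isPrime_nilradical M.α1 M.fin1 M.proj1 irr1 Gl.s1 Gl.loc1 Gl.ε1
    Gl.idem1
  one0 := one0
  one1 := one1

end ChartMorForm

section TowerForm

universe u

variable {W B0 B1 B01 B0' B1' B01' : Type u} [CommRing W]
  [CommRing B0] [CommRing B1] [CommRing B01] [Algebra W B0] [Algebra W B1] [Algebra W B01]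
  [CommRing B0'] [CommRing B1'] [CommRing B01'] [Algebra W B0'] [Algebra W B1'] [Algebra W B01']
  [Algebra B0 B01] [Algebra B1 B01] [IsScalarTower W B0 B01] [IsScalarTower W B1 B01]
  [Algebra B0' B01'] [Algebra B1' B01'] [IsScalarTower W B0' B01'] [IsScalarTower W B1' B01']
  {Mα Mβ : ChartMor W B0 B1 B01 B0' B1' B01'}
  {g g' : ℕ} {D : CechData W B0 B1 B01 g} {D' : CechData W B0' B1' B01' g'}
  {hρ0 : ∀ x, D.ρ0 x = algebraMap B0 B01 x} {hρ1 : ∀ x, D.ρ1 x = algebraMap B1 B01 x}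
  {hρ0' : ∀ x, D'.ρ0 x = algebraMap B0' B01' x} {hρ1' : ∀ x, D'.ρ1 x = algebraMap B1' B01' x}
variable {O : Type u} [CommRing O] [Algebra W O] (𝔪 : Ideal O) (n : ℕ)
variable {S0 S1 S01 : Type*} [CommRing S0] [CommRing S1] [CommRing S01]
  [Algebra (Tr 𝔪 n ⊗[W] B0) S0] [Algebra (Tr 𝔪 n ⊗[W] B1) S1] [Algebra (Tr 𝔪 n ⊗[W] B01) S01]
  [Algebra (Tr 𝔪 n) S0] [Algebra (Tr 𝔪 n) S1] [Algebra (Tr 𝔪 n) S01]
  [IsScalarTower (Tr 𝔪 n) (Tr 𝔪 n ⊗[W] B0) S0] [IsScalarTower (Tr 𝔪 n) (Tr 𝔪 n ⊗[W] B1) S1]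
  [IsScalarTower (Tr 𝔪 n) (Tr 𝔪 n ⊗[W] B01) S01]

/-- **The field `β_ι` of the tower, level `n`**, for the pair of Čech norms of two finite projective
morphisms `Mα`, `Mβ` (the two degeneracy maps) and `ι n z = Gl.iota _ (extendHom ν hν z)`. -/
theorem βn2_iota_extendHom_eq_one {E : Type*} [Fintype E] [DecidableEq E] {r : ℕ}
    {Gl : GlueData S0 S1 S01 (D.pkg (Tr 𝔪 n)) E} {ν : Fin r → E}
    (Hα : NodeHyp Mα D D' hρ0 hρ1 hρ0' hρ1' Gl ν) (Hβ : NodeHyp Mβ D D' hρ0 hρ1 hρ0' hρ1' Gl ν)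
    (hν : Function.Injective ν) (z : Tn r 𝔪 n) :
    βn2 (Mα.normSys D D' hρ0 hρ1 hρ0' hρ1') (Mβ.normSys D D' hρ0 hρ1 hρ0' hρ1') 𝔪 n
      (Gl.iota (mQ_nilpotent 𝔪 n) (extendHom ν hν z)) = 1 :=
  Prod.ext (Hα.jhatHom_iota_eq_one (mQ_nilpotent 𝔪 n) hν z)
    (Hβ.jhatHom_iota_eq_one (mQ_nilpotent 𝔪 n) hν z)

end TowerForm

end Fermat.Agent.T1B.Norm84.Iota
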