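/-
T1B / TORIC50 brick BETA-IOTA-INST (helper84), part 3: **reduction of the model hypotheses to the
residue level**.

* `NilPrime R` : "the nilradical is prime or `R` is trivial", i.e. `Spec R` is (pre)irreducible;
  `NilPrime.of_ker_nil`, `nilPrime_tensor_of_surjective`, `nilPrime_tensor_Tr` (level `O ⧸ 𝔪 ^ n` from
  the residue level `O ⧸ 𝔪`, all `n` including `n = 0`), `exists_hRankHyp_of_nilPrime`.
* `nodeFibHyp_of_surjective` : "one prime over each node" at level `Λ` from the level `Λ'` for a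
  surjection `Λ → Λ'` with nil kernel.
* `NodeHyp.of_rational'` : constructor of `NodeHyp` with `NilPrime` hypotheses (also valid over the
  zero ring, i.e. at the level `n = 0` of the tower).
-/
import Fermat.Agent.T1B.Norm84.Iota7

set_option autoImplicit false
set_option linter.unusedSectionVars false
set_option linter.style.haveILetI false

namespace Fermat.Agent.T1B.Norm84.Iota

open Fermat.Agent.T1.CechFormal70 Fermat.Agent.T1B.Toric50.Glue Fermat.Agent.T1B.Norm84
open Fermat.Agent.T1B.Toric11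
open scoped TensorProduct

section NilPrimeSec

/-- `Spec R` is irreducible or empty: a product is nilpotent only if one of the factors is. -/
def NilPrime (R : Type*) [CommRing R] : Prop :=
  ∀ a b : R, IsNilpotent (a * b) → IsNilpotent a ∨ IsNilpotent b

variable {R : Type*} [CommRing R]

theorem NilPrime.of_subsingleton [Subsingleton R] : NilPrime R :=
  fun _ _ _ => Or.inl ⟨1, Subsingleton.elim _ _⟩

theorem NilPrime.of_isDomain [IsDomain R] : NilPrime R := by
  intro a b hab
  have h0 : a * b = 0 := hab.eq_zero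
  rcases mul_eq_zero.1 h0 with h | h
  · exact Or.inl (h ▸ IsNilpotent.zero)
  · exact Or.inr (h ▸ IsNilpotent.zero)

theorem NilPrime.of_isPrime_nilradical (h : (nilradical R).IsPrime) : NilPrime R := by
  intro a b hab
  rcases h.mem_or_mem (mem_nilradical.2 hab) with h1 | h1
  · exact Or.inl (mem_nilradical.1 h1)
  · exact Or.inr (mem_nilradical.1 h1)

/-- `NilPrime` descends along a ring map with nil kernel. -/
theorem NilPrime.of_ker_nil {R' : Type*} [CommRing R'] (f : R →+* R')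
    (hker : ∀ x, f x = 0 → IsNilpotent x) (h : NilPrime R') : NilPrime R := by
  have key : ∀ x : R, IsNilpotent (f x) → IsNilpotent x := by
    rintro x ⟨n, hn⟩
    rw [← map_pow] at hn
    obtain ⟨k, hk⟩ := hker _ hn
    exact ⟨n * k, by rw [pow_mul, hk]⟩
  intro a b hab
  have := hab.map f
  rw [map_mul] at this
  rcases h _ _ this with h1 | h1
  · exact Or.inl (key a h1)
  · exact Or.inr (key b h1)

theorem NilPrime.preirreducibleSpace (h : NilPrime R) :
    PreirreducibleSpace (PrimeSpectrum R) := by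
  by_cases h1 : IsNilpotent (1 : R)
  · have hs : Subsingleton R := by
      obtain ⟨n, hn⟩ := h1
      rw [one_pow] at hn
      exact subsingleton_of_zero_eq_one hn.symm
    have he : IsEmpty (PrimeSpectrum R) := inferInstance
    refine ⟨?_⟩
    rintro u v - - ⟨x, -⟩
    exact (he.false x).elim
  · have hp : (nilradical R).IsPrime := by
      refine ⟨?_, ?_⟩
      · rw [Ne, Ideal.eq_top_iff_one, mem_nilradical]
        exact h1
      · intro a b hab
        rcases h a b (mem_nilradical.1 hab) with h2 | h2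
        · exact Or.inl (mem_nilradical.2 h2)
        · exact Or.inr (mem_nilradical.2 h2)
    have := PrimeSpectrum.irreducibleSpace_iff_isPrime_nilradical.2 hp
    infer_instance

end NilPrimeSec

section Residue

variable {W A C : Type*} [CommRing W] [CommRing A] [CommRing C] [Algebra W A] [Algebra W C]
  (α : A →ₐ[W] C)
  {Λ Λ' : Type*} [CommRing Λ] [Algebra W Λ] [CommRing Λ'] [Algebra W Λ']

/-- the kernel of `f ⊗ id` is nil if the kernel of the surjection `f` is. -/
theorem isNilpotent_of_map_tmul_eq_zero (B : Type*) [CommRing B] [Algebra W B] (f : Λ →ₐ[W] Λ')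
    (hf : Function.Surjective f) (hker : ∀ x, f x = 0 → IsNilpotent x) (x : Λ ⊗[W] B)
    (hx : Algebra.TensorProduct.map f (AlgHom.id W B) x = 0) : IsNilpotent x := by
  have hx' : x ∈ RingHom.ker (Algebra.TensorProduct.map f (AlgHom.id W B)) := hx
  rw [Algebra.TensorProduct.rTensor_ker _ hf] at hx'
  have hle : (RingHom.ker f).map
      (Algebra.TensorProduct.includeLeft : Λ →ₐ[W] Λ ⊗[W] B) ≤ nilradical (Λ ⊗[W] B) := by
    rw [Ideal.map_le_iff_le_comap]
    intro y hy
    rw [Ideal.mem_comap, mem_nilradical]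
    exact (hker y hy).map _
  exact mem_nilradical.1 (hle hx')

/-- `Spec (Λ ⊗ B)` is irreducible as soon as `Spec (Λ' ⊗ B)` is, for a surjection `Λ → Λ'` with
nil kernel. -/
theorem nilPrime_tensor_of_surjective (B : Type*) [CommRing B] [Algebra W B] (f : Λ →ₐ[W] Λ')
    (hf : Function.Surjective f) (hker : ∀ x, f x = 0 → IsNilpotent x)
    (h : NilPrime (Λ' ⊗[W] B)) : NilPrime (Λ ⊗[W] B) :=
  NilPrime.of_ker_nil (Algebra.TensorProduct.map f (AlgHom.id W B)).toRingHom
    (fun x hx => isNilpotent_of_map_tmul_eq_zero B f hf hker x hx) h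

/-- **"One prime over each node" descends from the residue level**: `f : Λ → Λ'` surjective with nil
kernel (e.g. `Λ → Λ ⧸ m`, `m` nilpotent), points `𝔫 (ν k)` at level `Λ` the contractions of the
points `𝔫' (ν' k)` at level `Λ'`. -/
theorem nodeFibHyp_of_surjective (f : Λ →ₐ[W] Λ') (hf : Function.Surjective f)
    (hker : ∀ x, f x = 0 → IsNilpotent x) {E E' En : Type*} (𝔫 : E → Ideal (Λ ⊗[W] C))
    (𝔫' : E' → Ideal (Λ' ⊗[W] C)) (ν : En → E) (ν' : En → E')
    (hc : ∀ k, 𝔫 (ν k) = (𝔫' (ν' k)).comap (Algebra.TensorProduct.map f (AlgHom.id W C)))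
    (h : NodeFibHyp α (Λ := Λ') 𝔫' ν') : NodeFibHyp α (Λ := Λ) 𝔫 ν := by
  intro k Q hQ hQk
  set FC := Algebra.TensorProduct.map f (AlgHom.id W C) with hFC
  set FA := Algebra.TensorProduct.map f (AlgHom.id W A) with hFA
  have hFCs : Function.Surjective FC :=
    Algebra.TensorProduct.map_surjective f (AlgHom.id W C) hf Function.surjective_id
  have hFAs : Function.Surjective FA :=
    Algebra.TensorProduct.map_surjective f (AlgHom.id W A) hf Function.surjective_id
  have hkerQ : RingHom.ker FC ≤ Q := by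
    intro x hx
    obtain ⟨n, hn⟩ := isNilpotent_of_map_tmul_eq_zero C f hf hker x hx
    exact hQ.mem_of_pow_mem n (by rw [hn]; exact Q.zero_mem)
  -- the image prime at level `Λ'`
  have hQ' : (Q.map FC).IsPrime := Ideal.map_isPrime_of_surjective hFCs hkerQ
  have hcm : (Q.map FC).comap FC = Q := by
    rw [Ideal.comap_map_of_surjective FC hFCs, sup_eq_left]
    exact hkerQ
  -- compatibility of `lamMap` with the change of level
  have hsq : ∀ x, FC (lamMap α Λ x) = lamMap α Λ' (FA x) := by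
    intro x
    induction x using TensorProduct.induction_on with
    | zero => simp
    | add x y hx hy => simp only [map_add, hx, hy]
    | tmul a b => simp [hFC, hFA]
  have hcomap : ∀ I : Ideal (Λ' ⊗[W] C),
      (I.comap FC).comap (lamMap α Λ) = (I.comap (lamMap α Λ')).comap FA := by
    intro I
    ext x
    simp only [Ideal.mem_comap]
    rw [hsq]
  have h1 : ((Q.map FC).comap (lamMap α Λ')).comap FA =
      ((𝔫' (ν' k)).comap (lamMap α Λ')).comap FA := by
    rw [← hcomap, ← hcomap, hcm, ← hc k]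
    exact hQk
  have h2 : (Q.map FC).comap (lamMap α Λ') = (𝔫' (ν' k)).comap (lamMap α Λ') :=
    Ideal.comap_injective_of_surjective FA hFAs h1
  have h3 := h k (Q.map FC) hQ' h2
  rw [hc k, ← h3, hcm]

/-- over the zero ring "one prime over each node" is void. -/
theorem nodeFibHyp_of_subsingleton [Subsingleton Λ] {E En : Type*} (𝔫 : E → Ideal (Λ ⊗[W] C))
    (ν : En → E) : NodeFibHyp α (Λ := Λ) 𝔫 ν := by
  intro k Q hQ _
  exfalso
  apply hQ.ne_top
  rw [Ideal.eq_top_iff_one]
  have : (1 : Λ ⊗[W] C) = 0 := by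
    rw [Algebra.TensorProduct.one_def, Subsingleton.elim (1 : Λ) 0, TensorProduct.zero_tmul]
  rw [this]
  exact Q.zero_mem

end Residue

section HomRank

variable {W A C : Type*} [CommRing W] [CommRing A] [CommRing C] [Algebra W A] [Algebra W C]
  (α : A →ₐ[W] C) (hfin : (α : A →+* C).Finite)
  (hproj : letI := (α : A →+* C).toAlgebra; Module.Projective A C)
  {Λ : Type*} [CommRing Λ] [Algebra W Λ] {S0 : Type*} [CommRing S0] [Algebra (Λ ⊗[W] C) S0]

/-- The rank hypothesis (hom form) holds for some `d` as soon as `Spec (Λ ⊗ A)` is irreducible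
or empty. -/
theorem exists_hRankHyp_of_nilPrime (h : NilPrime (Λ ⊗[W] A))
    (s : Λ ⊗[W] C) (hloc : IsLocalization.Away s S0) (ε0 : S0) (hε0 : ε0 * ε0 = ε0) :
    ∃ d : ℕ, HRankHyp α hfin hproj s hloc ε0 d := by
  letI := (α : A →+* C).toAlgebra
  haveI := hom_tower α
  haveI : Module.Finite A C := hfin
  haveI : Module.Projective A C := hproj
  letI := tAlg W Λ A C
  haveI := tFinite W Λ A C
  haveI := tProjective W Λ A C
  haveI := hloc
  haveI : PreirreducibleSpace (PrimeSpectrum (Λ ⊗[W] A)) := h.preirreducibleSpace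
  exact exists_rankHyp_of_preirreducible (T' := Λ ⊗[W] A) (T := Λ ⊗[W] C) s ε0 hε0

end HomRank

section TowerLevel

universe u

variable {W : Type u} [CommRing W] {O : Type u} [CommRing O] [Algebra W O] (𝔪 : Ideal O)

/-- the projection `O ⧸ 𝔪 ^ (n+1) → O ⧸ 𝔪` to the residue level. -/
noncomputable def toRes (n : ℕ) : Tr 𝔪 (n + 1) →ₐ[W] O ⧸ 𝔪 :=
  Ideal.Quotient.factorₐ W (Ideal.pow_le_self (Nat.succ_ne_zero n))

theorem toRes_surjective (n : ℕ) : Function.Surjective (toRes (W := W) 𝔪 n) :=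
  Ideal.Quotient.factor_surjective (Ideal.pow_le_self (Nat.succ_ne_zero n))

theorem toRes_ker_nil (n : ℕ) (x : Tr 𝔪 (n + 1)) (hx : toRes (W := W) 𝔪 n x = 0) :
    IsNilpotent x := by
  obtain ⟨y, rfl⟩ := Ideal.Quotient.mk_surjective x
  have hy : y ∈ 𝔪 := by
    have : Ideal.Quotient.mk 𝔪 y = 0 := hx
    exact Ideal.Quotient.eq_zero_iff_mem.1 this
  refine ⟨n + 1, ?_⟩
  rw [← map_pow, Ideal.Quotient.eq_zero_iff_mem]
  exact Ideal.pow_mem_pow hy (n + 1)

theorem subsingleton_Tr_zero : Subsingleton (Tr 𝔪 0) := by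
  have : (𝔪 ^ 0 : Ideal O) = ⊤ := by rw [pow_zero, Ideal.one_eq_top]
  exact Ideal.Quotient.subsingleton_iff.2 this

/-- **Irreducibility at every level of the tower from the residue level.** -/
theorem nilPrime_tensor_Tr (B : Type u) [CommRing B] [Algebra W B]
    (h : NilPrime ((O ⧸ 𝔪) ⊗[W] B)) (n : ℕ) : NilPrime (Tr 𝔪 n ⊗[W] B) := by
  cases n with
  | zero =>
    have hs0 := subsingleton_Tr_zero 𝔪
    have : Subsingleton (Tr 𝔪 0 ⊗[W] B) := by
      refine ⟨fun x y => ?_⟩
      have h0 : ∀ z : Tr 𝔪 0 ⊗[W] B, z = 0 := by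
        intro z
        induction z using TensorProduct.induction_on with
        | zero => rfl
        | add a b ha hb => rw [ha, hb, add_zero]
        | tmul a b => rw [Subsingleton.elim a 0, TensorProduct.zero_tmul]
      rw [h0 x, h0 y]
    exact NilPrime.of_subsingleton
  | succ n =>
    exact nilPrime_tensor_of_surjective B (toRes 𝔪 n) (toRes_surjective 𝔪 n)
      (toRes_ker_nil 𝔪 n) h

end TowerLevel

section ChartMorForm'

universe u

variable {W B0 B1 B01 B0' B1' B01' : Type u} [CommRing W]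
  [CommRing B0] [CommRing B1] [CommRing B01] [Algebra W B0] [Algebra W B1] [Algebra W B01]
  [CommRing B0'] [CommRing B1'] [CommRing B01'] [Algebra W B0'] [Algebra W B1'] [Algebra W B01']
  [Algebra B0 B01] [Algebra B1 B01] [IsScalarTower W B0 B01] [IsScalarTower W B1 B01]
  [Algebra B0' B01'] [Algebra B1' B01'] [IsScalarTower W B0' B01'] [IsScalarTower W B1' B01']
  {M : ChartMor W B0 B1 B01 B0' B1' B01'}
  {g g' : ℕ} {D : CechData W B0 B1 B01 g} {D' : CechData W B0' B1' B01' g'}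
  {hρ0 : ∀ x, D.ρ0 x = algebraMap B0 B01 x} {hρ1 : ∀ x, D.ρ1 x = algebraMap B1 B01 x}
  {hρ0' : ∀ x, D'.ρ0 x = algebraMap B0' B01' x} {hρ1' : ∀ x, D'.ρ1 x = algebraMap B1' B01' x}
variable {Λ : Type u} [CommRing Λ] [Algebra W Λ]
variable {S0 S1 S01 : Type*} [CommRing S0] [CommRing S1] [CommRing S01]
  [Algebra (Λ ⊗[W] B0) S0] [Algebra (Λ ⊗[W] B1) S1] [Algebra (Λ ⊗[W] B01) S01]
  [Algebra Λ S0] [Algebra Λ S1] [Algebra Λ S01]
  [IsScalarTower Λ (Λ ⊗[W] B0) S0] [IsScalarTower Λ (Λ ⊗[W] B1) S1]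
  [IsScalarTower Λ (Λ ⊗[W] B01) S01]

/-- **Constructor of `NodeHyp` from `W`-rational data**, with `NilPrime` hypotheses (valid at every
level of the tower, including the zero ring `Tr 𝔪 0`). -/
theorem NodeHyp.of_rational' {E En : Type*} {Gl : GlueData S0 S1 S01 (D.pkg Λ) E} {ν : En → E}
    (s0 : B0) (s1 : B1) (s01 : B01)
    (hs0 : Gl.s0 = (1 : Λ) ⊗ₜ[W] s0) (hs1 : Gl.s1 = (1 : Λ) ⊗ₜ[W] s1)
    (hs01 : Gl.s01 = (1 : Λ) ⊗ₜ[W] s01)
    (nz01 : (1 : Λ) ⊗ₜ[W] wnorm M.α01 M.finite01 M.projective01 s01 ∈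
      nonZeroDivisors (Λ ⊗[W] B01'))
    (nz0 : (1 : Λ) ⊗ₜ[W] D'.ρ0 (wnorm M.α0 M.fin0 M.proj0 s0) ∈ nonZeroDivisors (Λ ⊗[W] B01'))
    (nz1 : (1 : Λ) ⊗ₜ[W] D'.ρ1 (wnorm M.α1 M.fin1 M.proj1 s1) ∈ nonZeroDivisors (Λ ⊗[W] B01'))
    (irr0 : NilPrime (Λ ⊗[W] B0')) (irr1 : NilPrime (Λ ⊗[W] B1'))
    (one0 : NodeFibHyp M.α0 (Λ := Λ) Gl.n0 ν) (one1 : NodeFibHyp M.α1 (Λ := Λ) Gl.n1 ν) :
    NodeHyp M D D' hρ0 hρ1 hρ0' hρ1' Gl ν where
  nz01 := by
    have h := hnorm_one_tmul' M.α01 M.finite01 M.projective01 Λ s01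
    rw [hs01, chartMor_N01, h]
    exact nz01
  nz0 := by
    have h := hnorm_one_tmul' M.α0 M.fin0 M.proj0 Λ s0
    rw [hs0, chartMor_N0, h]
    exact nz0
  nz1 := by
    have h := hnorm_one_tmul' M.α1 M.fin1 M.proj1 Λ s1
    rw [hs1, chartMor_N1, h]
    exact nz1
  rank0 := exists_hRankHyp_of_nilPrime M.α0 M.fin0 M.proj0 irr0 Gl.s0 Gl.loc0 Gl.ε0 Gl.idem0
  rank1 := exists_hRankHyp_of_nilPrime M.α1 M.fin1 M.proj1 irr1 Gl.s1 Gl.loc1 Gl.ε1 Gl.idem1
  one0 := one0
  one1 := one1

end ChartMorForm'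

end Fermat.Agent.T1B.Norm84.Iota
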