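/-
T1B / TORIC50 brick **BETA-IOTA-TOWER** (helper84): the field `β_ι` of the tower for helper50's toric
tower `Toric50.Toric50.Wrap.iota H N O hO` (built on helper98's `ToricBase.glueData`) and the pair of Čech
norms `βn2 (Mα.normSys ..) (Mβ.normSys ..)` of two finite projective morphisms of two-chart data
(helper11's `ChartMor.normSys`).

* `glueData_n0_ptsMap`, `glueData_n1_ptsMap` : the points of the glue data contract along `f ⊗ id`.
* `beta_iota_tower_of_nodeHyp` : `β_ι` from `NodeHyp` at every level `O ⧸ 𝔪 ^ (n+1)`.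
* `ResNodeHyp M D' H N O hO` : the hypotheses at the `W`-level and at the residue level
  `k = O ⧸ 𝔪` only: the three norms are regular mod `π`, `Spec (k ⊗ B_j')` irreducible, one prime of
  `k ⊗ B_j` over the image of each true node.  `ResNodeHyp.nodeHyp` : `NodeHyp` at every level.
* `beta_iota_tower` : `β_ι` from `ResNodeHyp Mα ..` and `ResNodeHyp Mβ ..`.
-/
import Fermat.Agent.T1B.Norm84.Iota8
import Fermat.Agent.T1B.Toric50.Wrap

set_option autoImplicit false
set_option linter.unusedSectionVars false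
set_option linter.style.haveILetI false

namespace Fermat.Agent.T1B.Norm84.Iota

open Fermat.Agent.T1.CechFormal70 Fermat.Agent.T1B.Toric50.Glue Fermat.Agent.T1B.Norm84
open Fermat.Agent.T1B.Toric11 Fermat.Agent.T1B.Toric98 Fermat.Agent.T1B.Toric50.Wrap
open scoped TensorProduct
open IsLocalRing

universe u

section Contract

variable {W B0 B1 B01 : Type u} [CommRing W] [CommRing B0] [CommRing B1] [CommRing B01]
  [Algebra W B0] [Algebra W B1] [Algebra W B01] {g : ℕ} {D : CechData W B0 B1 B01 g} {π : W}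
  [hmax : (Ideal.span {π}).IsMaximal] [Algebra.FiniteType W B0] [Algebra.FiniteType W B1]
  [Algebra.FiniteType W B01] (H : ToricBase D π)
  {Λ Λ' : Type u} [CommRing Λ] [Algebra W Λ] [IsArtinianRing Λ]
  [CommRing Λ'] [Algebra W Λ'] [IsArtinianRing Λ'] (f : Λ →ₐ[W] Λ')
  (hπ : IsNilpotent (algebraMap W Λ π)) (hπ' : IsNilpotent (algebraMap W Λ' π))

theorem glueData_n0_ptsMap (p' : H.Pts Λ') :
    (H.glueData Λ hπ).n0 (H.ptsMap f p') =
      ((H.glueData Λ' hπ').n0 p').comap (Algebra.TensorProduct.map f (AlgHom.id W B0)) := by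
  ext x
  show (D.pkg Λ).r0 x ∈ (H.ptsMap f p').1 ↔
    (D.pkg Λ').r0 (Algebra.TensorProduct.map f (AlgHom.id W B0) x) ∈ p'.1
  rw [ToricBase.ptsMap_val, Ideal.mem_comap, (D.pkgHom f).r0_comm]
  rfl

theorem glueData_n1_ptsMap (p' : H.Pts Λ') :
    (H.glueData Λ hπ).n1 (H.ptsMap f p') =
      ((H.glueData Λ' hπ').n1 p').comap (Algebra.TensorProduct.map f (AlgHom.id W B1)) := by
  ext x
  show (D.pkg Λ).r1 x ∈ (H.ptsMap f p').1 ↔
    (D.pkg Λ').r1 (Algebra.TensorProduct.map f (AlgHom.id W B1) x) ∈ p'.1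
  rw [ToricBase.ptsMap_val, Ideal.mem_comap, (D.pkgHom f).r1_comm]
  rfl

end Contract

section Tower

variable {W B0 B1 B01 B0' B1' B01' : Type u} [CommRing W]
  [CommRing B0] [CommRing B1] [CommRing B01] [Algebra W B0] [Algebra W B1] [Algebra W B01]
  [CommRing B0'] [CommRing B1'] [CommRing B01'] [Algebra W B0'] [Algebra W B1'] [Algebra W B01']
  [Algebra B0 B01] [Algebra B1 B01] [IsScalarTower W B0 B01] [IsScalarTower W B1 B01]
  [Algebra B0' B01'] [Algebra B1' B01'] [IsScalarTower W B0' B01'] [IsScalarTower W B1' B01']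
  {g g' : ℕ} {D : CechData W B0 B1 B01 g} {D' : CechData W B0' B1' B01' g'}
  {hρ0 : ∀ x, D.ρ0 x = algebraMap B0 B01 x} {hρ1 : ∀ x, D.ρ1 x = algebraMap B1 B01 x}
  {hρ0' : ∀ x, D'.ρ0 x = algebraMap B0' B01' x} {hρ1' : ∀ x, D'.ρ1 x = algebraMap B1' B01' x}
  {π : W} [hmax : (Ideal.span {π}).IsMaximal] [Algebra.FiniteType W B0]
  [Algebra.FiniteType W B1] [Algebra.FiniteType W B01]
  (H : ToricBase D π) {r : ℕ} (N : NodeSys H (Fin r))
  (O : Type u) [CommRing O] [IsDomain O] [IsDiscreteValuationRing O] [Algebra W O]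
  (hO : algebraMap W O π ∈ maximalIdeal O)

/-- **BETA-IOTA-TOWER from `NodeHyp` at every level.** -/
theorem beta_iota_tower_of_nodeHyp (Mα Mβ : ChartMor W B0 B1 B01 B0' B1' B01')
    (Hα : ∀ n : ℕ,
      haveI := isLocalRing_tr_succ O n
      haveI := isArtinianRing_tr O (n + 1)
      NodeHyp Mα D D' hρ0 hρ1 hρ0' hρ1'
        (H.glueData (Tr (maximalIdeal O) (n + 1)) (isNilpotent_pi_tr O hO (n + 1)))
        (N.node (Tr (maximalIdeal O) (n + 1)) (isNilpotent_pi_tr O hO (n + 1))))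
    (Hβ : ∀ n : ℕ,
      haveI := isLocalRing_tr_succ O n
      haveI := isArtinianRing_tr O (n + 1)
      NodeHyp Mβ D D' hρ0 hρ1 hρ0' hρ1'
        (H.glueData (Tr (maximalIdeal O) (n + 1)) (isNilpotent_pi_tr O hO (n + 1)))
        (N.node (Tr (maximalIdeal O) (n + 1)) (isNilpotent_pi_tr O hO (n + 1))))
    (n : ℕ) (z : Tn r (maximalIdeal O) n) :
    βn2 (Mα.normSys D D' hρ0 hρ1 hρ0' hρ1') (Mβ.normSys D D' hρ0 hρ1 hρ0' hρ1')
      (maximalIdeal O) n (Toric50.Wrap.iota H N O hO n z) = 1 := by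
  cases n with
  | zero =>
    have : Toric50.Wrap.iota H N O hO 0 z = 1 := rfl
    rw [this, map_one]
  | succ n =>
    haveI := isLocalRing_tr_succ O n
    haveI := isArtinianRing_tr O (n + 1)
    rw [Toric50.Wrap.iota_succ]
    exact βn2_iota_extendHom_eq_one (maximalIdeal O) (n + 1) (Hα n) (Hβ n) _ z

/-- the projection `O ⧸ 𝔪 ^ (n+1) → O ⧸ 𝔪 ^ 1` to the residue level of the tower. -/
noncomputable def toOne (n : ℕ) : Tr (maximalIdeal O) (n + 1) →ₐ[W] Tr (maximalIdeal O) 1 :=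
  Ideal.Quotient.factorₐ W (Ideal.pow_le_pow_right (Nat.succ_le_succ (Nat.zero_le n)))

theorem toOne_surjective (n : ℕ) : Function.Surjective (toOne (W := W) O n) :=
  Ideal.Quotient.factor_surjective
    (Ideal.pow_le_pow_right (Nat.succ_le_succ (Nat.zero_le n)))

theorem toOne_ker_nil (n : ℕ) (x : Tr (maximalIdeal O) (n + 1))
    (hx : toOne (W := W) O n x = 0) : IsNilpotent x := by
  obtain ⟨y, rfl⟩ := Ideal.Quotient.mk_surjective x
  have hy : y ∈ maximalIdeal O ^ 1 := by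
    have : Ideal.Quotient.mk (maximalIdeal O ^ 1) y = 0 := hx
    exact Ideal.Quotient.eq_zero_iff_mem.1 this
  rw [pow_one] at hy
  refine ⟨n + 1, ?_⟩
  rw [← map_pow, Ideal.Quotient.eq_zero_iff_mem]
  exact Ideal.pow_mem_pow hy (n + 1)

/-- **The hypotheses of BETA-IOTA-TOWER for one finite projective morphism `M` of two-chart data,
at the `W`-level and at the residue level `k = O ⧸ 𝔪 ^ 1` only**:
the norms of the functions `s_j` are regular modulo `π`; `Spec (k ⊗ B_j')` is irreducible;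
there is exactly one prime of `k ⊗ B_j` over the image of each true node. -/
structure ResNodeHyp (M : ChartMor W B0 B1 B01 B0' B1' B01') (D' : CechData W B0' B1' B01' g') :
    Prop where
  reg01 : ∀ x : B01', wnorm M.α01 M.finite01 M.projective01 H.s01 * x ∈
    Ideal.span {algebraMap W B01' π} → x ∈ Ideal.span {algebraMap W B01' π}
  reg0 : ∀ x : B01', D'.ρ0 (wnorm M.α0 M.fin0 M.proj0 H.s0) * x ∈
    Ideal.span {algebraMap W B01' π} → x ∈ Ideal.span {algebraMap W B01' π}
  reg1 : ∀ x : B01', D'.ρ1 (wnorm M.α1 M.fin1 M.proj1 H.s1) * x ∈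
    Ideal.span {algebraMap W B01' π} → x ∈ Ideal.span {algebraMap W B01' π}
  irr0 : NilPrime (Tr (maximalIdeal O) 1 ⊗[W] B0')
  irr1 : NilPrime (Tr (maximalIdeal O) 1 ⊗[W] B1')
  one0 :
    haveI := isLocalRing_tr_succ O 0
    haveI := isArtinianRing_tr O 1
    NodeFibHyp M.α0 (Λ := Tr (maximalIdeal O) 1)
      (H.glueData (Tr (maximalIdeal O) 1) (isNilpotent_pi_tr O hO 1)).n0
      (N.node (Tr (maximalIdeal O) 1) (isNilpotent_pi_tr O hO 1))
  one1 :
    haveI := isLocalRing_tr_succ O 0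
    haveI := isArtinianRing_tr O 1
    NodeFibHyp M.α1 (Λ := Tr (maximalIdeal O) 1)
      (H.glueData (Tr (maximalIdeal O) 1) (isNilpotent_pi_tr O hO 1)).n1
      (N.node (Tr (maximalIdeal O) 1) (isNilpotent_pi_tr O hO 1))

variable {H N O hO}

/-- `NodeHyp` at every level of the tower from the residue level. -/
theorem ResNodeHyp.nodeHyp {M : ChartMor W B0 B1 B01 B0' B1' B01'}
    (R : ResNodeHyp H N O hO M D') (n : ℕ) :
    haveI := isLocalRing_tr_succ O n
    haveI := isArtinianRing_tr O (n + 1)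
    NodeHyp M D D' hρ0 hρ1 hρ0' hρ1'
      (H.glueData (Tr (maximalIdeal O) (n + 1)) (isNilpotent_pi_tr O hO (n + 1)))
      (N.node (Tr (maximalIdeal O) (n + 1)) (isNilpotent_pi_tr O hO (n + 1))) := by
  haveI := isLocalRing_tr_succ O n
  haveI := isArtinianRing_tr O (n + 1)
  haveI := isLocalRing_tr_succ O 0
  haveI := isArtinianRing_tr O 1
  haveI := D'.flat01
  have hN : algebraMap W (Tr (maximalIdeal O) (n + 1)) π ^ (n + 1) = 0 := by
    have h1 : algebraMap W (Tr (maximalIdeal O) (n + 1)) π =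
        Ideal.Quotient.mk (maximalIdeal O ^ (n + 1)) (algebraMap W O π) := rfl
    rw [h1, ← map_pow, Ideal.Quotient.eq_zero_iff_mem]
    exact Ideal.pow_mem_pow hO (n + 1)
  refine NodeHyp.of_rational' H.s0 H.s1 H.s01 rfl rfl rfl
    (mem_nonZeroDivisors_tmul π _ R.reg01 _ (n + 1) hN)
    (mem_nonZeroDivisors_tmul π _ R.reg0 _ (n + 1) hN)
    (mem_nonZeroDivisors_tmul π _ R.reg1 _ (n + 1) hN)
    (nilPrime_tensor_of_surjective B0' (toOne O n) (toOne_surjective O n) (toOne_ker_nil O n)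
      R.irr0)
    (nilPrime_tensor_of_surjective B1' (toOne O n) (toOne_surjective O n) (toOne_ker_nil O n)
      R.irr1) ?_ ?_
  · refine nodeFibHyp_of_surjective M.α0 (toOne O n) (toOne_surjective O n) (toOne_ker_nil O n)
      _ _ _ _ (fun k => ?_) R.one0
    rw [← N.ptsMap_node _ _ (isNilpotent_pi_tr O hO (n + 1)) (isNilpotent_pi_tr O hO 1)
      (toOne O n) k]
    exact glueData_n0_ptsMap H (toOne O n) _ _ _
  · refine nodeFibHyp_of_surjective M.α1 (toOne O n) (toOne_surjective O n) (toOne_ker_nil O n)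
      _ _ _ _ (fun k => ?_) R.one1
    rw [← N.ptsMap_node _ _ (isNilpotent_pi_tr O hO (n + 1)) (isNilpotent_pi_tr O hO 1)
      (toOne O n) k]
    exact glueData_n1_ptsMap H (toOne O n) _ _ _

/-- **BETA-IOTA-TOWER**: the field `β_ι` of `Toric50.Master.towerInput_of_base` for the pair of Čech
norms of two finite projective morphisms `Mα`, `Mβ` of two-chart data, from hypotheses at the
`W`-level and at the residue level only. -/
theorem beta_iota_tower {Mα Mβ : ChartMor W B0 B1 B01 B0' B1' B01'}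
    (Rα : ResNodeHyp H N O hO Mα D') (Rβ : ResNodeHyp H N O hO Mβ D')
    (n : ℕ) (z : Tn r (maximalIdeal O) n) :
    βn2 (Mα.normSys D D' hρ0 hρ1 hρ0' hρ1') (Mβ.normSys D D' hρ0 hρ1 hρ0' hρ1')
      (maximalIdeal O) n (Toric50.Wrap.iota H N O hO n z) = 1 :=
  beta_iota_tower_of_nodeHyp H N O hO Mα Mβ (fun n => Rα.nodeHyp n) (fun n => Rβ.nodeHyp n) n z

end Tower

end Fermat.Agent.T1B.Norm84.Iota
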