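/-
T1B / TORIC50 brick NORM-ALG (helper84): Cayley–Hamilton for the projective norm,
`c ∣ algebraMap R C (projNorm R C c)`.  Mathlib only.
-/
import Fermat.Agent.T1B.Norm84.ProjNorm

set_option autoImplicit false
set_option linter.unusedSectionVars false

namespace Fermat.Agent.T1B.Norm84

section CayleyHamilton

variable {R : Type*} [CommRing R] {C : Type*} [CommRing C] [Algebra R C] [Module.Finite R C]
  [Module.Projective R C]

/-- **Cayley–Hamilton for the projective norm**: `c` divides `N c` in `C`. -/
theorem dvd_algebraMap_projNorm (c : C) : c ∣ algebraMap R C (projNorm R C c) := by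
  classical
  obtain ⟨n, f, g, -, -, hfg⟩ := Module.Finite.exists_comp_eq_id_of_projective R C
  have h : ∀ y, f (g y) = y := fun y => by simpa using LinearMap.congr_fun hfg y
  set φ : C →ₗ[R] C := Algebra.lmul R C c with hφ
  set L : (Fin n → R) →ₗ[R] (Fin n → R) := 1 + g ∘ₗ (φ - 1) ∘ₗ f with hL
  have hdet : LinearMap.det L = projNorm R C c := by
    rw [projNorm_apply, projDet_eq_detVia f g hfg]
    rfl
  -- `f L = φ f`
  have hfL : ∀ x, f (L x) = φ (f x) := by
    intro x
    simp [hL, h]
  -- adjugate
  let Ladj : (Fin n → R) →ₗ[R] (Fin n → R) := Matrix.toLin' (LinearMap.toMatrix' L).adjugate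
  have hLadj : ∀ x, L (Ladj x) = LinearMap.det L • x := by
    intro x
    have h1 : L ∘ₗ Ladj = LinearMap.det L • LinearMap.id := by
      have : L = Matrix.toLin' (LinearMap.toMatrix' L) := (Matrix.toLin'_toMatrix' L).symm
      rw [this, ← Matrix.toLin'_mul, Matrix.mul_adjugate, ← LinearMap.det_toMatrix',
        Matrix.toLin'_toMatrix', map_smul, Matrix.toLin'_one]
    have := LinearMap.congr_fun h1 x
    simpa using this
  refine ⟨f (Ladj (g 1)), ?_⟩
  have h2 : φ (f (Ladj (g 1))) = LinearMap.det L • (1 : C) := by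
    rw [← hfL, hLadj, map_smul, h]
  rw [Algebra.algebraMap_eq_smul_one, ← hdet, ← h2]
  rfl

end CayleyHamilton

end Fermat.Agent.T1B.Norm84
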