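/-
T1B / TORIC50 brick **NODE-FIBRE, step 1** (helper84): "one prime over each true node" at every local
artinian level `Λ` from a `W`-LEVEL statement.

The true nodes of helper98's node system (`Toric98/GlueNodes`, `GlueNodeSys`) are `κ`-rational:
`n_j (node e) = ker (Λ ⊗ B_j → ResidueField Λ, a ⊗ b ↦ ā · ev_e (ρ_j b))`.  If, at the `W`-level,
the maximal ideal `x_e = ker (ev_e ∘ ρ_j) ⊂ B_j` is contained in the radical of the ideal generated
by (the image under `α_j` of) its contraction to `B_j'`  — i.e. the fibre of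
`Spec B_j → Spec B_j'` through the node is, as a set, the single `κ`-rational point `x_e` —
then at every level the node is the only prime over its image (`NodeFibHyp`).

* `eq_ker_of_comap_eq_of_rad` : the abstract statement;
* `RadHyp α ev` : the `W`-level hypothesis;  `nodeFibHyp_n0_of_rad`, `nodeFibHyp_n1_of_rad`;
* `WNodeHyp`, `WNodeHyp.resNodeHyp`, `beta_iota_tower_of_rad` : BETA-IOTA-TOWER for
  `H.masterNodeSys ..` from `W`-level hypotheses (+ irreducibility at the residue level).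
-/
import Fermat.Agent.T1B.Norm84.Iota9
import Fermat.Agent.T1B.Toric98.GlueNodeSys

set_option autoImplicit false
set_option linter.unusedSectionVars false
set_option linter.style.haveILetI false

namespace Fermat.Agent.T1B.Norm84.Iota

open Fermat.Agent.T1.CechFormal70 Fermat.Agent.T1B.Toric50.Glue Fermat.Agent.T1B.Norm84
open Fermat.Agent.T1B.Toric11 Fermat.Agent.T1B.Toric98 Fermat.Agent.T1B.Toric50.Wrap
open scoped TensorProduct
open IsLocalRing

section Abstract

variable {W A C κ Λ : Type*} [CommRing W] [CommRing A] [CommRing C] [Algebra W A] [Algebra W C]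
  [Field κ] [Algebra W κ] [CommRing Λ] [Algebra W Λ] [IsLocalRing Λ] [IsArtinianRing Λ]

/-- **The `W`-level hypothesis of NODE-FIBRE** for a `κ`-rational point `ev : C → κ` and a map
`α : A → C`: the maximal ideal `ker ev` is contained in the radical of the extension of its
contraction, i.e. `ker ev` is the only prime of `C` over its image in `Spec A`, and this stays true
after every base change. -/
def RadHyp (α : A →ₐ[W] C) (ev : C →ₐ[W] κ) : Prop :=
  ∀ c : C, ev c = 0 → ∃ n : ℕ, c ^ n ∈ Ideal.map α ((RingHom.ker ev).comap α)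

/-- every element of `Λ ⊗ C` is congruent to a constant modulo the extension of the kernel of a
`κ`-rational point. -/
theorem exists_sub_tmul_one_mem_of_surjective (hsurj : Function.Surjective (algebraMap W κ))
    (ev : C →ₐ[W] κ) (x : Λ ⊗[W] C) :
    ∃ μ : Λ, x - μ ⊗ₜ[W] (1 : C) ∈
      (RingHom.ker ev).map (Algebra.TensorProduct.includeRight : C →ₐ[W] Λ ⊗[W] C) := by
  induction x using TensorProduct.induction_on with
  | zero => exact ⟨0, by simp⟩
  | add x y hx hy =>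
    obtain ⟨μ, hμ⟩ := hx
    obtain ⟨ν, hν⟩ := hy
    refine ⟨μ + ν, ?_⟩
    have : x + y - (μ + ν) ⊗ₜ[W] (1 : C) = (x - μ ⊗ₜ[W] 1) + (y - ν ⊗ₜ[W] 1) := by
      rw [TensorProduct.add_tmul]; ring
    rw [this]
    exact Ideal.add_mem _ hμ hν
  | tmul a b =>
    obtain ⟨w, hw⟩ := hsurj (ev b)
    refine ⟨w • a, ?_⟩
    have hn : b - algebraMap W C w ∈ RingHom.ker ev := by
      rw [RingHom.mem_ker, map_sub, AlgHom.commutes, hw, sub_self]
    have : a ⊗ₜ[W] b - (w • a) ⊗ₜ[W] (1 : C) =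
        a ⊗ₜ[W] (1 : C) * (1 : Λ) ⊗ₜ[W] (b - algebraMap W C w) := by
      rw [Algebra.TensorProduct.tmul_mul_tmul, mul_one, one_mul, TensorProduct.tmul_sub,
        TensorProduct.smul_tmul, Algebra.algebraMap_eq_smul_one]
    rw [this]
    exact Ideal.mul_mem_left _ _ (Ideal.mem_map_of_mem _ hn)

/-- **NODE-FIBRE, abstract form**: `φ : Λ ⊗ C → ResidueField Λ`, `a ⊗ c ↦ ā · χ (ev c)` a rational
point at level `Λ` (local artinian); under `RadHyp α ev` its kernel is the only prime of `Λ ⊗ C`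
with the same contraction to `Λ ⊗ A`. -/
theorem eq_ker_of_comap_eq_of_rad (α : A →ₐ[W] C) (ev : C →ₐ[W] κ)
    (hsurj : Function.Surjective (algebraMap W κ))
    (φ : Λ ⊗[W] C →+* ResidueField Λ) (χ : κ →+* ResidueField Λ)
    (hφ : ∀ (a : Λ) (c : C), φ (a ⊗ₜ[W] c) = residue Λ a * χ (ev c))
    (hrad : RadHyp α ev) (Q : Ideal (Λ ⊗[W] C)) (hQ : Q.IsPrime)
    (h : Q.comap (lamMap α Λ) = (RingHom.ker φ).comap (lamMap α Λ)) : Q = RingHom.ker φ := by
  -- `φ` is surjective, so its kernel is maximal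
  have hφs : Function.Surjective φ := by
    intro x
    obtain ⟨a, rfl⟩ := residue_surjective x
    exact ⟨a ⊗ₜ[W] 1, by rw [hφ, map_one, map_one, mul_one]⟩
  have hmax : (RingHom.ker φ).IsMaximal := RingHom.ker_isMaximal_of_surjective φ hφs
  -- step 1: `1 ⊗ α y ∈ Q` for `y` in the contraction of `ker ev`
  have h1 : ∀ y : A, ev (α y) = 0 → (1 : Λ) ⊗ₜ[W] α y ∈ Q := by
    intro y hy
    have : (1 : Λ) ⊗ₜ[W] y ∈ (RingHom.ker φ).comap (lamMap α Λ) := by
      rw [Ideal.mem_comap, lamMap_tmul, RingHom.mem_ker, hφ, hy, map_zero, mul_zero]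
    rw [← h, Ideal.mem_comap, lamMap_tmul] at this
    exact this
  -- step 2: `1 ⊗ c ∈ Q` for `c` in the extension of the contraction
  have h2 : Ideal.map α ((RingHom.ker ev).comap α) ≤
      Q.comap (Algebra.TensorProduct.includeRight : C →ₐ[W] Λ ⊗[W] C) := by
    rw [Ideal.map_le_iff_le_comap]
    intro y hy
    rw [Ideal.mem_comap, RingHom.mem_ker] at hy
    rw [Ideal.mem_comap, Ideal.mem_comap]
    exact h1 y hy
  -- step 3: `1 ⊗ c ∈ Q` for `c ∈ ker ev`
  have h3 : ∀ c : C, ev c = 0 → (1 : Λ) ⊗ₜ[W] c ∈ Q := by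
    intro c hc
    obtain ⟨n, hn⟩ := hrad c hc
    have := h2 hn
    rw [Ideal.mem_comap, map_pow] at this
    exact hQ.mem_of_pow_mem n this
  have h3' : (RingHom.ker ev).map
      (Algebra.TensorProduct.includeRight : C →ₐ[W] Λ ⊗[W] C) ≤ Q := by
    rw [Ideal.map_le_iff_le_comap]
    intro c hc
    exact h3 c ((RingHom.mem_ker).1 hc)
  have h3'' : (RingHom.ker ev).map
      (Algebra.TensorProduct.includeRight : C →ₐ[W] Λ ⊗[W] C) ≤ RingHom.ker φ := by
    rw [Ideal.map_le_iff_le_comap]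
    intro c hc
    rw [Ideal.mem_comap, RingHom.mem_ker]
    show φ ((1 : Λ) ⊗ₜ[W] c) = 0
    rw [hφ, (RingHom.mem_ker).1 hc, map_zero, mul_zero]
  -- step 4: `ker φ ≤ Q`
  have h4 : RingHom.ker φ ≤ Q := by
    intro z hz
    obtain ⟨μ, hμ⟩ := exists_sub_tmul_one_mem_of_surjective (Λ := Λ) hsurj ev z
    have hμφ : φ (μ ⊗ₜ[W] (1 : C)) = 0 := by
      have := (RingHom.mem_ker).1 (h3'' hμ)
      rw [map_sub, (RingHom.mem_ker).1 hz, zero_sub, neg_eq_zero] at this
      exact this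
    rw [hφ, map_one, map_one, mul_one] at hμφ
    have hμm : ¬ IsUnit μ := by
      intro hu
      exact (hu.map (residue Λ)).ne_zero hμφ
    obtain ⟨n, hn⟩ := isNilpotent_of_not_isUnit hμm
    have hμQ : μ ⊗ₜ[W] (1 : C) ∈ Q := by
      apply hQ.mem_of_pow_mem n
      rw [Algebra.TensorProduct.tmul_pow, hn, TensorProduct.zero_tmul]
      exact Q.zero_mem
    have : z = (z - μ ⊗ₜ[W] (1 : C)) + μ ⊗ₜ[W] (1 : C) := by ring
    rw [this]
    exact Q.add_mem (h3' hμ) hμQ
  exact (hmax.eq_of_le hQ.ne_top h4).symm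

end Abstract

section Model

universe u

variable {W B0 B1 B01 B0' B1' B01' : Type u} [CommRing W]
  [CommRing B0] [CommRing B1] [CommRing B01] [Algebra W B0] [Algebra W B1] [Algebra W B01]
  [CommRing B0'] [CommRing B1'] [CommRing B01'] [Algebra W B0'] [Algebra W B1'] [Algebra W B01']
  {g : ℕ} {D : CechData W B0 B1 B01 g} {π : W}
  [hmax : (Ideal.span {π}).IsMaximal] [Algebra.FiniteType W B0] [Algebra.FiniteType W B1]
  [Algebra.FiniteType W B01]
  (H : ToricBase D π) {En : Type} [DecidableEq En] {κ : Type u} [Field κ] [Algebra W κ]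
  (FD : FibreDatum π D.ρ0 D.ρ1 En κ)
  (hsurj : Function.Surjective (algebraMap W κ))
  (hker : RingHom.ker (algebraMap W κ) = Ideal.span {π})
  (hev : ∀ e, FD.ev e H.s01 = 0)
  (hinj : ∀ e e', RingHom.ker (FD.ev e) = RingHom.ker (FD.ev e') → e = e')
  {r : ℕ} (node : Fin r → En) (hnode : Function.Injective node)
  (Λ : Type u) [CommRing Λ] [Algebra W Λ] [IsLocalRing Λ] [IsArtinianRing Λ]
  (hπ : IsNilpotent (algebraMap W Λ π))

/-- **NODE-FIBRE on chart 0, every level**, from the `W`-level hypothesis `RadHyp`. -/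
theorem nodeFibHyp_n0_of_rad (α0 : B0' →ₐ[W] B0)
    (hrad : ∀ k, RadHyp α0 ((FD.ev (node k)).comp D.ρ0)) :
    NodeFibHyp α0 (Λ := Λ) (H.glueData Λ hπ).n0
      ((H.masterNodeSys FD hsurj hker hev hinj node hnode).node Λ hπ) := by
  intro k Q hQ hQk
  set φ : Λ ⊗[W] B0 →+* ResidueField Λ :=
    ((nodeHom FD.ev hsurj hker Λ hπ (node k) : Λ ⊗[W] B01 →+* ResidueField Λ)).comp
      ((D.pkg Λ).r0 : Λ ⊗[W] B0 →+* Λ ⊗[W] B01) with hφdef
  have hn0 : (H.glueData Λ hπ).n0
      ((H.masterNodeSys FD hsurj hker hev hinj node hnode).node Λ hπ k) = RingHom.ker φ := by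
    ext x
    rfl
  rw [hn0] at hQk ⊢
  refine eq_ker_of_comap_eq_of_rad α0 ((FD.ev (node k)).comp D.ρ0) hsurj φ
    ((chi π hsurj hker Λ hπ : κ →ₐ[W] ResidueField Λ) : κ →+* ResidueField Λ)
    (fun a c => ?_) (hrad k) Q hQ hQk
  show nodeHom FD.ev hsurj hker Λ hπ (node k) (a ⊗ₜ[W] D.ρ0 c) = _
  rw [nodeHom_tmul]
  rfl

/-- **NODE-FIBRE on chart 1, every level**, from the `W`-level hypothesis `RadHyp`. -/
theorem nodeFibHyp_n1_of_rad (α1 : B1' →ₐ[W] B1)
    (hrad : ∀ k, RadHyp α1 ((FD.ev (node k)).comp D.ρ1)) :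
    NodeFibHyp α1 (Λ := Λ) (H.glueData Λ hπ).n1
      ((H.masterNodeSys FD hsurj hker hev hinj node hnode).node Λ hπ) := by
  intro k Q hQ hQk
  set φ : Λ ⊗[W] B1 →+* ResidueField Λ :=
    ((nodeHom FD.ev hsurj hker Λ hπ (node k) : Λ ⊗[W] B01 →+* ResidueField Λ)).comp
      ((D.pkg Λ).r1 : Λ ⊗[W] B1 →+* Λ ⊗[W] B01) with hφdef
  have hn1 : (H.glueData Λ hπ).n1
      ((H.masterNodeSys FD hsurj hker hev hinj node hnode).node Λ hπ k) = RingHom.ker φ := by
    ext x
    rfl
  rw [hn1] at hQk ⊢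
  refine eq_ker_of_comap_eq_of_rad α1 ((FD.ev (node k)).comp D.ρ1) hsurj φ
    ((chi π hsurj hker Λ hπ : κ →ₐ[W] ResidueField Λ) : κ →+* ResidueField Λ)
    (fun a c => ?_) (hrad k) Q hQ hQk
  show nodeHom FD.ev hsurj hker Λ hπ (node k) (a ⊗ₜ[W] D.ρ1 c) = _
  rw [nodeHom_tmul]
  rfl

end Model

section TowerW

universe u

variable {W B0 B1 B01 B0' B1' B01' : Type u} [CommRing W]
  [CommRing B0] [CommRing B1] [CommRing B01] [Algebra W B0] [Algebra W B1] [Algebra W B01]
  [CommRing B0'] [CommRing B1'] [CommRing B01'] [Algebra W B0'] [Algebra W B1'] [Algebra W B01']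
  [Algebra B0 B01] [Algebra B1 B01] [IsScalarTower W B0 B01] [IsScalarTower W B1 B01]
  [Algebra B0' B01'] [Algebra B1' B01'] [IsScalarTower W B0' B01'] [IsScalarTower W B1' B01']
  {g g' : ℕ} {D : CechData W B0 B1 B01 g} {D' : CechData W B0' B1' B01' g'}
  {hρ0 : ∀ x, D.ρ0 x = algebraMap B0 B01 x} {hρ1 : ∀ x, D.ρ1 x = algebraMap B1 B01 x}
  {hρ0' : ∀ x, D'.ρ0 x = algebraMap B0' B01' x} {hρ1' : ∀ x, D'.ρ1 x = algebraMap B1' B01' x}
  {π : W} [hmax : (Ideal.span {π}).IsMaximal] [Algebra.FiniteType W B0]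
  [Algebra.FiniteType W B1] [Algebra.FiniteType W B01]
  (H : ToricBase D π) {En : Type} [DecidableEq En] {κ : Type u} [Field κ] [Algebra W κ]
  (FD : FibreDatum π D.ρ0 D.ρ1 En κ)
  (hsurj : Function.Surjective (algebraMap W κ))
  (hker : RingHom.ker (algebraMap W κ) = Ideal.span {π})
  (hev : ∀ e, FD.ev e H.s01 = 0)
  (hinj : ∀ e e', RingHom.ker (FD.ev e) = RingHom.ker (FD.ev e') → e = e')
  {r : ℕ} (node : Fin r → En) (hnode : Function.Injective node)
  (O : Type u) [CommRing O] [IsDomain O] [IsDiscreteValuationRing O] [Algebra W O]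
  (hO : algebraMap W O π ∈ maximalIdeal O)

/-- **The `W`-level hypotheses of BETA-IOTA-TOWER for one finite projective morphism `M` of
two-chart data** (plus irreducibility of the special fibre of the target charts over the residue
field of `O`): the norms of `s_j` are regular mod `π`; `Spec (k ⊗ B_j')` irreducible;
`RadHyp` at every true node in both charts. -/
structure WNodeHyp (M : ChartMor W B0 B1 B01 B0' B1' B01') (D' : CechData W B0' B1' B01' g') :
    Prop where
  reg01 : ∀ x : B01', wnorm M.α01 M.finite01 M.projective01 H.s01 * x ∈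
    Ideal.span {algebraMap W B01' π} → x ∈ Ideal.span {algebraMap W B01' π}
  reg0 : ∀ x : B01', D'.ρ0 (wnorm M.α0 M.fin0 M.proj0 H.s0) * x ∈
    Ideal.span {algebraMap W B01' π} → x ∈ Ideal.span {algebraMap W B01' π}
  reg1 : ∀ x : B01', D'.ρ1 (wnorm M.α1 M.fin1 M.proj1 H.s1) * x ∈
    Ideal.span {algebraMap W B01' π} → x ∈ Ideal.span {algebraMap W B01' π}
  irr0 : NilPrime (Tr (maximalIdeal O) 1 ⊗[W] B0')
  irr1 : NilPrime (Tr (maximalIdeal O) 1 ⊗[W] B1')
  rad0 : ∀ k, RadHyp M.α0 ((FD.ev (node k)).comp D.ρ0)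
  rad1 : ∀ k, RadHyp M.α1 ((FD.ev (node k)).comp D.ρ1)

variable {H FD node O}

include hsurj hker hev hinj hnode hO in
theorem WNodeHyp.resNodeHyp {M : ChartMor W B0 B1 B01 B0' B1' B01'}
    (R : WNodeHyp H FD node O M D') :
    ResNodeHyp H (H.masterNodeSys FD hsurj hker hev hinj node hnode) O hO M D' where
  reg01 := R.reg01
  reg0 := R.reg0
  reg1 := R.reg1
  irr0 := R.irr0
  irr1 := R.irr1
  one0 := by
    haveI := isLocalRing_tr_succ O 0
    haveI := isArtinianRing_tr O 1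
    exact nodeFibHyp_n0_of_rad H FD hsurj hker hev hinj node hnode _ _ M.α0 R.rad0
  one1 := by
    haveI := isLocalRing_tr_succ O 0
    haveI := isArtinianRing_tr O 1
    exact nodeFibHyp_n1_of_rad H FD hsurj hker hev hinj node hnode _ _ M.α1 R.rad1

/-- **BETA-IOTA-TOWER from `W`-level hypotheses**: the field `β_ι` of
`Toric98.ToricBase.towerInput_of_fibre` for `Sα := Mα.normSys ..`, `Sβ := Mβ.normSys ..`. -/
theorem beta_iota_tower_of_rad {Mα Mβ : ChartMor W B0 B1 B01 B0' B1' B01'}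
    (Rα : WNodeHyp H FD node O Mα D') (Rβ : WNodeHyp H FD node O Mβ D')
    (n : ℕ) (z : Tn r (maximalIdeal O) n) :
    βn2 (Mα.normSys D D' hρ0 hρ1 hρ0' hρ1') (Mβ.normSys D D' hρ0 hρ1 hρ0' hρ1')
      (maximalIdeal O) n
      (Toric50.Wrap.iota H (H.masterNodeSys FD hsurj hker hev hinj node hnode) O hO n z) = 1 :=
  beta_iota_tower (Rα.resNodeHyp hsurj hker hev hinj hnode hO)
    (Rβ.resNodeHyp hsurj hker hev hinj hnode hO) n z

end TowerW

end Fermat.Agent.T1B.Norm84.Iota
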