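/-
T1B / TORIC50 brick **NODE-FIBRE, step 2a** (helper84): the `W`-level hypothesis `RadHyp α ev`
("the node is the only point over its image, universally") from the two-branch structure of the
special fibre:

* the special fibre of `Spec C` is the union of two branches `V(P1)`, `V(P2)` (`P1 · P2 ⊆ (π)`), the
  `κ`-rational point `ev` lies on both;
* `α` is onto modulo `P1`, `β` is onto modulo `P2` (`α`, `β` identify the special fibre of `Spec A`
  with the first, resp. second branch);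
* converse Kronecker congruence on the second branch: every `(β b) ^ q` is `α a` modulo `P2`
  (`α` restricted to the second branch is `Frobenius ∘ twist`).

Then `(ker ev) ^ (2 q) ⊆ α (α⁻¹ (ker ev)) · C` elementwise.
-/
import Fermat.Agent.T1B.Norm84.Iota10

set_option autoImplicit false
set_option linter.unusedSectionVars false

namespace Fermat.Agent.T1B.Norm84.Iota

section RadBranch

variable {W A C κ : Type*} [CommRing W] [CommRing A] [CommRing C] [Algebra W A] [Algebra W C]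
  [Field κ] [Algebra W κ]

/-- **NODE-FIBRE, step 2a.** -/
theorem radHyp_of_branches (α β : A →ₐ[W] C) (ev : C →ₐ[W] κ) (π : W)
    (hπ : algebraMap W κ π = 0) (P1 P2 : Ideal C)
    (hPQ : ∀ x ∈ P1, ∀ y ∈ P2, x * y ∈ Ideal.span {algebraMap W C π})
    (hP1 : ∀ x ∈ P1, ev x = 0) (hP2 : ∀ x ∈ P2, ev x = 0)
    (hS1 : ∀ c : C, ∃ b : A, c - α b ∈ P1) (hS2 : ∀ c : C, ∃ b : A, c - β b ∈ P2)
    (q : ℕ) (hq : 0 < q) (hCK : ∀ b : A, ∃ a : A, α a - (β b) ^ q ∈ P2) : RadHyp α ev := by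
  intro c hc
  refine ⟨2 * q, ?_⟩
  set J : Ideal C := Ideal.map α ((RingHom.ker ev).comap α) with hJ
  -- elements `α a` with `ev (α a) = 0` lie in `J`
  have hJα : ∀ a : A, ev (α a) = 0 → α a ∈ J := fun a ha =>
    Ideal.mem_map_of_mem _ (by rw [Ideal.mem_comap, RingHom.mem_ker]; exact ha)
  -- `π ∈ J`
  have hπJ : Ideal.span {algebraMap W C π} ≤ J := by
    rw [Ideal.span_singleton_le_iff_mem]
    have h1 : algebraMap W C π = α (algebraMap W A π) := (α.commutes π).symm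
    rw [h1]
    apply hJα
    rw [α.commutes, ev.commutes, hπ]
  -- step 1: `c = β b' + p2`
  obtain ⟨b', hb'⟩ := hS2 c
  have hevb' : ev (β b') = 0 := by
    have := hP2 _ hb'
    rw [map_sub, hc, zero_sub, neg_eq_zero] at this
    exact this
  -- step 2: converse Kronecker
  obtain ⟨a, ha⟩ := hCK b'
  have heva : ev (α a) = 0 := by
    have := hP2 _ ha
    rw [map_sub, map_pow, hevb', sub_eq_zero] at this
    rw [this]
    exact zero_pow (Nat.pos_iff_ne_zero.1 hq)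
  -- step 3: `c ^ q - α a ∈ P2`
  have h3 : c ^ q - α a ∈ P2 := by
    obtain ⟨t, ht⟩ := sub_dvd_pow_sub_pow c (β b') q
    have : c ^ q - α a = (c - β b') * t - (α a - (β b') ^ q) := by rw [← ht]; ring
    rw [this]
    exact P2.sub_mem (P2.mul_mem_right _ hb') ha
  set p2 : C := c ^ q - α a with hp2
  have hevp2 : ev p2 = 0 := hP2 _ h3
  -- step 4: `p2 = α b + p1`
  obtain ⟨b, hb⟩ := hS1 p2
  have hevb : ev (α b) = 0 := by
    have := hP1 _ hb
    rw [map_sub, hevp2, zero_sub, neg_eq_zero] at this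
    exact this
  -- step 5: `p2 ^ 2 ∈ J`
  have h5 : p2 ^ 2 ∈ J := by
    have : p2 ^ 2 = p2 * α b + (p2 - α b) * p2 := by ring
    rw [this]
    exact J.add_mem (J.mul_mem_left _ (hJα b hevb)) (hπJ (hPQ _ hb _ h3))
  -- step 6
  have h6 : c ^ (2 * q) = α a * (α a + 2 * p2) + p2 ^ 2 := by
    have : c ^ q = α a + p2 := by rw [hp2]; ring
    rw [mul_comm, pow_mul, this]
    ring
  rw [h6]
  exact J.add_mem (J.mul_mem_right _ (hJα a heva)) h5

/-- `radHyp_of_branches` with `P1 · P2 ⊆ (π)` in the form `x * y = π • c`. -/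
theorem radHyp_of_branches' (α β : A →ₐ[W] C) (ev : C →ₐ[W] κ) (π : W)
    (hπ : algebraMap W κ π = 0) (P1 P2 : Ideal C)
    (hPQ : ∀ x ∈ P1, ∀ y ∈ P2, ∃ c : C, x * y = π • c)
    (hP1 : ∀ x ∈ P1, ev x = 0) (hP2 : ∀ x ∈ P2, ev x = 0)
    (hS1 : ∀ c : C, ∃ b : A, c - α b ∈ P1) (hS2 : ∀ c : C, ∃ b : A, c - β b ∈ P2)
    (q : ℕ) (hq : 0 < q) (hCK : ∀ b : A, ∃ a : A, α a - (β b) ^ q ∈ P2) : RadHyp α ev :=
  radHyp_of_branches α β ev π hπ P1 P2 (fun x hx y hy => by
    obtain ⟨c, hc⟩ := hPQ x hx y hy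
    rw [hc, Algebra.smul_def]
    exact Ideal.mul_mem_right _ _ (Ideal.subset_span rfl)) hP1 hP2 hS1 hS2 q hq hCK

end RadBranch

section ModelBranches

open Fermat.Agent.T1.CechFormal70 Fermat.Agent.T1B.Toric50.Glue
open Fermat.Agent.T1B.Toric11 Fermat.Agent.T1B.Toric98 Fermat.Agent.T1B.Toric50.Wrap
open scoped TensorProduct
open IsLocalRing

universe u

variable {W B0 B1 B01 B0' B1' : Type u} [CommRing W]
  [CommRing B0] [CommRing B1] [CommRing B01] [Algebra W B0] [Algebra W B1] [Algebra W B01]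
  [CommRing B0'] [CommRing B1'] [Algebra W B0'] [Algebra W B1']
  {g : ℕ} {D : CechData W B0 B1 B01 g} {π : W}
  [hmax : (Ideal.span {π}).IsMaximal] [Algebra.FiniteType W B0] [Algebra.FiniteType W B1]
  [Algebra.FiniteType W B01]
  (H : ToricBase D π) {En : Type} [DecidableEq En] {κ : Type u} [Field κ] [Algebra W κ]
  (FD : FibreDatum π D.ρ0 D.ρ1 En κ)
  (hsurj : Function.Surjective (algebraMap W κ))
  (hker : RingHom.ker (algebraMap W κ) = Ideal.span {π})
  (hev : ∀ e, FD.ev e H.s01 = 0)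
  (hinj : ∀ e e', RingHom.ker (FD.ev e) = RingHom.ker (FD.ev e') → e = e')
  {r : ℕ} (node : Fin r → En) (hnode : Function.Injective node)
  (Λ : Type u) [CommRing Λ] [Algebra W Λ] [IsLocalRing Λ] [IsArtinianRing Λ]
  (hπ : IsNilpotent (algebraMap W Λ π))

include hker in
theorem algebraMap_pi_eq_zero : algebraMap W κ π = 0 := by
  have : π ∈ RingHom.ker (algebraMap W κ) := by
    rw [hker]; exact Ideal.subset_span rfl
  exact (RingHom.mem_ker).1 this

/-- **NODE-FIBRE on chart 0 at every level, from the two-branch model facts** (`W`-level): for the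
map `α0`, with `β0` the other degeneracy map, `P` the branch on which `α0` is onto, `Q2` the branch
on which `β0` is onto and `α0` is `Frobenius ∘ twist`.  For the other degeneracy map exchange
`(α0, P)` and `(β0, Q2)`. -/
theorem nodeFibHyp_n0_of_branches (α0 β0 : B0' →ₐ[W] B0) (P Q2 : Ideal B0)
    (hPQ : ∀ x ∈ P, ∀ y ∈ Q2, ∃ c : B0, x * y = π • c)
    (hP : ∀ k, ∀ x ∈ P, FD.ev (node k) (D.ρ0 x) = 0)
    (hQ : ∀ k, ∀ x ∈ Q2, FD.ev (node k) (D.ρ0 x) = 0)
    (hS1 : ∀ c : B0, ∃ b : B0', c - α0 b ∈ P) (hS2 : ∀ c : B0, ∃ b : B0', c - β0 b ∈ Q2)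
    (q : ℕ) (hq : 0 < q) (hCK : ∀ b : B0', ∃ a : B0', α0 a - (β0 b) ^ q ∈ Q2) :
    NodeFibHyp α0 (Λ := Λ) (H.glueData Λ hπ).n0
      ((H.masterNodeSys FD hsurj hker hev hinj node hnode).node Λ hπ) :=
  nodeFibHyp_n0_of_rad H FD hsurj hker hev hinj node hnode Λ hπ α0 fun k =>
    radHyp_of_branches' α0 β0 ((FD.ev (node k)).comp D.ρ0) π (algebraMap_pi_eq_zero hker) P Q2
      hPQ (hP k) (hQ k) hS1 hS2 q hq hCK

/-- **NODE-FIBRE on chart 1 at every level, from the two-branch model facts.** -/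
theorem nodeFibHyp_n1_of_branches (α1 β1 : B1' →ₐ[W] B1) (P Q2 : Ideal B1)
    (hPQ : ∀ x ∈ P, ∀ y ∈ Q2, ∃ c : B1, x * y = π • c)
    (hP : ∀ k, ∀ x ∈ P, FD.ev (node k) (D.ρ1 x) = 0)
    (hQ : ∀ k, ∀ x ∈ Q2, FD.ev (node k) (D.ρ1 x) = 0)
    (hS1 : ∀ c : B1, ∃ b : B1', c - α1 b ∈ P) (hS2 : ∀ c : B1, ∃ b : B1', c - β1 b ∈ Q2)
    (q : ℕ) (hq : 0 < q) (hCK : ∀ b : B1', ∃ a : B1', α1 a - (β1 b) ^ q ∈ Q2) :
    NodeFibHyp α1 (Λ := Λ) (H.glueData Λ hπ).n1
      ((H.masterNodeSys FD hsurj hker hev hinj node hnode).node Λ hπ) :=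
  nodeFibHyp_n1_of_rad H FD hsurj hker hev hinj node hnode Λ hπ α1 fun k =>
    radHyp_of_branches' α1 β1 ((FD.ev (node k)).comp D.ρ1) π (algebraMap_pi_eq_zero hker) P Q2
      hPQ (hP k) (hQ k) hS1 hS2 q hq hCK

end ModelBranches

end Fermat.Agent.T1B.Norm84.Iota
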