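/-
T1B / TORIC50 brick **NODE-FIBRE, step 2b** (helper84): `RadHyp` on the NODAL TWO-CHART MODEL
(`NodeNF37.ToricBaseInst.Hyp π t B0 B1 O1 O2`) from the model facts in their `Items` shape
(`ES/N35/SurjModel15.SurjItems`, converse Kronecker items), i.e. in terms of the two vertical
valuation rings `O1`, `O2` of the function field.

* `radHyp_of_items` : one chart `B ⊆ O1 ⊓ O2`, `π`-saturated; `α` onto modulo `π O1`, `β` onto
  modulo `π O2`, `α a ≡ (β b) ^ q` modulo `π O2`; `ev` kills `B ∩ π O1` and `B ∩ π O2`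
  ⊢ `RadHyp α ev`.  The statement is symmetric under `(α, O1) ↔ (β, O2)`.
* `Hyp.radHyp0`, `Hyp.radHyp1` : the two charts of the nodal model, `ev := (FD.ev e).comp D.ρ_j` for
  a fibre datum `FD` with `FD.P = Hy.P`, `FD.Q = Hy.Q`; `Hyp.radHyp0'`, `Hyp.radHyp1'` : the same for
  the other degeneracy map.
-/
import Fermat.Agent.T1B.Norm84.RadBranch
import Fermat.Agent.T1B.NodeNF37.ToricBaseExtra
import Fermat.Agent.T1B.Cmp26.NzdNormTarget
import Fermat.Agent.T1B.Cmp15.Irr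

set_option autoImplicit false
set_option linter.unusedSectionVars false

namespace Fermat.Agent.T1B.Norm84.Iota

open Fermat.Agent.T1B.NodalFacts23 (vertIdeal mem_vertIdeal)

section OneChart

variable {R F : Type*} [CommRing R] [Field F] [Algebra R F]

/-- **NODE-FIBRE, step 2b, one chart.** -/
theorem radHyp_of_items (π : R) (B : Subalgebra R F) (O1 O2 : ValuationSubring F)
    (le1 : ∀ x ∈ B, x ∈ O1) (le2 : ∀ x ∈ B, x ∈ O2)
    (sat : ∀ b ∈ B, ∀ c : F, c ∈ O1 → c ∈ O2 → b = algebraMap R F π * c → c ∈ B)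
    {A κ : Type*} [CommRing A] [Algebra R A] [Field κ] [Algebra R κ]
    (hπκ : algebraMap R κ π = 0) (α β : A →ₐ[R] ↥B) (ev : ↥B →ₐ[R] κ)
    (hev1 : ∀ x ∈ vertIdeal π B O1 le1, ev x = 0) (hev2 : ∀ x ∈ vertIdeal π B O2 le2, ev x = 0)
    (hS1 : ∀ y : ↥B, ∃ b : A, ∃ c ∈ O1, (y : F) - (α b : F) = algebraMap R F π * c)
    (hS2 : ∀ y : ↥B, ∃ b : A, ∃ c ∈ O2, (y : F) - (β b : F) = algebraMap R F π * c)
    (q : ℕ) (hq : 0 < q)
    (hCK : ∀ b : A, ∃ a : A, ∃ o ∈ O2, (α a : F) - (β b : F) ^ q = algebraMap R F π * o) :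
    RadHyp α ev := by
  refine radHyp_of_branches' α β ev π hπκ (vertIdeal π B O1 le1) (vertIdeal π B O2 le2)
    ?_ hev1 hev2 ?_ ?_ q hq ?_
  · rintro x ⟨c1, hc1, hx⟩ y ⟨c2, hc2, hy⟩
    have hmem : c1 * (y : F) ∈ B := by
      refine sat ((x : F) * (y : F)) (B.mul_mem x.2 y.2) (c1 * (y : F))
        (O1.mul_mem _ _ hc1 (le1 _ y.2)) ?_ ?_
      · have : c1 * (y : F) = (x : F) * c2 := by
          rw [hx, hy]; ring
        rw [this]
        exact O2.mul_mem _ _ (le2 _ x.2) hc2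
      · rw [hx]; ring
    refine ⟨⟨c1 * (y : F), hmem⟩, Subtype.ext ?_⟩
    rw [Algebra.smul_def]
    show (x : F) * (y : F) = algebraMap R F π * (c1 * (y : F))
    rw [hx]; ring
  · intro c
    obtain ⟨b, o, ho, h⟩ := hS1 c
    exact ⟨b, o, ho, h⟩
  · intro c
    obtain ⟨b, o, ho, h⟩ := hS2 c
    exact ⟨b, o, ho, h⟩
  · intro b
    obtain ⟨a, o, ho, h⟩ := hCK b
    exact ⟨a, o, ho, h⟩

end OneChart

section Model

open Fermat.Agent.T1.CechFormal70 Fermat.Agent.T1B.Toric98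
open Fermat.Agent.T1.ModelCoh30 (ρ0 ρ1)
open Fermat.Agent.T1B.NodeNF37.ToricBaseInst

universe u

variable {R F : Type u} [CommRing R] [Field F] [Algebra R F]
variable {π : R} {t : F} {B0 B1 : Subalgebra R F} {O1 O2 : ValuationSubring F}
  (Hy : Hyp π t B0 B1 O1 O2) {g : ℕ} (D : CechData R ↥B0 ↥B1 ↥(B0 ⊔ B1) g)
  (hρ0 : D.ρ0 = ρ0 B0 B1) (hρ1 : D.ρ1 = ρ1 B0 B1)
  {En : Type*} {κ : Type*} [Field κ] [Algebra R κ]
  (FD : FibreDatum π D.ρ0 D.ρ1 En κ) (hP : FD.P = Hy.P) (hQ : FD.Q = Hy.Q)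
  (hπκ : algebraMap R κ π = 0)
  {A : Type*} [CommRing A] [Algebra R A]

include Hy hρ0 hP hQ hπκ in
/-- **`RadHyp` on chart `0` of the nodal model, first degeneracy map** (`α` onto mod `π O1`, `β` onto
mod `π O2`, `α a ≡ (β b) ^ q` mod `π O2`). -/
theorem radHyp0_model (α β : A →ₐ[R] ↥B0)
    (hS1 : ∀ y : ↥B0, ∃ b : A, ∃ c ∈ O1, (y : F) - (α b : F) = algebraMap R F π * c)
    (hS2 : ∀ y : ↥B0, ∃ b : A, ∃ c ∈ O2, (y : F) - (β b : F) = algebraMap R F π * c)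
    (q : ℕ) (hq : 0 < q)
    (hCK : ∀ b : A, ∃ a : A, ∃ o ∈ O2, (α a : F) - (β b : F) ^ q = algebraMap R F π * o)
    (e : En) : RadHyp α ((FD.ev e).comp D.ρ0) :=
  radHyp_of_items π B0 O1 O2 Hy.model.le_O1_0 Hy.model.le_O2_0 Hy.model.sat0 hπκ α β _
    (fun x hx => FD.ev_P e _ (by rw [hP, hρ0]; exact hx))
    (fun x hx => FD.ev_Q e _ (by rw [hQ, hρ0]; exact hx)) hS1 hS2 q hq hCK

include Hy hρ0 hP hQ hπκ in
/-- **`RadHyp` on chart `0` of the nodal model, second degeneracy map** (`β a ≡ (α b) ^ q` mod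
`π O1`). -/
theorem radHyp0_model' (α β : A →ₐ[R] ↥B0)
    (hS1 : ∀ y : ↥B0, ∃ b : A, ∃ c ∈ O1, (y : F) - (α b : F) = algebraMap R F π * c)
    (hS2 : ∀ y : ↥B0, ∃ b : A, ∃ c ∈ O2, (y : F) - (β b : F) = algebraMap R F π * c)
    (q : ℕ) (hq : 0 < q)
    (hCK : ∀ b : A, ∃ a : A, ∃ o ∈ O1, (β a : F) - (α b : F) ^ q = algebraMap R F π * o)
    (e : En) : RadHyp β ((FD.ev e).comp D.ρ0) :=
  radHyp_of_items π B0 O2 O1 Hy.model.le_O2_0 Hy.model.le_O1_0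
    (fun b hb c h2 h1 => Hy.model.sat0 b hb c h1 h2) hπκ β α _
    (fun x hx => FD.ev_Q e _ (by rw [hQ, hρ0]; exact hx))
    (fun x hx => FD.ev_P e _ (by rw [hP, hρ0]; exact hx)) hS2 hS1 q hq hCK

include Hy hρ1 hP hQ hπκ in
/-- **`RadHyp` on chart `1` of the nodal model, first degeneracy map.** -/
theorem radHyp1_model (α β : A →ₐ[R] ↥B1)
    (hS1 : ∀ y : ↥B1, ∃ b : A, ∃ c ∈ O1, (y : F) - (α b : F) = algebraMap R F π * c)
    (hS2 : ∀ y : ↥B1, ∃ b : A, ∃ c ∈ O2, (y : F) - (β b : F) = algebraMap R F π * c)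
    (q : ℕ) (hq : 0 < q)
    (hCK : ∀ b : A, ∃ a : A, ∃ o ∈ O2, (α a : F) - (β b : F) ^ q = algebraMap R F π * o)
    (e : En) : RadHyp α ((FD.ev e).comp D.ρ1) :=
  radHyp_of_items π B1 O1 O2 Hy.model.le_O1_1 Hy.model.le_O2_1 Hy.model.sat1 hπκ α β _
    (fun x hx => FD.ev_P e _ (by rw [hP, hρ1]; exact hx))
    (fun x hx => FD.ev_Q e _ (by rw [hQ, hρ1]; exact hx)) hS1 hS2 q hq hCK

include Hy hρ1 hP hQ hπκ in
/-- **`RadHyp` on chart `1` of the nodal model, second degeneracy map.** -/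
theorem radHyp1_model' (α β : A →ₐ[R] ↥B1)
    (hS1 : ∀ y : ↥B1, ∃ b : A, ∃ c ∈ O1, (y : F) - (α b : F) = algebraMap R F π * c)
    (hS2 : ∀ y : ↥B1, ∃ b : A, ∃ c ∈ O2, (y : F) - (β b : F) = algebraMap R F π * c)
    (q : ℕ) (hq : 0 < q)
    (hCK : ∀ b : A, ∃ a : A, ∃ o ∈ O1, (β a : F) - (α b : F) ^ q = algebraMap R F π * o)
    (e : En) : RadHyp β ((FD.ev e).comp D.ρ1) :=
  radHyp_of_items π B1 O2 O1 Hy.model.le_O2_1 Hy.model.le_O1_1
    (fun b hb c h2 h1 => Hy.model.sat1 b hb c h1 h2) hπκ β α _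
    (fun x hx => FD.ev_Q e _ (by rw [hQ, hρ1]; exact hx))
    (fun x hx => FD.ev_P e _ (by rw [hP, hρ1]; exact hx)) hS2 hS1 q hq hCK

end Model

section Pack

open Fermat.Agent.T1.CechFormal70 Fermat.Agent.T1B.Toric11 Fermat.Agent.T1B.Toric98
open Fermat.Agent.T1B.Toric50.Wrap
open scoped TensorProduct
open IsLocalRing

universe u

variable {W B0 B1 B01 B0' B1' B01' : Type u} [CommRing W]
  [CommRing B0] [CommRing B1] [CommRing B01] [Algebra W B0] [Algebra W B1] [Algebra W B01]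
  [CommRing B0'] [CommRing B1'] [CommRing B01'] [Algebra W B0'] [Algebra W B1'] [Algebra W B01']
  [Algebra B0 B01] [Algebra B1 B01] [IsScalarTower W B0 B01] [IsScalarTower W B1 B01]
  [Algebra B0' B01'] [Algebra B1' B01'] [IsScalarTower W B0' B01'] [IsScalarTower W B1' B01']
  {g g' : ℕ} {D : CechData W B0 B1 B01 g} {D' : CechData W B0' B1' B01' g'}
  (hρ0 : ∀ x, D.ρ0 x = algebraMap B0 B01 x) (hρ1 : ∀ x, D.ρ1 x = algebraMap B1 B01 x)
  (hρ0' : ∀ x, D'.ρ0 x = algebraMap B0' B01' x) (hρ1' : ∀ x, D'.ρ1 x = algebraMap B1' B01' x)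
  {π : W} [hmax : (Ideal.span {π}).IsMaximal] [Algebra.FiniteType W B0]
  [Algebra.FiniteType W B1] [Algebra.FiniteType W B01]
  (H : ToricBase D π) {En : Type} [DecidableEq En] {κ : Type u} [Field κ] [Algebra W κ]
  (FD : FibreDatum π D.ρ0 D.ρ1 En κ) {r : ℕ} (node : Fin r → En)
  (O : Type u) [CommRing O] [IsDomain O] [IsDiscreteValuationRing O] [Algebra W O]
  (M : ChartMor W B0 B1 B01 B0' B1' B01')

include hρ0 hρ1 hρ0' hρ1' in
/-- **Constructor of `WNodeHyp`**: the `reg` fields from `B01' ⧸ π` a domain (helper26, NZD-NORM), the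
`irr` fields from `ϖ` prime in `O ⊗ B_j'` (helper15, IRR); remaining: `RadHyp` at the nodes. -/
theorem wNodeHyp_of_prime (hprime : Prime (algebraMap W B01' π)) {ϖ : O} (hϖ : Irreducible ϖ)
    (hp0 : Prime (algebraMap O (O ⊗[W] B0') ϖ)) (hp1 : Prime (algebraMap O (O ⊗[W] B1') ϖ))
    (rad0 : ∀ k, RadHyp M.α0 ((FD.ev (node k)).comp D.ρ0))
    (rad1 : ∀ k, RadHyp M.α1 ((FD.ev (node k)).comp D.ρ1)) :
    WNodeHyp H FD node O M D' where
  reg01 := Cmp26.ToricNorm.reg01 H M hprime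
  reg0 := Cmp26.ToricNorm.reg0 hρ0 hρ0' H M hprime
  reg1 := Cmp26.ToricNorm.reg1 hρ1 hρ1' H M hprime
  irr0 := NilPrime.of_isPrime_nilradical
    (Cmp15.isPrime_nilradical_trunc_of_prime _ hϖ.maximalIdeal_eq hp0 one_ne_zero)
  irr1 := NilPrime.of_isPrime_nilradical
    (Cmp15.isPrime_nilradical_trunc_of_prime _ hϖ.maximalIdeal_eq hp1 one_ne_zero)
  rad0 := rad0
  rad1 := rad1

include hρ0 hρ1 hρ0' hρ1' in
/-- `wNodeHyp_of_prime` with the target facts packaged as `Cmp15.TargetHyp` at `W` and at `O`. -/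
theorem wNodeHyp_of_targetHyp (TW : Cmp15.TargetHyp D' W π) {ϖ : O} (hϖ : Irreducible ϖ)
    (TO : Cmp15.TargetHyp D' O ϖ)
    (rad0 : ∀ k, RadHyp M.α0 ((FD.ev (node k)).comp D.ρ0))
    (rad1 : ∀ k, RadHyp M.α1 ((FD.ev (node k)).comp D.ρ1)) :
    WNodeHyp H FD node O M D' :=
  wNodeHyp_of_prime hρ0 hρ1 hρ0' hρ1' H FD node O M (Cmp26.prime01_of_targetHyp TW) hϖ
    TO.prime0 TO.prime1 rad0 rad1

end Pack

end Fermat.Agent.T1B.Norm84.Iota
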