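/-
T1B / TORIC50 (helper84): **`β_ι` ON THE NODAL TWO-CHART MODEL.**

For `Hy : NodeNF37.ToricBaseInst.Hyp π t B0 B1 O1 O2`, helper98's fibre datum
`FD := nodalFDFin Hy … D hρ0 hρ1` and node system `nodalNodeSys Hy … D hρ0 hρ1`
(`Toric98/ModelFibre`, `ModelNodes`), a smooth target two-chart datum `D'` on subalgebra charts
`B0' B1'` of a second function field with `Cmp15.TargetHyp` at `R` and at the DVR `O`, and two finite
projective morphisms `Mα Mβ : ChartMor` (the two degeneracy maps): if `RadHyp` holds at the nodes for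
`Mα.α_j` and `Mβ.α_j` on both charts (e.g. `Toric87.RadItems.radHyp_chart0_of_items`,
`radHyp_chart1_of_items` on the `ES/N34` model), then

  `βn2 (Mα.normSys ..) (Mβ.normSys ..) 𝔪_O n (Wrap.iota H N O hO n z) = 1`,

which is the argument `β_ι` of `Toric98.ToricBase.towerInput_of_fibre` / `Master.towerInput_of_base`
for `H := Hy.toricBase D hρ0 hρ1`, `N := nodalNodeSys …`, verbatim.
-/
import Fermat.Agent.T1B.Norm84.ModelRad
import Fermat.Agent.T1B.Toric98.ModelNodes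

set_option autoImplicit false
set_option linter.unusedSectionVars false
set_option linter.unusedVariables false
set_option linter.style.haveILetI false

namespace Fermat.Agent.T1B.Norm84.Iota

open Fermat.Agent.T1.CechFormal70 Fermat.Agent.T1B.Toric50.Glue Fermat.Agent.T1B.Norm84
open Fermat.Agent.T1B.Toric11 Fermat.Agent.T1B.Toric98 Fermat.Agent.T1B.Toric50.Wrap
open Fermat.Agent.T1B.Toric98.NodalModel
open Fermat.Agent.T1.ModelCoh30 Fermat.Agent.ES.N34.NodalCore13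
open Fermat.Agent.T1B.NodeNF37.ToricBaseInst
open scoped TensorProduct
open IsLocalRing

section NodalBeta

attribute [local instance] Fermat.Agent.T1.Coh60.algebra0 Fermat.Agent.T1.Coh60.algebra1
  Fermat.Agent.T1.Coh60.isScalarTower0 Fermat.Agent.T1.Coh60.isScalarTower1

universe u

variable {R F F' : Type u} [CommRing R] [Field F] [Algebra R F] [Field F'] [Algebra R F']
variable {π : R} {t : F} {B0 B1 : Subalgebra R F} {O1 O2 : ValuationSubring F}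
  {B0' B1' : Subalgebra R F'}
  (Hy : Hyp π t B0 B1 O1 O2)
  {κ : Type u} [Field κ] [Algebra R κ]
  (hsurj : Function.Surjective (algebraMap R κ))
  (hkκ : RingHom.ker (algebraMap R κ) = Ideal.span {π})
  (hκ1 : ResAlgClosed π O1) (hκ2 : ResAlgClosed π O2)
  (hrat : ∀ m ∈ nodes01 Hy, Function.Surjective (algebraMap R (↥(B0 ⊔ B1) ⧸ m)))
  (hstrong0 : ∀ m : Ideal ↥B0, m.IsMaximal → ¬ OffBranch π B0 O1 m → ¬ OffBranch π B0 O2 m →
    ∃ x y : ↥B0, (∃ o ∈ O2, (x : F) = algebraMap R F π * o) ∧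
      (∃ o ∈ O1, (y : F) = algebraMap R F π * o) ∧
      ∀ f ∈ m, ∃ d : ↥B0, d ∉ m ∧ ∃ a b e : ↥B0, d * f = a * x + b * y + algebraMap R ↥B0 π * e)
  (hstrong1 : ∀ m : Ideal ↥B1, m.IsMaximal → ¬ OffBranch π B1 O1 m → ¬ OffBranch π B1 O2 m →
    ∃ x y : ↥B1, (∃ o ∈ O2, (x : F) = algebraMap R F π * o) ∧
      (∃ o ∈ O1, (y : F) = algebraMap R F π * o) ∧
      ∀ f ∈ m, ∃ d : ↥B1, d ∉ m ∧ ∃ a b e : ↥B1, d * f = a * x + b * y + algebraMap R ↥B1 π * e)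
  {g g' : ℕ} (D : CechData R ↥B0 ↥B1 ↥(B0 ⊔ B1) g)
  (hρ0 : D.ρ0 = ρ0 B0 B1) (hρ1 : D.ρ1 = ρ1 B0 B1)
  (D' : CechData R ↥B0' ↥B1' ↥(B0' ⊔ B1') g')
  (hρ0' : D'.ρ0 = ρ0 B0' B1') (hρ1' : D'.ρ1 = ρ1 B0' B1')
  [hmax : (Ideal.span {π}).IsMaximal] [Algebra.FiniteType R ↥B0] [Algebra.FiniteType R ↥B1]
  [Algebra.FiniteType R ↥(B0 ⊔ B1)]
  (O : Type u) [CommRing O] [IsDomain O] [IsDiscreteValuationRing O] [Algebra R O]
  (hO : algebraMap R O π ∈ maximalIdeal O)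
  (Mα Mβ : ChartMor R ↥B0 ↥B1 ↥(B0 ⊔ B1) ↥B0' ↥B1' ↥(B0' ⊔ B1'))

/-- `FD.P = Hy.P` for helper98's fibre datum (the hypothesis `hP` of `radHyp0_model`, …). -/
theorem nodalFDFin_P_eq :
    (nodalFDFin Hy hsurj hkκ hκ1 hκ2 hrat hstrong0 hstrong1 D hρ0 hρ1).P = Hy.P :=
  (nodalFDFin_P Hy hsurj hkκ hκ1 hκ2 hrat hstrong0 hstrong1 D hρ0 hρ1).trans
    (Hyp.toricBase_P Hy D hρ0 hρ1)

/-- `FD.Q = Hy.Q` for helper98's fibre datum. -/
theorem nodalFDFin_Q_eq :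
    (nodalFDFin Hy hsurj hkκ hκ1 hκ2 hrat hstrong0 hstrong1 D hρ0 hρ1).Q = Hy.Q :=
  (nodalFDFin_Q Hy hsurj hkκ hκ1 hκ2 hrat hstrong0 hstrong1 D hρ0 hρ1).trans
    (Hyp.toricBase_Q Hy D hρ0 hρ1)

include hkκ in
theorem algebraMap_pi_eq_zero' : algebraMap R κ π = 0 := by
  have : π ∈ RingHom.ker (algebraMap R κ) := by
    rw [hkκ]; exact Ideal.subset_span rfl
  exact (RingHom.mem_ker).1 this

/-- **`β_ι` on the nodal model**, from `TargetHyp` at `R` and at `O` and `RadHyp` at the nodes for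
both degeneracy maps on both charts. -/
theorem beta_iota_nodal {ϖ : O} (hϖ : Irreducible ϖ)
    (TW : Cmp15.TargetHyp D' R π) (TO : Cmp15.TargetHyp D' O ϖ)
    (hrad0 : ∀ e, RadHyp Mα.α0
        (((nodalFDFin Hy hsurj hkκ hκ1 hκ2 hrat hstrong0 hstrong1 D hρ0 hρ1).ev e).comp D.ρ0) ∧
      RadHyp Mβ.α0
        (((nodalFDFin Hy hsurj hkκ hκ1 hκ2 hrat hstrong0 hstrong1 D hρ0 hρ1).ev e).comp D.ρ0))
    (hrad1 : ∀ e, RadHyp Mα.α1
        (((nodalFDFin Hy hsurj hkκ hκ1 hκ2 hrat hstrong0 hstrong1 D hρ0 hρ1).ev e).comp D.ρ1) ∧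
      RadHyp Mβ.α1
        (((nodalFDFin Hy hsurj hkκ hκ1 hκ2 hrat hstrong0 hstrong1 D hρ0 hρ1).ev e).comp D.ρ1))
    (n : ℕ) (z : Tn (nodalR Hy) (maximalIdeal O) n) :
    βn2 (Mα.normSys D D' (fun x => by rw [hρ0]; rfl) (fun x => by rw [hρ1]; rfl)
        (fun x => by rw [hρ0']; rfl) (fun x => by rw [hρ1']; rfl))
      (Mβ.normSys D D' (fun x => by rw [hρ0]; rfl) (fun x => by rw [hρ1]; rfl)
        (fun x => by rw [hρ0']; rfl) (fun x => by rw [hρ1']; rfl))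
      (maximalIdeal O) n
      (Toric50.Wrap.iota (Hy.toricBase D hρ0 hρ1)
        (nodalNodeSys Hy hsurj hkκ hκ1 hκ2 hrat hstrong0 hstrong1 D hρ0 hρ1) O hO n z) = 1 := by
  have h0 : ∀ x, D.ρ0 x = algebraMap ↥B0 ↥(B0 ⊔ B1) x := fun x => by rw [hρ0]; rfl
  have h1 : ∀ x, D.ρ1 x = algebraMap ↥B1 ↥(B0 ⊔ B1) x := fun x => by rw [hρ1]; rfl
  have h0' : ∀ x, D'.ρ0 x = algebraMap ↥B0' ↥(B0' ⊔ B1') x := fun x => by rw [hρ0']; rfl
  have h1' : ∀ x, D'.ρ1 x = algebraMap ↥B1' ↥(B0' ⊔ B1') x := fun x => by rw [hρ1']; rfl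
  have Rα : WNodeHyp (Hy.toricBase D hρ0 hρ1)
      (nodalFDFin Hy hsurj hkκ hκ1 hκ2 hrat hstrong0 hstrong1 D hρ0 hρ1) Fin.castSucc O Mα D' :=
    wNodeHyp_of_targetHyp h0 h1 h0' h1' _ _ _ O Mα TW hϖ TO (fun k => (hrad0 _).1)
      (fun k => (hrad1 _).1)
  have Rβ : WNodeHyp (Hy.toricBase D hρ0 hρ1)
      (nodalFDFin Hy hsurj hkκ hκ1 hκ2 hrat hstrong0 hstrong1 D hρ0 hρ1) Fin.castSucc O Mβ D' :=
    wNodeHyp_of_targetHyp h0 h1 h0' h1' _ _ _ O Mβ TW hϖ TO (fun k => (hrad0 _).2)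
      (fun k => (hrad1 _).2)
  exact beta_iota_tower_of_rad (hρ0 := h0) (hρ1 := h1) (hρ0' := h0') (hρ1' := h1')
    hsurj hkκ
    (nodalFDFin_hev Hy hsurj hkκ hκ1 hκ2 hrat hstrong0 hstrong1 D hρ0 hρ1)
    (nodalFDFin_hinj Hy hsurj hkκ hκ1 hκ2 hrat hstrong0 hstrong1 D hρ0 hρ1)
    (Fin.castSucc_injective _) hO Rα Rβ n z

end NodalBeta

end Fermat.Agent.T1B.Norm84.Iota
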